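import Fermat.Agent.S43.Ctrl.KumAbs
import Fermat.Agent.S36R.RestProof

/-!
# S43 / CTRL, file `KumConc`: the reductions of a Kummer function of level `M q²` along `W20, W11, W02` are Kummer functions of `E k M`
(helper75)

`S : NormC.Setup A M q`, `M` neat.  `f : S.F = FF (K0 A) (M q q)` a unit of the three vertical valuation rings with `n ∣ ord_P f` for all places
`P` of `S.F / K0`.  Then `n ∣ ord_P (rho_i f)` for every place `P` of `Igusa.E k M` (`k` the residue field of `A`), `i = 0, 1, 2`.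
-/

set_option autoImplicit false
set_option linter.unusedSectionVars false

noncomputable section

namespace Fermat.Agent.S43.Ctrl

open AlgebraicCurve ModularCurve Fermat.Agent.S24 Fermat.Agent.GAL Fermat.Agent.GAL.Gauss
  Fermat.Agent.S36R Fermat.Agent.S36R.NormC Fermat.Agent.S36R.Bridge Fermat.Agent.DR.Conc
  Fermat.Agent.S36R.AA

variable {A : ValuationSubring Kbar} {M q : ℕ} [NeZero M] [NeZero q]

/-- the residue of a constant. -/
theorem rho_const {F0 : Type*} [Field F0] [Algebra (O0 A) F0] {φ : F0 →+* LaurentSeries Kbar}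
    {W : ValuationSubring F0} (h : IsGaussOf A M φ W)
    (hφ : ∀ a : O0 A, φ (algebraMap (O0 A) F0 a) = HahnSeries.C ((a : K0 A) : Kbar)) (a : O0 A) :
    ∃ hmem : algebraMap (O0 A) F0 a ∈ W, rho h ⟨algebraMap (O0 A) F0 a, hmem⟩
      = algebraMap (IsLocalRing.ResidueField ↥A) (Igusa.E (IsLocalRing.ResidueField ↥A) M) (IsLocalRing.residue ↥A ⟨((a : K0 A) : Kbar), a.2⟩) := by
  have hconst : algebraMap (O0 A) F0 a ∈ W := by
    rw [h.mem_iff, hφ, C_mem_gRing_iff]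
    exact a.2
  refine ⟨hconst, ?_⟩
  have hmem : HahnSeries.C (((⟨((a : K0 A) : Kbar), a.2⟩ : ↥A) : Kbar)) ∈ gRing A :=
    (C_mem_gRing_iff A _).2 a.2
  apply Subtype.ext
  rw [coe_rho]
  have h2 := gRes_C A (⟨((a : K0 A) : Kbar), a.2⟩ : ↥A) hmem
  have h3 : (⟨φ ((⟨algebraMap (O0 A) F0 a, hconst⟩ : W) : F0),
      (h.mem_iff _).1 hconst⟩ : gRing A)
      = ⟨HahnSeries.C (((⟨((a : K0 A) : Kbar), a.2⟩ : ↥A) : Kbar)), hmem⟩ :=
    Subtype.ext (hφ a)
  rw [h3, h2, HahnSeries.C_apply, ← algebraMap_laurentSeries_eq_single]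
  rfl

/-- every constant of `k` is the residue of a constant of `O0`. -/
theorem exists_rho_const (hq : q.Prime) (hA : A.LiesOverPrime q)
    {F0 : Type*} [Field F0] [Algebra (O0 A) F0] {φ : F0 →+* LaurentSeries Kbar}
    {W : ValuationSubring F0} (h : IsGaussOf A M φ W)
    (hφ : ∀ a : O0 A, φ (algebraMap (O0 A) F0 a) = HahnSeries.C ((a : K0 A) : Kbar)) (b : (IsLocalRing.ResidueField ↥A)) :
    ∃ (a : O0 A) (hmem : algebraMap (O0 A) F0 a ∈ W),
      rho h ⟨algebraMap (O0 A) F0 a, hmem⟩ = algebraMap (IsLocalRing.ResidueField ↥A) (Igusa.E (IsLocalRing.ResidueField ↥A) M) b := by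
  obtain ⟨b0, hb0⟩ := (K0L.bijective_residueField_map A hq hA).2 b
  obtain ⟨a, rfl⟩ := IsLocalRing.residue_surjective b0
  obtain ⟨hmem, e⟩ := rho_const h hφ a
  refine ⟨a, hmem, ?_⟩
  rw [e, ← hb0, IsLocalRing.ResidueField.map_residue]
  rfl

/-- the two charts together. -/
theorem kum_aux (S : Setup A M q) (hneat : 4 ∣ M ∨ 9 ∣ M) (i : Fin 3)
    {φ : S.F →+* LaurentSeries Kbar} (h : IsGaussOf A M φ (S.lvl.W i))
    (hφ : ∀ a : O0 A, φ (algebraMap (O0 A) S.F a) = HahnSeries.C ((a : K0 A) : Kbar))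
    (hint₀ : ∀ (x : S.F) (hx : x ∈ S.R₀), ∃ hxW : x ∈ S.lvl.W i,
      IsIntegral (Algebra.adjoin (IsLocalRing.ResidueField ↥A)
        {Igusa.jb (IsLocalRing.ResidueField ↥A) M}) (rho h ⟨x, hxW⟩))
    (hint₁ : ∀ (x : S.F) (hx : x ∈ S.R₁), ∃ hxW : x ∈ S.lvl.W i,
      IsIntegral (Algebra.adjoin (IsLocalRing.ResidueField ↥A)
        {(Igusa.jb (IsLocalRing.ResidueField ↥A) M)⁻¹}) (rho h ⟨x, hxW⟩))
    (hcinv : ∃ (hc : S.j⁻¹ ∈ S.lvl.W i) (e : ℕ), e ≠ 0 ∧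
      rho h ⟨S.j⁻¹, hc⟩ = ((Igusa.jb (IsLocalRing.ResidueField ↥A) M)⁻¹) ^ e)
    {n : ℕ} (hn : 0 < n) {f : S.F} (hu : ∀ i, IsU (S.lvl.W i) f)
    (hord : ∀ P : Place (K0 A) S.F, (n : ℤ) ∣ P.ord f)
    (P : Place (IsLocalRing.ResidueField ↥A) (Igusa.E (IsLocalRing.ResidueField ↥A) M)) :
    (n : ℤ) ∣ P.ord (rho h ⟨f, (hu i).mem⟩) := by
  have := Igusa.isAlgClosed_residueField A
  have := Igusa.isFF_E (k := IsLocalRing.ResidueField ↥A) (M := M) S.hM
  have hd : Deliver S := deliver_of_rest S hneat (rest S hneat)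
  have hK := exists_q_pow_mul_mem A S.hq S.hA
  by_cases hP : Igusa.jb (IsLocalRing.ResidueField ↥A) M ∈ P.toValuationSubring
  · refine kum_chart hd.good hd.chart₀ hK i (rho h) _ (rho_eq_zero_iff h)
      (fun x hx => (hint₀ x hx).2) (fun b => ?_) P hP (fun 𝔫 _ hq𝔫 _ => hd.p₀ 𝔫 hq𝔫) hn hu hord
    obtain ⟨a, hmem, e⟩ := exists_rho_const S.hq S.hA h hφ b
    exact ⟨_, hd.chart₀.chart.algebraMap_mem a, e⟩
  · have hP' : (Igusa.jb (IsLocalRing.ResidueField ↥A) M)⁻¹ ∈ P.toValuationSubring.nonunits := by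
      rw [ValuationSubring.mem_nonunits_iff, map_inv₀]
      rw [← ValuationSubring.valuation_le_one_iff, not_le] at hP
      exact inv_lt_one_of_one_lt₀ hP
    have hP'' : (Igusa.jb (IsLocalRing.ResidueField ↥A) M)⁻¹ ∈ P.toValuationSubring := by
      rw [← ValuationSubring.valuation_le_one_iff]
      exact ((ValuationSubring.mem_nonunits_iff _).1 hP').le
    refine kum_chart hd.good hd.chart₁ hK i (rho h) _ (rho_eq_zero_iff h)
      (fun x hx => (hint₁ x hx).2) (fun b => ?_) P hP''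
      (fun 𝔫 _ hq𝔫 hmem => (hd.p₁ 𝔫 hq𝔫 (fun x hx => ?_)).1) hn hu hord
    · obtain ⟨a, hmem, e⟩ := exists_rho_const S.hq S.hA h hφ b
      exact ⟨_, hd.chart₁.chart.algebraMap_mem a, e⟩
    · rw [hmem]
      obtain ⟨hc, e, he, hρ⟩ := hcinv
      have h1 : (⟨(x : S.F), hd.chart₁.chart.le_W i x x.2⟩ : S.lvl.W i) = ⟨S.j⁻¹, hc⟩ :=
        Subtype.ext hx
      rw [h1, hρ, ValuationSubring.mem_nonunits_iff, map_pow]
      exact pow_lt_one₀ zero_le ((ValuationSubring.mem_nonunits_iff _).1 hP') he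

/-- **KUM.**  The three reductions of a Kummer function which is a unit of `W20, W11, W02` are Kummer functions of `E k M`. -/
theorem kum (S : Setup A M q) (hneat : 4 ∣ M ∨ 9 ∣ M) {n : ℕ} (hn : 0 < n) {f : S.F}
    (hu : ∀ i, IsU (S.lvl.W i) f) (hord : ∀ P : Place (K0 A) S.F, (n : ℤ) ∣ P.ord f)
    (P : Place (IsLocalRing.ResidueField ↥A) (Igusa.E (IsLocalRing.ResidueField ↥A) M)) :
    (n : ℤ) ∣ P.ord (rho (g0 (resOK S)) ⟨f, (hu 0).mem⟩) ∧
    (n : ℤ) ∣ P.ord (rho (g1 (resOK S)) ⟨f, (hu 1).mem⟩) ∧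
    (n : ℤ) ∣ P.ord (rho (g2 (resOK S)) ⟨f, (hu 2).mem⟩) := by
  have hM := S.hM
  have hg := S.goodRed hneat
  have h3 := resOK S
  refine ⟨?_, ?_, ?_⟩
  · refine kum_aux S hneat 0 (g0 h3) (fun a => S.e0_const (a : K0 A))
      (fun x hx => ⟨_, (full00 hM hg h3).integral x hx⟩)
      (fun x hx => ⟨_, (full00' hM hg h3).integral x hx⟩) ?_ hn hu hord P
    obtain ⟨hc, hρ⟩ := rho_eq_of_red (g0 h3) (red_e0_cc_inv (S := S))
    exact ⟨hc, 1, one_ne_zero, by rw [pow_one]; exact hρ⟩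
  · refine kum_aux S hneat 1 (g1 h3) (fun a => S.e1_const (a : K0 A))
      (fun x hx => ⟨_, (full10 hM hg h3).integral x hx⟩)
      (fun x hx => ⟨_, (full10' hM hg h3).integral x hx⟩) ?_ hn hu hord P
    obtain ⟨hc, hρ⟩ := rho_eq_of_red (g1 h3) (red_e1_cc_inv (S := S))
    exact ⟨hc, 1, one_ne_zero, by rw [pow_one]; exact hρ⟩
  · obtain ⟨hc, hρ⟩ := rho_eq_of_red (g2 h3) (red_e2_cc_inv (S := S))
    have hcb : IsIntegral (Algebra.adjoin (IsLocalRing.ResidueField ↥A)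
        {(Igusa.jb (IsLocalRing.ResidueField ↥A) M)⁻¹}) (rho (g2 h3) ⟨(cc S)⁻¹, hc⟩) := by
      rw [hρ]; exact ((isIntegral_self_adjoin _).pow q).pow q
    refine kum_aux S hneat 2 (g2 h3) (fun a => S.e2_const (a : K0 A))
      (fun x hx => ⟨_, (full22 hM hg h3 p2_j0_mem).integral x hx⟩)
      (fun x hx => isIntegral_rho hM (old22 hM h3) hc hcb x hx) ?_ hn hu hord P
    exact ⟨hc, q * q, mul_ne_zero S.hq.ne_zero S.hq.ne_zero, by rw [pow_mul]; exact hρ⟩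

end Fermat.Agent.S43.Ctrl
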