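import Fermat.Agent.S43.Ctrl.RedInj
import Fermat.Agent.S43.Ctrl.KumConc

/-!
# S43 / CTRL, file `RedLiftG`: the fields `lift0, lift1, lift2` of `AbsY` (one generic proof), `n = p ^ e`

`x ∈ UU S n` with representative `f`; `v := ρ_i f` is a Kummer function of `E κ L` (`kum`); `GoodRed.exists_lift_RMq` lifts it to level `L`;
`exists_rep_K0` moves the lift to `K0`; `ρ_i` is onto.
-/

set_option autoImplicit false
set_option linter.unusedSectionVars false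

noncomputable section

namespace Fermat.Agent.S43.Ctrl.RedInj

open AlgebraicCurve ModularCurve Fermat.Agent.S24 Fermat.Agent.GAL Fermat.Agent.GAL.Hecke
  Fermat.Agent.GAL.Gauss Fermat.Agent.DR Fermat.Agent.DR.Conc Fermat.Agent.S36R
  Fermat.Agent.S36R.NormC Fermat.Agent.S36.StepA

variable {A : ValuationSubring Kbar} {L s : ℕ} [NeZero L] [NeZero s] (S : Setup A L s)

theorem rho_ne_zero' {φ : S.F →+* LaurentSeries Kbar} {W : ValuationSubring S.F}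
    (h : AA.IsGaussOf A L φ W) {a : S.F} (ha : IsU W a) : AA.rho h ⟨a, ha.mem⟩ ≠ 0 := by
  intro h1
  have := (AA.rho_eq_zero_iff h ⟨a, ha.mem⟩).1 h1
  rw [show W.valuation ((⟨a, ha.mem⟩ : W) : S.F) = 1 from ha] at this
  exact lt_irrefl _ this

theorem rho_inv' {φ : S.F →+* LaurentSeries Kbar} {W : ValuationSubring S.F}
    (h : AA.IsGaussOf A L φ W) {a : S.F} (ha : IsU W a) :
    AA.rho h ⟨a⁻¹, ha.inv.mem⟩ = (AA.rho h ⟨a, ha.mem⟩)⁻¹ := by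
  have h1 : AA.rho h ⟨a⁻¹, ha.inv.mem⟩ * AA.rho h ⟨a, ha.mem⟩ = 1 := by
    rw [← map_mul]
    have : (⟨a⁻¹, ha.inv.mem⟩ * ⟨a, ha.mem⟩ : W) = 1 := Subtype.ext (inv_mul_cancel₀ ha.ne_zero)
    rw [this, map_one]
  exact eq_inv_of_mul_eq_one_left h1

/-- the common core of `lift0, lift1, lift2`. -/
theorem lift_core (hneat : 4 ∣ L ∨ 9 ∣ L) (p e : ℕ) (hp : p.Prime) (hps : p ≠ s) (i : Fin 3)
    {φ : S.F →+* LaurentSeries Kbar} (h : AA.IsGaussOf A L φ (S.W i))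
    {π : FF (K0 A) L →ₐ[K0 A] S.F}
    (hO : AA.OldData (Setup_hM S) h (π : FF (K0 A) L →+* S.F))
    (hsurj : Function.Surjective (AA.rho h))
    (hπU : ∀ u : FF (K0 A) L, (RM A L (Setup_hM S)).red (bc0 A L u) ≠ 0 →
      ∀ j, IsU (S.W j) (π u))
    (d : KV Kbar (FN L) (p ^ e) →+ KV Kbar (FN (L * s * s)) (p ^ e))
    (hd : ∀ (u : (FF (K0 A) L)ˣ)
      (hu : Units.map (bc0 A L : FF (K0 A) L →* FN L) u ∈ kummerUnits Kbar (FN L) (p ^ e)),
      IsRep S (p ^ e) (d (KV.mk ⟨_, hu⟩)) (Units.map (π : FF (K0 A) L →* S.F) u))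
    (hK : ∀ (f : S.F) (hu : ∀ j, IsU (S.W j) f),
      (∀ P : Place (K0 A) S.F, ((p ^ e : ℕ) : ℤ) ∣ P.ord f) →
      ∀ P : Place (IsLocalRing.ResidueField ↥A) (Igusa.E (IsLocalRing.ResidueField ↥A) L),
        ((p ^ e : ℕ) : ℤ) ∣ P.ord (AA.rho h ⟨f, (hu i).mem⟩))
    (x : KV Kbar (FN (L * s * s)) (p ^ e)) (hx : x ∈ UU S (p ^ e)) :
    ∃ y, x - d y ∈ DD S (p ^ e) i := by
  have hn : 0 < p ^ e := pow_pos hp.pos e
  have hns : (p ^ e).Coprime s := Nat.Coprime.pow_left e ((Nat.coprime_primes hp S.hq).2 hps)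
  obtain ⟨f, hf, hfU⟩ := hx
  have hord : ∀ P : Place (K0 A) S.F, ((p ^ e : ℕ) : ℤ) ∣ P.ord (f : S.F) :=
    mem_kummerUnits0 A (L * s * s) (p ^ e) f hf.1
  have hv0 := rho_ne_zero' S h (hfU i)
  obtain ⟨U, w, hUw⟩ := GoodRed.exists_lift_RMq A L s S.hq S.hqM S.hA hneat p hp hps e
    ⟨Units.mk0 _ hv0, hK f hfU hord⟩
  have hUw' : (RM A L (Setup_hM S)).red ((U : (FN L)ˣ) : FN L)
      = (w : Igusa.E (IsLocalRing.ResidueField ↥A) L) ^ (p ^ e) * AA.rho h ⟨f, (hfU i).mem⟩ := hUw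
  obtain ⟨u, hu, hz, hred⟩ := exists_rep_K0 S hneat hn hns (KV.mk U)
  rw [KV.mk_eq_mk_iff] at hz
  obtain ⟨t, ht⟩ := hz
  have hU0 : (RM A L (Setup_hM S)).red ((U : (FN L)ˣ) : FN L) ≠ 0 := by
    rw [hUw']
    exact mul_ne_zero (pow_ne_zero _ w.ne_zero) hv0
  have ht' : (t : FN L) ^ (p ^ e) = bc0 A L (u : FF (K0 A) L) / ((U : (FN L)ˣ) : FN L) := by
    have h1 := congrArg (fun z : (FN L)ˣ => (z : FN L)) ht
    have h2 : (t : FN L) ^ (p ^ e) * ((U : (FN L)ˣ) : FN L) = bc0 A L (u : FF (K0 A) L) := by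
      simpa using h1
    rw [← h2, mul_div_assoc, div_self (Units.ne_zero _), mul_one]
  have hredt : (RM A L (Setup_hM S)).red (t : FN L) ^ (p ^ e)
      = (RM A L (Setup_hM S)).red (bc0 A L (u : FF (K0 A) L))
        / (RM A L (Setup_hM S)).red ((U : (FN L)ˣ) : FN L) := by
    rw [← (RM A L (Setup_hM S)).red_pow, ht',
      (RM A L (Setup_hM S)).red_div ((RM A L (Setup_hM S)).mem_of_red_ne_zero hred) hU0]
  obtain ⟨w', hw'⟩ : ∃ w' : Igusa.E (IsLocalRing.ResidueField ↥A) L,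
      w' = (RM A L (Setup_hM S)).red (t : FN L) * w := ⟨_, rfl⟩
  have hw'n : (RM A L (Setup_hM S)).red (bc0 A L (u : FF (K0 A) L))
      = w' ^ (p ^ e) * AA.rho h ⟨f, (hfU i).mem⟩ := by
    rw [hw', mul_pow, hredt, mul_assoc, ← hUw', div_mul_cancel₀ _ hU0]
  have hw'0 : w' ≠ 0 := by
    rintro rfl
    rw [zero_pow hn.ne', zero_mul] at hw'n
    exact hred hw'n
  obtain ⟨g, hg⟩ := hsurj w'⁻¹
  obtain ⟨hu', hρ⟩ := hO.red u ((RM A L (Setup_hM S)).mem_of_red_ne_zero hred)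
  have hπi : IsU (S.W i) (π (u : FF (K0 A) L)) := hπU _ hred i
  refine ⟨KV.mk ⟨_, hu⟩, f * (Units.map (π : FF (K0 A) L →* S.F) u)⁻¹, ?_, ?_, (g : S.F), ?_⟩
  · rw [sub_eq_add_neg]
    exact hf.add (hd u hu).neg
  · intro j
    rw [Units.val_mul, Units.val_inv_eq_inv_val]
    exact (hfU j).mul (hπU _ hred j).inv
  · rw [Units.val_mul, Units.val_inv_eq_inv_val]
    have h0 : AA.rho h (g ^ (p ^ e) - ⟨f, (hfU i).mem⟩ * ⟨(π (u : FF (K0 A) L))⁻¹, hπi.inv.mem⟩)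
        = 0 := by
      have hρ' : AA.rho h ⟨π (u : FF (K0 A) L), hπi.mem⟩
          = w' ^ (p ^ e) * AA.rho h ⟨f, (hfU i).mem⟩ := by
        rw [← hw'n]
        exact hρ
      rw [map_sub, map_pow, map_mul, hg, rho_inv' S h hπi, hρ', inv_pow, mul_inv,
        mul_comm (w' ^ (p ^ e))⁻¹, ← mul_assoc, mul_inv_cancel₀ hv0, one_mul, sub_self]
    exact (AA.rho_eq_zero_iff h _).1 h0

variable (hneat : 4 ∣ L ∨ 9 ∣ L) (p e : ℕ) (hp : p.Prime) (hps : p ≠ s)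

include hneat hp hps

theorem lift0 (x : KV Kbar (FN (L * s * s)) (p ^ e)) (hx : x ∈ UU S (p ^ e)) :
    ∃ y, x - d1 L s (p ^ e) y ∈ DD S (p ^ e) 0 := by
  have := Igusa.finiteDimensional_jb (IsLocalRing.ResidueField ↥A) L (Setup_hM S)
  exact lift_core S hneat p e hp hps 0 (AA.g0 (AA.resOK S)) (AA.old00 (Setup_hM S) (AA.resOK S))
    (AA.Branch_rho_surjective (AA.full00 (Setup_hM S) (S.goodRed hneat) (AA.resOK S)))
    (isU_p0 S) (d1 L s (p ^ e)) (isRep_d1 S)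
    (fun f hu hord P => (kum S hneat (pow_pos hp.pos e) hu hord P).1) x hx

theorem lift1 (x : KV Kbar (FN (L * s * s)) (p ^ e)) (hx : x ∈ UU S (p ^ e)) :
    ∃ y, x - d1 L s (p ^ e) y ∈ DD S (p ^ e) 1 := by
  have := Igusa.finiteDimensional_jb (IsLocalRing.ResidueField ↥A) L (Setup_hM S)
  exact lift_core S hneat p e hp hps 1 (AA.g1 (AA.resOK S)) (AA.old10 (Setup_hM S) (AA.resOK S))
    (AA.Branch_rho_surjective (AA.full10 (Setup_hM S) (S.goodRed hneat) (AA.resOK S)))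
    (isU_p0 S) (d1 L s (p ^ e)) (isRep_d1 S)
    (fun f hu hord P => (kum S hneat (pow_pos hp.pos e) hu hord P).2.1) x hx

theorem lift2 (x : KV Kbar (FN (L * s * s)) (p ^ e)) (hx : x ∈ UU S (p ^ e)) :
    ∃ y, x - dss L s (p ^ e) y ∈ DD S (p ^ e) 2 := by
  have := Igusa.finiteDimensional_jb (IsLocalRing.ResidueField ↥A) L (Setup_hM S)
  exact lift_core S hneat p e hp hps 2 (AA.g2 (AA.resOK S)) (AA.old22 (Setup_hM S) (AA.resOK S))
    (AA.Branch_rho_surjective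
      (AA.full22 (Setup_hM S) (S.goodRed hneat) (AA.resOK S) AA.p2_j0_mem))
    (isU_p2 S) (dss L s (p ^ e)) (isRep_dss S)
    (fun f hu hord P => (kum S hneat (pow_pos hp.pos e) hu hord P).2.2) x hx

end Fermat.Agent.S43.Ctrl.RedInj
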