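import Fermat.Agent.S43.Ctrl.NeatOf
import Fermat.Agent.S43.Ctrl.RedLiftG

/-!
# S43 / CTRL, file `Neat`: **Theorem Y**, unconditional

* `liftStatement : LiftStatement`, `neatStatement : NeatStatement`, `ctrlStatement : CtrlStatement`.
-/

set_option autoImplicit false

namespace Fermat.Agent.S43.Ctrl

theorem liftStatement : LiftStatement := by
  intro L s _ _ A S hneat p e hp hps x hx
  exact ⟨RedInj.lift0 S hneat p e hp hps x hx, RedInj.lift1 S hneat p e hp hps x hx,
    RedInj.lift2 S hneat p e hp hps x hx⟩

theorem neatStatement : NeatStatement := neat_of liftStatement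

/-- **Theorem Y** (report 420), operator form, at every neat level `L s²`. -/
theorem ctrlStatement : CtrlStatement := ctrl_of liftStatement

end Fermat.Agent.S43.Ctrl
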