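import Mathlib

/-!
# S43 / CTRL, file `Abs`: the abstract (group theoretic) form of Theorem Y  (report 420)

`V = V_n(L s²)`, `V' = V_n(L)`, `φ`, `X` = a Frobenius at `s` on `V`, `V'`;  `d1, ds, dss = π_1^*, π_s^*, π_{s²}^*`;
`VI` = inertia invariants, `U` = classes of Kummer functions over `K0` which are units at `W 0, W 1, W 2`,
`D i` = those whose reduction along `W i` is an `n`-th power.

With `M' = [[X², sX, s²], [X², sX, X²], [s², sX, X²]]`, `N = [[0, -sX, sX], [-X², X²+s², -X²], [sX, -sX, 0]]`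
one has `M' N = N M' = - sX (X² - s²)`.

PROOF of `main`.  `x₁ := φ x - x ∈ U`; `y₀ y₁ y₂` from the liftings; `z := N y`, i.e.
`z₀ = sX(y₂ - y₁)`, `z₁ = -X² y₀ + (X² + s²) y₁ - X² y₂`, `z₂ = sX(y₀ - y₁)`;
`w := s φ (φ² - s²) x₁ + d1 (X² z₀) + ds (X² z₁) + dss (X² z₂)` lies in `D i` for all `i`:
mod `D 0`: `d1 (X² z₀) + ds (X (X z₁)) + dss (X (X z₂)) ≡ d1 (X² z₀ + s X z₁ + s² z₂) = d1 (- sX(X² - s²) y₀)` and
`s φ (φ² - s²) x₁ ≡ d1 (sX(X² - s²) y₀)`;  similarly for `D 1`, `D 2`.  Then `hK`: `(φ² - s²) w = 0`.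
PROOF of `inj`.  `0 = φ² (δ z) ≡ d1 ((M' z)₀)` mod `D 0` etc., so `M' z = 0`, so `N M' z = 0`.
-/

set_option autoImplicit false

namespace Fermat.Agent.S43.Ctrl

variable {V V' : Type*} [AddCommGroup V] [AddCommGroup V']

/-- the data and the facts of Theorem Y. -/
structure AbsY (s : ℤ) (φ : V →+ V) (X : V' →+ V') (d1 ds dss : V' →+ V)
    (VI U : AddSubgroup V) (D : Fin 3 → AddSubgroup V) : Prop where
  comm1 : ∀ z, φ (d1 z) = d1 (X z)
  comms : ∀ z, φ (ds z) = ds (X z)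
  commss : ∀ z, φ (dss z) = dss (X z)
  stab : ∀ i, ∀ x ∈ D i, φ x ∈ D i
  unit : ∀ x ∈ VI, φ x - x ∈ U
  lift0 : ∀ x ∈ U, ∃ y, x - d1 y ∈ D 0
  lift1 : ∀ x ∈ U, ∃ y, x - d1 y ∈ D 1
  lift2 : ∀ x ∈ U, ∃ y, x - dss y ∈ D 2
  k0a : ∀ z, ds (X z) - s • d1 z ∈ D 0
  k0b : ∀ z, dss (X (X z)) - (s * s) • d1 z ∈ D 0
  k1a : ∀ z, ds (X z) - s • d1 z ∈ D 1
  k1b : ∀ z, dss z - d1 z ∈ D 1
  k2a : ∀ z, ds (X z) - s • dss z ∈ D 2
  k2b : ∀ z, d1 (X (X z)) - (s * s) • dss z ∈ D 2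
  inj0 : ∀ z, d1 z ∈ D 0 → z = 0
  inj1 : ∀ z, d1 z ∈ D 1 → z = 0
  inj2 : ∀ z, dss z ∈ D 2 → z = 0
  deep : ∀ x, (∀ i, x ∈ D i) → φ (φ x) = (s * s) • x

/-- `φ² - s²`. -/
def opE {W : Type*} [AddCommGroup W] (s : ℤ) (φ : W →+ W) (x : W) : W := φ (φ x) - (s * s) • x

variable {s : ℤ} {φ : V →+ V} {X : V' →+ V'} {d1 ds dss : V' →+ V} {VI U : AddSubgroup V}
  {D : Fin 3 → AddSubgroup V}

/-- **Theorem Y, abstract form**: `s φ (φ² - s²)² (φ - 1) x` is old for every inertia invariant `x`. -/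
theorem AbsY.main (h : AbsY s φ X d1 ds dss VI U D) (x : V) (hx : x ∈ VI) :
    ∃ z0 z1 z2 : V', s • φ (opE s φ (opE s φ (φ x - x))) = d1 z0 + ds z1 + dss z2 := by
  obtain ⟨x1, hx1⟩ : ∃ x1, x1 = φ x - x := ⟨_, rfl⟩
  have hU : x1 ∈ U := hx1 ▸ h.unit x hx
  rw [← hx1]
  obtain ⟨y0, hy0⟩ := h.lift0 x1 hU
  obtain ⟨y1, hy1⟩ := h.lift1 x1 hU
  obtain ⟨y2, hy2⟩ := h.lift2 x1 hU
  have hst : ∀ i, ∀ a ∈ D i, s • φ (opE s φ a) ∈ D i := by
    intro i a ha
    refine (D i).zsmul_mem (h.stab i _ ?_) s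
    exact (D i).sub_mem (h.stab i _ (h.stab i _ ha)) ((D i).zsmul_mem ha _)
  obtain ⟨z0, hz0⟩ : ∃ z0, z0 = s • X (y2 - y1) := ⟨_, rfl⟩
  obtain ⟨z1, hz1⟩ : ∃ z1, z1 = - X (X y0) + (X (X y1) + (s * s) • y1) - X (X y2) := ⟨_, rfl⟩
  obtain ⟨z2, hz2⟩ : ∃ z2, z2 = s • X (y0 - y1) := ⟨_, rfl⟩
  obtain ⟨w, hw⟩ : ∃ w, w = s • φ (opE s φ x1) + d1 (X (X z0)) + ds (X (X z1))
      + dss (X (X z2)) := ⟨_, rfl⟩
  have hw0 : w ∈ D 0 := by
    have e : w = s • φ (opE s φ (x1 - d1 y0)) + (ds (X (X z1)) - s • d1 (X z1))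
        + (dss (X (X z2)) - (s * s) • d1 z2) := by
      rw [hw, hz0, hz1, hz2]
      simp only [opE, map_add, map_sub, map_neg, map_zsmul, h.comm1]
      module
    rw [e]
    exact (D 0).add_mem ((D 0).add_mem (hst 0 _ hy0) (h.k0a _)) (h.k0b _)
  have hw1 : w ∈ D 1 := by
    have e : w = s • φ (opE s φ (x1 - d1 y1)) + (ds (X (X z1)) - s • d1 (X z1))
        + (dss (X (X z2)) - d1 (X (X z2))) := by
      rw [hw, hz0, hz1, hz2]
      simp only [opE, map_add, map_sub, map_neg, map_zsmul, h.comm1]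
      module
    rw [e]
    exact (D 1).add_mem ((D 1).add_mem (hst 1 _ hy1) (h.k1a _)) (h.k1b _)
  have hw2 : w ∈ D 2 := by
    have e : w = s • φ (opE s φ (x1 - dss y2)) + (ds (X (X z1)) - s • dss (X z1))
        + (d1 (X (X z0)) - (s * s) • dss z0) := by
      rw [hw, hz0, hz1, hz2]
      simp only [opE, map_add, map_sub, map_neg, map_zsmul, h.commss]
      module
    rw [e]
    exact (D 2).add_mem ((D 2).add_mem (hst 2 _ hy2) (h.k2a _)) (h.k2b _)
  have hd := h.deep w (by intro i; fin_cases i <;> assumption)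
  refine ⟨-(opE s X (X (X z0))), -(opE s X (X (X z1))), -(opE s X (X (X z2))), ?_⟩
  rw [hw] at hd
  simp only [opE, map_add, map_sub, map_neg, map_zsmul, h.comm1, h.comms, h.commss] at hd ⊢
  linear_combination (norm := module) hd

/-- **Injectivity of `δ`**, abstract form. -/
theorem AbsY.inj (h : AbsY s φ X d1 ds dss VI U D) (z0 z1 z2 : V')
    (hz : d1 z0 + ds z1 + dss z2 = 0) :
    s • X (opE s X z0) = 0 ∧ s • X (opE s X z1) = 0 ∧ s • X (opE s X z2) = 0 := by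
  have hφφ : d1 (X (X z0)) + ds (X (X z1)) + dss (X (X z2)) = 0 := by
    have := congrArg (fun v => φ (φ v)) hz
    simpa only [map_add, h.comm1, h.comms, h.commss, map_zero] using this
  have hd1 : d1 (X (X z0)) = - ds (X (X z1)) - dss (X (X z2)) := by
    rw [eq_sub_iff_add_eq, eq_neg_iff_add_eq_zero, ← hφφ]
    abel
  have E0 : X (X z0) + s • X z1 + (s * s) • z2 = 0 := by
    apply h.inj0
    have e : d1 (X (X z0) + s • X z1 + (s * s) • z2)
        = -((ds (X (X z1)) - s • d1 (X z1)) + (dss (X (X z2)) - (s * s) • d1 z2)) := by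
      rw [map_add, map_add, map_zsmul, map_zsmul, hd1]
      abel
    rw [e]
    exact (D 0).neg_mem ((D 0).add_mem (h.k0a _) (h.k0b _))
  have E1 : X (X z0) + s • X z1 + X (X z2) = 0 := by
    apply h.inj1
    have e : d1 (X (X z0) + s • X z1 + X (X z2))
        = -((ds (X (X z1)) - s • d1 (X z1)) + (dss (X (X z2)) - d1 (X (X z2)))) := by
      rw [map_add, map_add, map_zsmul, hd1]
      abel
    rw [e]
    exact (D 1).neg_mem ((D 1).add_mem (h.k1a _) (h.k1b _))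
  have E2 : (s * s) • z0 + s • X z1 + X (X z2) = 0 := by
    apply h.inj2
    have e : dss ((s * s) • z0 + s • X z1 + X (X z2))
        = -((d1 (X (X z0)) - (s * s) • dss z0) + (ds (X (X z1)) - s • dss (X z1))) := by
      rw [map_add, map_add, map_zsmul, map_zsmul, hd1]
      abel
    rw [e]
    exact (D 2).neg_mem ((D 2).add_mem (h.k2b _) (h.k2a _))
  have h0 : X (X z0) = (s * s) • z0 := by
    have : X (X z0) - (s * s) • z0
        = (X (X z0) + s • X z1 + X (X z2)) - ((s * s) • z0 + s • X z1 + X (X z2)) := by abel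
    rw [E1, E2, sub_zero] at this
    exact sub_eq_zero.1 this
  have h2 : X (X z2) = (s * s) • z2 := by
    have : X (X z2) - (s * s) • z2
        = (X (X z0) + s • X z1 + X (X z2)) - (X (X z0) + s • X z1 + (s * s) • z2) := by abel
    rw [E1, E0, sub_zero] at this
    exact sub_eq_zero.1 this
  have ht : s • X z1 = -((s * s) • z0 + (s * s) • z2) := by
    rw [h0, h2] at E1
    rw [eq_neg_iff_add_eq_zero, ← E1]
    abel
  refine ⟨?_, ?_, ?_⟩
  · rw [opE, h0, sub_self, map_zero, smul_zero]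
  · have e : s • X (opE s X z1) = X (X (s • X z1)) - (s * s) • (s • X z1) := by
      rw [opE, map_sub, map_zsmul, map_zsmul, map_zsmul, smul_sub, smul_comm s (s * s)]
    rw [e, ht, map_neg, map_neg, map_add, map_add, map_zsmul, map_zsmul, map_zsmul, map_zsmul,
      h0, h2, smul_neg, smul_add, sub_self]
  · rw [opE, h2, sub_self, map_zero, smul_zero]

end Fermat.Agent.S43.Ctrl
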