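import Fermat.Agent.S36R.RestProof
import Fermat.Agent.DR.Hecke.Defs
import Fermat.Agent.S43.Ctrl.Abs

/-!
# S43 / CTRL, file `Defs`: Theorem Y (report 420), concrete definitions and the contract

Level `L s²`, `s` a prime not dividing `L`; `S : S36R.NormC.Setup A L s` (`A` a valuation subring of `ℚ̄` over `s`).

* `d1, ds, dss = π_1^*, π_s^*, π_{s²}^* : V_n(L) → V_n(L s²)`;
* `frob φ` : the action of `φ : GQ` as an additive endomorphism;
* `UU S n` : the classes of the Kummer functions over `K0` which are units at `W 0, W 1, W 2`;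
* `DD S n i` : those which moreover are `n`-th powers modulo `W i`;
* `CtrlStatement` : **Theorem Y**, operator form.
-/

set_option autoImplicit false
set_option linter.unusedSectionVars false

noncomputable section

namespace Fermat.Agent.S43.Ctrl

open AlgebraicCurve ModularCurve Fermat.Agent.S24 Fermat.Agent.GAL Fermat.Agent.GAL.Hecke
  Fermat.Agent.DR Fermat.Agent.S36R Fermat.Agent.S36R.NormC

section maps

variable (L s n : ℕ) [NeZero L] [NeZero s]

/-- `π_1^*`. -/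
def d1 : KV Kbar (FN L) n →+ KV Kbar (FN (L * s * s)) n :=
  (DR.Hecke.aPull (L * s) s n).comp (DR.Hecke.aPull L s n)

/-- `π_s^*`. -/
def ds : KV Kbar (FN L) n →+ KV Kbar (FN (L * s * s)) n :=
  (DR.Hecke.aPull (L * s) s n).comp (DR.Hecke.bPull L s n)

/-- `π_{s²}^*`. -/
def dss : KV Kbar (FN L) n →+ KV Kbar (FN (L * s * s)) n :=
  (DR.Hecke.bPull (L * s) s n).comp (DR.Hecke.bPull L s n)

/-- the action of a Galois element as an additive endomorphism. -/
def frob (N : ℕ) (φ : GQ) : KV Kbar (FN N) n →+ KV Kbar (FN N) n :=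
  DistribSMul.toAddMonoidHom _ φ

end maps

section sub

variable {A : ValuationSubring Kbar} {L s : ℕ} [NeZero L] [NeZero s] (S : Setup A L s) (n : ℕ)

/-- `x` is the class of `f`, a function over `K0`. -/
def IsRep (x : KV Kbar (FN (L * s * s)) n) (f : S.Fˣ) : Prop :=
  ∃ hf : Units.map (bc0 A (L * s * s) : S.F →* FN (L * s * s)) f ∈
      kummerUnits Kbar (FN (L * s * s)) n, KV.mk ⟨_, hf⟩ = x

variable {S n}

theorem IsRep.zero : IsRep S n 0 1 := ⟨by rw [map_one]; exact one_mem _, by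
  rw [KV.mk_eq_zero_iff]; exact ⟨1, by simp⟩⟩

theorem IsRep.add {x y : KV Kbar (FN (L * s * s)) n} {f g : S.Fˣ} (hx : IsRep S n x f)
    (hy : IsRep S n y g) : IsRep S n (x + y) (f * g) := by
  obtain ⟨hf, rfl⟩ := hx
  obtain ⟨hg, rfl⟩ := hy
  refine ⟨by rw [map_mul]; exact mul_mem hf hg, ?_⟩
  rw [← KV.mk_mul]
  congr 1
  exact Subtype.ext (map_mul _ _ _)

theorem IsRep.neg {x : KV Kbar (FN (L * s * s)) n} {f : S.Fˣ} (hx : IsRep S n x f) :
    IsRep S n (-x) f⁻¹ := by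
  obtain ⟨hf, rfl⟩ := hx
  refine ⟨by rw [map_inv]; exact inv_mem hf, ?_⟩
  rw [← KV.mk_inv]
  congr 1

variable (S n)

/-- the classes of the Kummer functions over `K0` which are units at `W 0, W 1, W 2`. -/
def UU : AddSubgroup (KV Kbar (FN (L * s * s)) n) where
  carrier := {x | ∃ f : S.Fˣ, IsRep S n x f ∧ ∀ i, IsU (S.W i) (f : S.F)}
  zero_mem' := ⟨1, IsRep.zero, fun _ => isU_one⟩
  add_mem' := by
    rintro x y ⟨f, hf, hfu⟩ ⟨g, hg, hgu⟩
    exact ⟨f * g, hf.add hg, fun i => (hfu i).mul (hgu i)⟩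
  neg_mem' := by
    rintro x ⟨f, hf, hfu⟩
    exact ⟨f⁻¹, hf.neg, fun i => by rw [Units.val_inv_eq_inv_val]; exact (hfu i).inv⟩

/-- the classes of `UU` whose reduction along `W i` is an `n`-th power. -/
def DD (i : Fin 3) : AddSubgroup (KV Kbar (FN (L * s * s)) n) where
  carrier := {x | ∃ f : S.Fˣ, IsRep S n x f ∧ (∀ j, IsU (S.W j) (f : S.F)) ∧
    ∃ h : S.F, Cg (S.W i) (h ^ n) (f : S.F)}
  zero_mem' := ⟨1, IsRep.zero, fun _ => isU_one, 1, by rw [one_pow]; exact Cg.refl _⟩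
  add_mem' := by
    rintro x y ⟨f, hf, hfu, h, hh⟩ ⟨g, hg, hgu, h', hh'⟩
    refine ⟨f * g, hf.add hg, fun i => (hfu i).mul (hgu i), h * h', ?_⟩
    rw [mul_pow]
    exact hh.mul hh' (hfu i).mem (hgu i).mem
  neg_mem' := by
    rintro x ⟨f, hf, hfu, h, hh⟩
    refine ⟨f⁻¹, hf.neg, fun i => by rw [Units.val_inv_eq_inv_val]; exact (hfu i).inv, h⁻¹, ?_⟩
    rw [inv_pow, Units.val_inv_eq_inv_val]
    exact hh.inv (hfu i)

/-- the inertia invariants. -/
def VI (A : ValuationSubring Kbar) (N n : ℕ) : AddSubgroup (KV Kbar (FN N) n) where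
  carrier := {x | ∀ σ ∈ A.inertiaSubgroupIn ℚ, σ • x = x}
  zero_mem' := fun σ _ => smul_zero σ
  add_mem' := fun hx hy σ hσ => by rw [smul_add, hx σ hσ, hy σ hσ]
  neg_mem' := fun hx σ hσ => by rw [smul_neg, hx σ hσ]

end sub

/-- **Theorem Y at a neat level**: all the hypotheses of `AbsY` (`n = p ^ e` a prime power prime to `s`). -/
def NeatStatement : Prop :=
  ∀ (L s : ℕ) [NeZero L] [NeZero s] (A : ValuationSubring Kbar) (S : Setup A L s),
    (4 ∣ L ∨ 9 ∣ L) → ∀ p e : ℕ, p.Prime → p ≠ s → ∀ φ : GQ, A.IsFrobeniusAt φ s →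
      AbsY (s : ℤ) (frob (p ^ e) (L * s * s) φ) (frob (p ^ e) L φ) (d1 L s (p ^ e)) (ds L s (p ^ e))
        (dss L s (p ^ e)) (VI A (L * s * s) (p ^ e)) (UU S (p ^ e)) (DD S (p ^ e))

/-- **Theorem Y** (operator form) at the neat levels, `n = p ^ e`:
`s φ (φ² - s²)² (φ - 1) x` is old for every inertia invariant `x`; `δ z = 0 → s φ (φ² - s²) z_i = 0`. -/
def CtrlStatement : Prop :=
  ∀ (L s : ℕ) [NeZero L] [NeZero s], s.Prime → ¬ s ∣ L → (4 ∣ L ∨ 9 ∣ L) →
    ∀ (A : ValuationSubring Kbar), A.LiesOverPrime s → ∀ p e : ℕ, p.Prime → p ≠ s →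
      ∀ φ : GQ, A.IsFrobeniusAt φ s →
        (∀ x ∈ VI A (L * s * s) (p ^ e), ∃ z0 z1 z2 : KV Kbar (FN L) (p ^ e),
          (s : ℤ) • frob (p ^ e) (L * s * s) φ (opE (s : ℤ) (frob (p ^ e) (L * s * s) φ)
            (opE (s : ℤ) (frob (p ^ e) (L * s * s) φ) (frob (p ^ e) (L * s * s) φ x - x))) =
          d1 L s (p ^ e) z0 + ds L s (p ^ e) z1 + dss L s (p ^ e) z2) ∧
        (∀ z0 z1 z2 : KV Kbar (FN L) (p ^ e),
          d1 L s (p ^ e) z0 + ds L s (p ^ e) z1 + dss L s (p ^ e) z2 = 0 →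
          (s : ℤ) • frob (p ^ e) L φ (opE (s : ℤ) (frob (p ^ e) L φ) z0) = 0 ∧
          (s : ℤ) • frob (p ^ e) L φ (opE (s : ℤ) (frob (p ^ e) L φ) z1) = 0 ∧
          (s : ℤ) • frob (p ^ e) L φ (opE (s : ℤ) (frob (p ^ e) L φ) z2) = 0)

/-- `CtrlStatement` from `NeatStatement`. -/
theorem ctrl_of_neat (h : NeatStatement) : CtrlStatement := by
  intro L s _ _ hs hsL hneat A hA p e hp hps φ hφ
  obtain ⟨S⟩ := S36R.Top.nonempty_setup (A := A) (M := L) hs hsL hA
  have hY := h L s A S hneat p e hp hps φ hφ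
  exact ⟨fun x hx => hY.main x hx, fun z0 z1 z2 hz => hY.inj z0 z1 z2 hz⟩

end Fermat.Agent.S43.Ctrl
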