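import Fermat.Agent.S36R.End.Final

/-!
# S43 / CTRL, file `KerAbs`: the kernel of the reduction map `Θ` (abstract form)   (helper75)

Report 420 (C2).  On top of the contracts of S36 route R (`Lvl.Good`, `ChartOK`, `TripleOK`, `PointOK`).

`Φ : F →+* F` a "Frobenius" (application: `φ ^ 2`, `Q = s ^ 2`): it stabilises the vertical valuation rings `W i` and the chart `R₀`, and
`Φ r ≡ r ^ Q` modulo every TRIPLE point of `R₀`.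

`f` a unit of the `W i`, Kummer (`n ∣ ord_P f`, `n ∣ ord_P (Φ f)`), which is an `n`-th power in the residue field of each `W i`.
Then `Φ f = a * Ψ ^ n * f ^ Q`, i.e. `(Φ - Q) [f] = 0` in the group of Kummer classes.
-/

set_option autoImplicit false
set_option linter.unusedSectionVars false

namespace Fermat.Agent.S43.Ctrl

open AlgebraicCurve Fermat.Agent.S36R

attribute [local instance] Ideal.Quotient.field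

variable {O K F FA : Type*} [CommRing O] [Field K] [Field F] [Field FA] [Algebra K F] [Algebra K FA]
  [Algebra O F] [Algebra O K] [IsScalarTower O K F] {D : Lvl K F FA} {q n : ℕ} {c : F}

/-- transport of a value by a Frobenius. -/
theorem val_frob {R : Subring F} {W : ValuationSubring F} {𝔫 : Ideal R} [𝔫.IsMaximal]
    (Φ : F →+* F) (Q : ℕ) (hΦW : W.comap Φ = W) (hΦR : ∀ r ∈ R, Φ r ∈ R)
    (hΦ𝔫 : ∀ r : R, (⟨Φ r, hΦR r r.2⟩ : R) - r ^ Q ∈ 𝔫) {x : F} {c₀ : R ⧸ 𝔫}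
    (h : Val W 𝔫 x c₀) : Val W 𝔫 (Φ x) (c₀ ^ Q) := by
  obtain ⟨a, b, hb, hab, e⟩ := h
  have hmk : ∀ r : R, Ideal.Quotient.mk 𝔫 (⟨Φ r, hΦR r r.2⟩ : R) = Ideal.Quotient.mk 𝔫 r ^ Q := by
    intro r
    rw [← map_pow]
    exact Ideal.Quotient.eq.2 (hΦ𝔫 r)
  refine ⟨⟨Φ a, hΦR a a.2⟩, ⟨Φ b, hΦR b b.2⟩, ?_, ?_, ?_⟩
  · rw [← mk_ne_zero_iff, hmk]
    exact pow_ne_zero _ (mk_ne_zero_iff.2 hb)
  · have := (cg_comap hΦW).1 hab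
    rwa [map_mul] at this
  · rw [hmk, hmk, e, mul_pow]

/-- the Frobenius does not move units at `𝔫`. -/
theorem frob_notMem {R : Subring F} {𝔫 : Ideal R} [𝔫.IsMaximal]
    (Φ : F →+* F) (Q : ℕ) (hΦR : ∀ r ∈ R, Φ r ∈ R)
    (hΦ𝔫 : ∀ r : R, (⟨Φ r, hΦR r r.2⟩ : R) - r ^ Q ∈ 𝔫) {s : R} (hs : s ∉ 𝔫) :
    (⟨Φ s, hΦR s s.2⟩ : R) ∉ 𝔫 := by
  intro hmem
  have h2 : s ^ Q ∈ 𝔫 := by
    have := Ideal.sub_mem _ hmem (hΦ𝔫 s)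
    rwa [sub_sub_cancel] at this
  exact hs ((Ideal.IsMaximal.isPrime ‹_›).mem_of_pow_mem Q h2)

/-- **The value at a triple point.**  `f s = G ^ n t`, `g ^ n ≡ f` along the branch `W`: the value of
`(Φ g / g ^ Q) / (Φ G / G ^ Q)` at `𝔫` along `W` is `1`. -/
theorem val_one_of_frob {R : Subring F} {W : ValuationSubring F} {𝔫 : Ideal R} [𝔫.IsMaximal]
    (hB : Br W 𝔫) (hn : 0 < n)
    (hval : ∀ (z : F) (s t : R), s ∉ 𝔫 → t ∉ 𝔫 → Cg W (z ^ n * s) t →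
      ∃ a b : R, a ∉ 𝔫 ∧ b ∉ 𝔫 ∧ Cg W (z * b) a)
    (Φ : F →+* F) (Q : ℕ) (hΦW : W.comap Φ = W) (hΦR : ∀ r ∈ R, Φ r ∈ R)
    (hΦ𝔫 : ∀ r : R, (⟨Φ r, hΦR r r.2⟩ : R) - r ^ Q ∈ 𝔫)
    {f g G : F} (hf : IsU W f) (hg : Cg W (g ^ n) f)
    (hfac : ∃ s t : R, s ∉ 𝔫 ∧ t ∉ 𝔫 ∧ f * s = G ^ n * t) :
    Val W 𝔫 ((Φ g / g ^ Q) / (Φ G / G ^ Q)) 1 := by
  obtain ⟨a, b, ha, hb, hab⟩ := single_value hB hn hval hf hg hfac
  obtain ⟨c₀, hc₀, hv⟩ := val_of_cg ha hb hab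
  have hGu : IsU W G := isU_of_fac hB hn hf hfac
  have hgu : IsU W g := (hg.isU_left hf).of_pow hn
  have h1 := val_frob Φ Q hΦW hΦR hΦ𝔫 hv
  have h2 := h1.div hB (hv.pow hB Q) (pow_ne_zero _ hc₀)
  rw [div_self (pow_ne_zero _ hc₀)] at h2
  have e : (Φ g / g ^ Q) / (Φ G / G ^ Q) = Φ (g / G) / (g / G) ^ Q := by
    rw [map_div₀, div_pow]
    have h3 : Φ G ≠ 0 := (map_ne_zero Φ).2 hGu.ne_zero
    have h4 := hGu.ne_zero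
    have h5 := hgu.ne_zero
    field_simp
  rw [e]
  exact h2

/-- **Local data for `h = Φ f / f ^ Q`.** -/
theorem exists_local_data (_hq : q.Prime) (hn : 0 < n) (hD : D.Good O q)
    {R₀ R₁ : Subring F} (h₀ : D.ChartOK O q c R₀) (h₁ : D.ChartOK O q c⁻¹ R₁) (hT : D.TripleOK R₀)
    (hP₀ : ∀ (𝔫 : Ideal R₀) [𝔫.IsMaximal], (q : R₀) ∈ 𝔫 → D.PointOK R₀ 𝔫)
    (hP₁ : ∀ (𝔫 : Ideal R₁) [𝔫.IsMaximal], (q : R₁) ∈ 𝔫 → (∀ x : R₁, (x : F) = c⁻¹ → x ∈ 𝔫) →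
      D.PointOK R₁ 𝔫 ∧ ∃! i, Inj.Thru D.W 𝔫 i)
    (hK : ∀ a : K, ∃ (k : ℕ) (u : O), (q : K) ^ k * a = algebraMap O K u)
    (Φ : F →+* F) (Q : ℕ) (hΦW : ∀ i, (D.W i).comap Φ = D.W i) (hΦR : ∀ r ∈ R₀, Φ r ∈ R₀)
    (hΦ𝔫 : ∀ (𝔫 : Ideal R₀) [𝔫.IsMaximal], (q : R₀) ∈ 𝔫 → (∀ i, Inj.Thru D.W 𝔫 i) →
      ∀ r : R₀, (⟨Φ r, hΦR r r.2⟩ : R₀) - r ^ Q ∈ 𝔫)
    {f : F} (hu : ∀ i, IsU (D.W i) f)
    (hord : ∀ P : Place K F, (n : ℤ) ∣ P.ord f) (hordΦ : ∀ P : Place K F, (n : ℤ) ∣ P.ord (Φ f))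
    (g : Fin 3 → F) (hg : ∀ i, Cg (D.W i) (g i ^ n) f) :
    ∃ h : F, (∀ i, (D.W i).valuation (Φ f / f ^ Q - h ^ n) < 1) ∧
      Inj.LocalRootD (q : O) D.W R₀ n (Φ f / f ^ Q) h ∧
      ∀ 𝔫 : Ideal R₁, 𝔫.IsMaximal → (∀ x : R₁, (x : F) = algebraMap O F (q : O) → x ∈ 𝔫) →
        (∀ x : R₁, (x : F) = c⁻¹ → x ∈ 𝔫) →
          Inj.LocalRootAt D.W 𝔫 n (Φ f / f ^ Q) h := by
  classical
  have hf0 : f ≠ 0 := (hu 0).ne_zero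
  have hΦf0 : Φ f ≠ 0 := (map_ne_zero Φ).2 hf0
  have hgu : ∀ i, IsU (D.W i) (g i) := fun i => ((hg i).isU_left (hu i)).of_pow hn
  have hΦu : ∀ i, IsU (D.W i) (Φ f) := fun i => (isU_comap (hΦW i)).1 (hu i)
  have hhu : ∀ i, IsU (D.W i) (Φ f / f ^ Q) := fun i => (hΦu i).div ((hu i).pow Q)
  have hHu : ∀ i, IsU (D.W i) (Φ (g i) / g i ^ Q) := fun i =>
    ((isU_comap (hΦW i)).1 (hgu i)).div ((hgu i).pow Q)
  have hHn : ∀ i, Cg (D.W i) ((Φ (g i) / g i ^ Q) ^ n) (Φ f / f ^ Q) := by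
    intro i
    have h1 : Cg (D.W i) (Φ (g i) ^ n) (Φ f) := by
      have := (cg_comap (hΦW i)).1 (hg i)
      rwa [map_pow] at this
    have h2 : Cg (D.W i) ((g i ^ Q) ^ n) (f ^ Q) := by
      rw [← pow_mul, mul_comm, pow_mul]
      exact (hg i).pow (hu i).mem Q
    rw [div_pow]
    exact h1.div h2 (hΦu i).mem ((hu i).pow Q)
  have hordh : ∀ P : Place K F, (n : ℤ) ∣ P.ord (Φ f / f ^ Q) := by
    intro P
    rw [div_eq_mul_inv, P.ord_mul hΦf0 (inv_ne_zero (pow_ne_zero _ hf0)), ← zpow_natCast,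
      ← zpow_neg, P.ord_zpow]
    exact dvd_add (hordΦ P) (Dvd.dvd.mul_left (hord P) _)
  obtain ⟨h, hh⟩ := Inj.exists_residue_approx D.W hD.incomp
    (fun i => Φ (g i) / g i ^ Q) (fun i => (hHu i).mem)
  have hhC : ∀ i, Cg (D.W i) h (Φ (g i) / g i ^ Q) := hh
  have hhn : ∀ i, Cg (D.W i) (h ^ n) (Φ f / f ^ Q) := fun i =>
    ((hhC i).pow (hHu i).mem n).trans (hHn i)
  refine ⟨h, fun i => (hhn i).symm, ?_, ?_⟩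
  · intro 𝔫 h𝔫 hπ
    have := h𝔫
    have hprime : 𝔫.IsPrime := Ideal.IsMaximal.isPrime h𝔫
    have hq𝔫 : (q : R₀) ∈ 𝔫 := hπ _ (by simp)
    have hP := hP₀ 𝔫 hq𝔫
    refine ⟨Local.cond h₀ 𝔫 hP (fun i j hij => Local.sep_of_loc hD h₀ hT.loc hij), ?_⟩
    rcases hP.inc with ⟨i, hi, huniq⟩ | hall
    · obtain ⟨G, hG0, hfac⟩ := Local.local_factor hD h₀ hK 𝔫 hP hn hhu hordh
      refine ⟨G, hG0, hfac, ?_⟩
      have hB := br_of_thru h₀ hi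
      obtain ⟨a, b, ha, hb, hab⟩ := single_value hB hn
        (fun z s t hs ht hz => Local.exists_value h₀ 𝔫 hP hi hn hs ht hz) (hhu i) (hhn i) hfac
      obtain ⟨c₀, hc₀, hval⟩ := val_of_cg ha hb hab
      apply formD_of_val hc₀
      · intro j hj
        obtain rfl := huniq j hj
        exact isU_of_fac hB hn (hhu _) hfac
      · intro j hj
        obtain rfl := huniq j hj
        exact hval
    · obtain ⟨G, hG0, hfac⟩ := Local.local_factor hD h₀ hK 𝔫 hP hn hu hord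
      have hΦn := hΦ𝔫 𝔫 hq𝔫 hall
      have hfac' : ∃ s t : R₀, s ∉ 𝔫 ∧ t ∉ 𝔫 ∧
          Φ f / f ^ Q * s = (Φ G / G ^ Q) ^ n * t := by
        obtain ⟨s, t, hs, ht, e⟩ := hfac
        refine ⟨⟨Φ s, hΦR s s.2⟩ * t ^ Q, ⟨Φ t, hΦR t t.2⟩ * s ^ Q, ?_, ?_, ?_⟩
        · exact hprime.mul_notMem (frob_notMem Φ Q hΦR hΦn hs)
            (fun h' => ht (hprime.mem_of_pow_mem Q h'))
        · exact hprime.mul_notMem (frob_notMem Φ Q hΦR hΦn ht)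
            (fun h' => hs (hprime.mem_of_pow_mem Q h'))
        · have e1 : Φ f * Φ s = Φ G ^ n * Φ t := by
            rw [← map_mul, e, map_mul, map_pow]
          have e2 : f ^ Q * (s : F) ^ Q = (G ^ Q) ^ n * (t : F) ^ Q := by
            rw [← mul_pow, e, mul_pow, ← pow_mul, ← pow_mul, mul_comm n Q]
          have hGQ : G ^ Q ≠ 0 := pow_ne_zero _ hG0
          have hfQ : f ^ Q ≠ 0 := pow_ne_zero _ hf0
          push_cast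
          rw [div_pow, div_mul_eq_mul_div, div_mul_eq_mul_div, div_eq_div_iff hfQ
            (pow_ne_zero _ hGQ)]
          calc Φ f * (Φ s * (t : F) ^ Q) * (G ^ Q) ^ n
              = (Φ f * Φ s) * ((G ^ Q) ^ n * (t : F) ^ Q) := by ring
            _ = (Φ G ^ n * Φ t) * (f ^ Q * (s : F) ^ Q) := by rw [e1, e2]
            _ = Φ G ^ n * (Φ t * (s : F) ^ Q) * f ^ Q := by ring
      have hG' : Φ G / G ^ Q ≠ 0 := div_ne_zero ((map_ne_zero Φ).2 hG0) (pow_ne_zero _ hG0)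
      refine ⟨Φ G / G ^ Q, hG', hfac', ?_⟩
      apply formD_of_val (c₀ := (1 : R₀ ⧸ 𝔫)) one_ne_zero
      · intro i hi
        exact isU_of_fac (br_of_thru h₀ hi) hn (hhu i) hfac'
      · intro i hi
        have hB := br_of_thru h₀ hi
        have hGu := isU_of_fac hB hn (hhu i) hfac'
        have hv := val_one_of_frob hB hn
          (fun z s t hs ht hz => Local.exists_value h₀ 𝔫 hP hi hn hs ht hz) Φ Q (hΦW i) hΦR hΦn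
          (hu i) (hg i) hfac
        exact hv.congr hB ((hhC i).div (Cg.refl _) (hHu i).mem hGu)
  · intro 𝔫 h𝔫 hπ hc𝔫
    have := h𝔫
    have hq𝔫 : (q : R₁) ∈ 𝔫 := hπ _ (by simp)
    obtain ⟨hP, i, hi, huniq⟩ := hP₁ 𝔫 hq𝔫 hc𝔫
    obtain ⟨G, hG0, hfac⟩ := Local.local_factor hD h₁ hK 𝔫 hP hn hhu hordh
    exact localRootAt_single h₁ hn 𝔫 hP hi huniq (hhu i) (hhn i) hG0 hfac

/-- **THE KERNEL OF `Θ` (abstract form).**  `f` a Kummer function, unit of `W 0, W 1, W 2`, whose three reductions are `n`-th powers.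
Then `Φ f = a * Ψ ^ n * f ^ Q`. -/
theorem ker_main [IsNoetherianRing O] (hq : q.Prime) (hqn : n.Coprime q) (hn : 0 < n)
    (hnO : IsUnit (n : O)) (hD : D.Good O q) (hc : c ≠ 0)
    {R₀ R₁ : Subring F} (h₀ : D.ChartOK O q c R₀) (h₁ : D.ChartOK O q c⁻¹ R₁) (hT : D.TripleOK R₀)
    (hP₀ : ∀ (𝔫 : Ideal R₀) [𝔫.IsMaximal], (q : R₀) ∈ 𝔫 → D.PointOK R₀ 𝔫)
    (hP₁ : ∀ (𝔫 : Ideal R₁) [𝔫.IsMaximal], (q : R₁) ∈ 𝔫 → (∀ x : R₁, (x : F) = c⁻¹ → x ∈ 𝔫) →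
      D.PointOK R₁ 𝔫 ∧ ∃! i, Inj.Thru D.W 𝔫 i)
    (sh₀ : ∀ z ∈ R₀, ∃ k : ℕ, c⁻¹ ^ k * z ∈ R₁) (sh₁ : ∀ z ∈ R₁, ∃ k : ℕ, c ^ k * z ∈ R₀)
    (hconst : ∀ z ∈ R₀, z ∈ R₁ → ∃ a : K, z = algebraMap K F a)
    (hK : ∀ a : K, ∃ (k : ℕ) (u : O), (q : K) ^ k * a = algebraMap O K u)
    (Φ : F →+* F) (Q : ℕ) (hΦW : ∀ i, (D.W i).comap Φ = D.W i) (hΦR : ∀ r ∈ R₀, Φ r ∈ R₀)
    (hΦ𝔫 : ∀ (𝔫 : Ideal R₀) [𝔫.IsMaximal], (q : R₀) ∈ 𝔫 → (∀ i, Inj.Thru D.W 𝔫 i) →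
      ∀ r : R₀, (⟨Φ r, hΦR r r.2⟩ : R₀) - r ^ Q ∈ 𝔫)
    {f : F} (hu : ∀ i, IsU (D.W i) f)
    (hord : ∀ P : Place K F, (n : ℤ) ∣ P.ord f) (hordΦ : ∀ P : Place K F, (n : ℤ) ∣ P.ord (Φ f))
    (g : Fin 3 → F) (hg : ∀ i, Cg (D.W i) (g i ^ n) f) :
    ∃ (a : K) (Ψ : F), a ≠ 0 ∧ Ψ ≠ 0 ∧ Φ f = algebraMap K F a * Ψ ^ n * f ^ Q := by
  have hf0 : f ≠ 0 := (hu 0).ne_zero
  have hΦf0 : Φ f ≠ 0 := (map_ne_zero Φ).2 hf0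
  have hh0 : Φ f / f ^ Q ≠ 0 := div_ne_zero hΦf0 (pow_ne_zero _ hf0)
  have hhu : ∀ i, IsU (D.W i) (Φ f / f ^ Q) := fun i =>
    ((isU_comap (hΦW i)).1 (hu i)).div ((hu i).pow Q)
  obtain ⟨h, hh, loc₀, cusp⟩ :=
    exists_local_data hq hn hD h₀ h₁ hT hP₀ hP₁ hK Φ Q hΦW hΦR hΦ𝔫 hu hord hordΦ g hg
  obtain ⟨Ψ, hΨ, hΨ₀, hΨ₁⟩ := Inj.inj_reg_D_cusp hD.vert hc h₀.chart h₁.chart sh₀ sh₁ hq hqn
    hD.q_lt hn hnO hhu hh loc₀ cusp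
  obtain ⟨a, ha⟩ := hconst _ hΨ₀ hΨ₁
  have ha0 : a ≠ 0 := by
    rintro rfl
    rw [map_zero] at ha
    exact mul_ne_zero (pow_ne_zero _ hΨ) (inv_ne_zero hh0) ha
  have hA : algebraMap K F a ≠ 0 := (map_ne_zero _).2 ha0
  refine ⟨a⁻¹, Ψ, inv_ne_zero ha0, hΨ, ?_⟩
  have hfQ : f ^ Q ≠ 0 := pow_ne_zero _ hf0
  have h1 : Ψ ^ n = algebraMap K F a * (Φ f / f ^ Q) := by
    rw [← ha, mul_assoc, inv_mul_cancel₀ hh0, mul_one]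
  rw [map_inv₀, h1]
  field_simp

end Fermat.Agent.S43.Ctrl
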