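import Fermat.Agent.S43.Ctrl.DeepRep
import Fermat.Agent.S43.Ctrl.Phi.Ker

/-!
# S43 / CTRL, file `Deep`: the field `deep` of `AbsY` (`NeatStatement`)   (helper28)
-/

set_option autoImplicit false
set_option linter.unusedSectionVars false

namespace Fermat.Agent.S43.Ctrl

open AlgebraicCurve ModularCurve Fermat.Agent.S24 Fermat.Agent.GAL Fermat.Agent.S36R
  Fermat.Agent.S36R.NormC

variable {A : ValuationSubring Kbar} {L s : ℕ} [NeZero L] [NeZero s]

/-- **The field `deep` of `AbsY`** for the concrete data. -/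
theorem deep (S : Setup A L s) (hneat : 4 ∣ L ∨ 9 ∣ L) {n : ℕ} (hn : 0 < n) (hns : n.Coprime s)
    (φ : GQ) (hφ : A.IsFrobeniusAt φ s) (x : KV Kbar (FN (L * s * s)) n)
    (hx : ∀ i, x ∈ DD S n i) :
    frob n (L * s * s) φ (frob n (L * s * s) φ x) = ((s : ℤ) * s) • x :=
  deep_of_conc S hn hns φ (fun f hf hu hg => Phi.deep_conc S hneat hφ hn hns f hf hu hg) x hx

end Fermat.Agent.S43.Ctrl
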