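import Fermat.Agent.S43.Ctrl.Defs

/-!
# S43 / CTRL, file `DeepRep`: the field `deep` of `AbsY`  (helper28)

* `exists_common_rep` : a class lying in `DD S n 0`, `DD S n 1`, `DD S n 2` has ONE representative which is an `n`-th power modulo each `W i`;
* `deep_of_conc` : the field `deep` from the statement for ONE representative (`Phi.deep_conc`).
-/

set_option autoImplicit false
set_option linter.unusedSectionVars false

noncomputable section

namespace Fermat.Agent.S43.Ctrl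

open AlgebraicCurve ModularCurve Fermat.Agent.S24 Fermat.Agent.GAL Fermat.Agent.GAL.Hecke
  Fermat.Agent.DR Fermat.Agent.S36R Fermat.Agent.S36R.NormC Fermat.Agent.S36R.Bridge

variable {A : ValuationSubring Kbar} {L s : ℕ} [NeZero L] [NeZero s]

/-- two representatives over `K0` of the same class, both units at `W 0`, differ by an `n`-th power of `S.F`. -/
theorem IsRep.exists_pow (S : Setup A L s) {n : ℕ} (hn : 0 < n) (hns : n.Coprime s)
    {x : KV Kbar (FN (L * s * s)) n} {f g : S.Fˣ} (hf : IsRep S n x f) (hg : IsRep S n x g)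
    (hfu : IsU (S.W 0) (f : S.F)) (hgu : IsU (S.W 0) (g : S.F)) :
    ∃ Y : S.F, (f : S.F) = Y ^ n * g := by
  have hqn' : ¬ s ∣ n := fun h' =>
    S.hq.one_lt.ne' (Nat.eq_one_of_dvd_coprimes hns h' dvd_rfl)
  obtain ⟨hf', hfx⟩ := hf
  obtain ⟨hg', hgx⟩ := hg
  rw [← hgx, KV.mk_eq_mk_iff] at hfx
  obtain ⟨y, hy⟩ := hfx
  have hy' : bc0 A (L * s * s) ((f : S.F) / g) = (y : FN (L * s * s)) ^ n := by
    have := congrArg Units.val hy
    simp only [Units.val_mul, Units.val_pow_eq_pow_val, Units.coe_map, MonoidHom.coe_coe] at this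
    rw [map_div₀, ← this, mul_div_assoc, div_self, mul_one]
    exact (map_ne_zero _).2 g.ne_zero
  obtain ⟨a, y₀, ha, hy₀, e⟩ := exists_const_mul_pow A (L * s * s) hn ((f : S.F) / g)
    (div_ne_zero f.ne_zero g.ne_zero) _ hy'
  obtain ⟨k, b, hb, hab⟩ := exists_q_zpow_mul_pow A S.hq S.hA hqn' a ha
  set Y0 : S.F := algebraMap (K0 A) S.F b * y₀ with hY0
  have hY00 : Y0 ≠ 0 := mul_ne_zero ((map_ne_zero _).2 hb) hy₀
  have hs0 : (s : S.F) ≠ 0 := Nat.cast_ne_zero.2 S.hq.ne_zero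
  have e1 : (f : S.F) / g = (s : S.F) ^ k * Y0 ^ n := by
    rw [e, hab, hY0, mul_pow, map_mul, map_zpow₀, map_pow, map_natCast, mul_assoc]
  obtain ⟨m, hm⟩ := S.good.eW0 Y0 hY00
  have hk : k = -(m * n) := by
    have h1 : IsU (S.W 0) ((s : S.F) ^ (k + m * n)) := by
      have : (s : S.F) ^ (k + m * n) = ((f : S.F) / g) / (Y0 / (s : S.F) ^ m) ^ n := by
        rw [e1, zpow_add₀ hs0, zpow_mul, zpow_natCast, div_pow]
        have := pow_ne_zero n (zpow_ne_zero m hs0)
        have := pow_ne_zero n hY00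
        field_simp
      rw [this]
      exact (hfu.div hgu).div (hm.pow n)
    have h2 := zpow_unique (V := S.W 0) (x := (1 : S.F)) (S.good.q_lt 0) hs0 (a := -(k + m * n))
      (b := 0) (by rw [zpow_neg, one_div, inv_inv]; exact h1) (by simpa using isU_one)
    omega
  refine ⟨Y0 / (s : S.F) ^ m, ?_⟩
  rw [← div_eq_iff g.ne_zero, e1, hk, zpow_neg, zpow_mul, zpow_natCast, div_pow]
  field_simp

/-- **One representative for the three conditions.** -/
theorem exists_common_rep (S : Setup A L s) {n : ℕ} (hn : 0 < n) (hns : n.Coprime s)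
    (x : KV Kbar (FN (L * s * s)) n) (hx : ∀ i, x ∈ DD S n i) :
    ∃ f : S.Fˣ, IsRep S n x f ∧ (∀ j, IsU (S.W j) (f : S.F)) ∧
      ∀ i, ∃ h : S.F, Cg (S.W i) (h ^ n) (f : S.F) := by
  obtain ⟨f, hf, hfu, -⟩ := hx 0
  refine ⟨f, hf, hfu, fun i => ?_⟩
  obtain ⟨g, hg, hgu, h, hh⟩ := hx i
  obtain ⟨Y, hY⟩ := IsRep.exists_pow S hn hns hf hg (hfu 0) (hgu 0)
  have hYu : IsU (S.W i) (Y ^ n) := by
    have : Y ^ n = (f : S.F) / g := by rw [hY, mul_div_assoc, div_self g.ne_zero, mul_one]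
    rw [this]
    exact (hfu i).div (hgu i)
  refine ⟨Y * h, ?_⟩
  rw [mul_pow, hY]
  exact hh.mul_left hYu.mem

/-- **The field `deep`** from the statement for one representative. -/
theorem deep_of_conc (S : Setup A L s) {n : ℕ} (hn : 0 < n) (hns : n.Coprime s) (φ : GQ)
    (H : ∀ (f : S.Fˣ) (hf : Units.map (bc0 A (L * s * s) : S.F →* FN (L * s * s)) f ∈
      kummerUnits Kbar (FN (L * s * s)) n), (∀ i, IsU (S.W i) (f : S.F)) →
      (∀ i, ∃ h : S.F, Cg (S.W i) (h ^ n) (f : S.F)) →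
      φ • φ • (KV.mk ⟨_, hf⟩ : KV Kbar (FN (L * s * s)) n) = (s * s) • KV.mk ⟨_, hf⟩)
    (x : KV Kbar (FN (L * s * s)) n) (hx : ∀ i, x ∈ DD S n i) :
    frob n (L * s * s) φ (frob n (L * s * s) φ x) = ((s : ℤ) * s) • x := by
  obtain ⟨f, ⟨hf, rfl⟩, hfu, hroot⟩ := exists_common_rep S hn hns x hx
  rw [← Nat.cast_mul, natCast_zsmul]
  exact H f hf hfu hroot

end Fermat.Agent.S43.Ctrl
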