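import Fermat.Agent.S36R.NormC.Good
import Fermat.Agent.DR.Gal.Level

/-!
# S43 / CTRL, file `Kron`: the three degeneracy maps at the three vertical valuations  (helper87)

`S : Setup A L s` (level `L s²`, `s ∤ L`, `A ∣ s`).  Over `Kbar`:
* `p1, ps, pss : FN L → FN (L s s)` the three degeneracy maps (`u(t) ↦ u(t), u(t^s), u(t^{s²})`);
* `EE S i : FN (L s s) → Kbar((t))`, `i = 0, 1, 2`, the expansions at `∞`, at the middle cusp, at `0`
  (`S.e i = EE S i ∘ bc0`);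
* the table of the nine expansions `EE S i (p_j u)`;
* the **Kronecker congruences** in the form `Near1` (= constant times a Gauss `1`-unit), `σ` a Frobenius at `A`:

  `i = 0` : `ps (σ u) ≈ (p1 u)^s`,  `pss (σ σ u) ≈ (p1 u)^(s²)`;
  `i = 1` : `ps (σ u) ≈ (p1 u)^s`,  `pss u ≈ p1 u`;
  `i = 2` : `ps (σ u) ≈ (pss u)^s`, `p1 (σ σ u) ≈ (pss u)^(s²)`.
-/

set_option autoImplicit false
set_option linter.unusedSectionVars false

noncomputable section

namespace Fermat.Agent.S43.Ctrl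

open AlgebraicCurve ModularCurve Fermat.Agent.S24 Fermat.Agent.GAL Fermat.Agent.GAL.Gauss
  Fermat.Agent.DR.Conc Fermat.Agent.S36.StepA Fermat.Agent.GAL.NormFormula Fermat.Agent.S36R.NormC
  Fermat.Agent.GAL.Hecke Fermat.Agent.S36R

variable {A : ValuationSubring Kbar} {L s : ℕ} [NeZero L] [NeZero s]

variable (L s) in
/-- `u(t) ↦ u(t)`. -/
def p1 : FN L →ₐ[Kbar] FN (L * s * s) := (a2 L s).comp (heckeAlphaBar Kbar L s)

variable (L s) in
/-- `u(t) ↦ u(t^s)`. -/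
def ps : FN L →ₐ[Kbar] FN (L * s * s) := (a2 L s).comp (heckeBetaBar Kbar L s)

variable (L s) in
/-- `u(t) ↦ u(t^{s²})`. -/
def pss : FN L →ₐ[Kbar] FN (L * s * s) := (b2 L s).comp (heckeBetaBar Kbar L s)

theorem coe_p1 (u : FN L) : ((p1 L s u : FN (L * s * s)) : LaurentSeries Kbar) = u := by
  rw [p1, AlgHom.comp_apply, coe_heckeAlphaBar, coe_heckeAlphaBar]

theorem coe_ps (u : FN L) :
    ((ps L s u : FN (L * s * s)) : LaurentSeries Kbar) = qExpand Kbar s (u : LaurentSeries Kbar) := by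
  rw [ps, AlgHom.comp_apply, coe_heckeAlphaBar, coe_heckeBetaBar]

theorem coe_pss (u : FN L) : ((pss L s u : FN (L * s * s)) : LaurentSeries Kbar) =
    qExpand Kbar s (qExpand Kbar s (u : LaurentSeries Kbar)) := by
  rw [pss, AlgHom.comp_apply, coe_heckeBetaBar, coe_heckeBetaBar]

/-- `ps` is also `β ∘ α`. -/
theorem ps_eq (u : FN L) : ps L s u = b2 L s (heckeAlphaBar Kbar L s u) :=
  Subtype.ext (by rw [coe_ps, coe_heckeBetaBar, coe_heckeAlphaBar])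

variable (S : Setup A L s)

/-- the three expansions over `Kbar`. -/
def EE : Fin 3 → (FN (L * s * s) →+* LaurentSeries Kbar) :=
  ![valN (L * s * s), S.ι, (valN (L * s * s)).comp (S.W2 : FN (L * s * s) →+* FN (L * s * s))]

theorem EE_zero (x : FN (L * s * s)) : EE S 0 x = (x : LaurentSeries Kbar) := rfl
theorem EE_one (x : FN (L * s * s)) : EE S 1 x = S.ι x := rfl
theorem EE_two (x : FN (L * s * s)) : EE S 2 x = ((S.W2 x : FN (L * s * s)) : LaurentSeries Kbar) := rfl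

theorem e0_eq (z : S.F) : S.e0 z = EE S 0 (bc0 A (L * s * s) z) := rfl
theorem e1_eq (z : S.F) : S.e1 z = EE S 1 (bc0 A (L * s * s) z) := rfl
theorem e2_eq (z : S.F) : S.e2 z = EE S 2 (bc0 A (L * s * s) z) := rfl

/-! ### the table -/

theorem EE0_p1 (u : FN L) : EE S 0 (p1 L s u) = u := by rw [EE_zero, coe_p1]
theorem EE0_ps (u : FN L) : EE S 0 (ps L s u) = qExpand Kbar s (u : LaurentSeries Kbar) := by
  rw [EE_zero, coe_ps]
theorem EE0_pss (u : FN L) :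
    EE S 0 (pss L s u) = qExpand Kbar s (qExpand Kbar s (u : LaurentSeries Kbar)) := by
  rw [EE_zero, coe_pss]

theorem EE1_p1 (u : FN L) : EE S 1 (p1 L s u) = u := by
  rw [EE_one, p1, AlgHom.comp_apply, S.hι.alpha, coe_heckeAlphaBar]
theorem EE1_ps (u : FN L) : EE S 1 (ps L s u) = qExpand Kbar s (u : LaurentSeries Kbar) := by
  rw [EE_one, ps, AlgHom.comp_apply, S.hι.alpha, coe_heckeBetaBar]
theorem EE1_pss (u : FN L) : EE S 1 (pss L s u) =
    Fermat.Agent.S24.twist S.ζ (S.hζ.ne_zero S.hq.ne_zero) (u : LaurentSeries Kbar) := by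
  rw [EE_one, pss, AlgHom.comp_apply, S.hι.beta, DR.Gal.wq_beta S.hq S.hqM, coe_heckeAlphaBar]

theorem EE2_p1 (u : FN L) :
    EE S 2 (p1 L s u) = qExpand Kbar s (qExpand Kbar s (u : LaurentSeries Kbar)) := by
  rw [EE_two, p1, AlgHom.comp_apply, S.hW2.alpha, DR.Gal.wq_alpha S.hq S.hqM, coe_heckeBetaBar,
    coe_heckeBetaBar]
theorem EE2_ps (u : FN L) : EE S 2 (ps L s u) = qExpand Kbar s (u : LaurentSeries Kbar) := by
  rw [EE_two, ps, AlgHom.comp_apply, S.hW2.alpha, DR.Gal.wq_beta S.hq S.hqM, coe_heckeBetaBar,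
    coe_heckeAlphaBar]
theorem EE2_pss (u : FN L) : EE S 2 (pss L s u) = u := by
  rw [EE_two, pss, AlgHom.comp_apply, S.hW2.beta, DR.Gal.wq_beta S.hq S.hqM, coe_heckeAlphaBar,
    coe_heckeAlphaBar]


/-! ### Galois action -/

theorem coe_gal (N : ℕ) (σ : Kbar ≃ₐ[ℚ] Kbar) (u : FN N) :
    ((gal N σ u : FN N) : LaurentSeries Kbar) = coeffMap (σ : Kbar →+* Kbar) (u : LaurentSeries Kbar) :=
  coe_arithmeticRingAut_apply _ σ u

theorem normable_FN (hs : s.Prime) (hA : A.LiesOverPrime s) (u : FN L) (hu : u ≠ 0) :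
    Normable A (u : LaurentSeries Kbar) :=
  normable_coe hs hA u hu

/-! ### the Kronecker congruences -/

/-- the basic congruence `(σ u)(t^s) ≈ u(t)^s`. -/
theorem near1_frob (hs : s.Prime) (hA : A.LiesOverPrime s) (u : FN L) (hu : u ≠ 0) (σ : Kbar ≃ₐ[ℚ] Kbar) (hσ : A.IsFrobeniusAt σ s) :
    Near1 A (qExpand Kbar s ((gal L σ u : FN L) : LaurentSeries Kbar) / (u : LaurentSeries Kbar) ^ s) := by
  rw [coe_gal]
  exact near1_frobenius_div hs hA (normable_FN hs hA u hu) σ hσ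

/-- the iterated congruence `(σ σ u)(t^{s²}) ≈ u(t)^{s²}`. -/
theorem near1_frob2 (hs : s.Prime) (hA : A.LiesOverPrime s) (u : FN L) (hu : u ≠ 0) (σ : Kbar ≃ₐ[ℚ] Kbar) (hσ : A.IsFrobeniusAt σ s) :
    Near1 A (qExpand Kbar s (qExpand Kbar s ((gal L σ (gal L σ u) : FN L) : LaurentSeries Kbar)) /
      (u : LaurentSeries Kbar) ^ (s * s)) := by
  have hu' : gal L σ u ≠ 0 := (map_ne_zero _).2 hu
  have h1 := (near1_frob hs hA (gal L σ u) hu' σ hσ).qExpand s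
  have h2 := (near1_frob hs hA u hu σ hσ).pow s
  rw [map_div₀, map_pow] at h1
  rw [div_pow, ← pow_mul] at h2
  exact h1.trans h2

theorem k0a (u : FN L) (hu : u ≠ 0) (σ : Kbar ≃ₐ[ℚ] Kbar) (hσ : A.IsFrobeniusAt σ s) :
    Near1 A (EE S 0 (ps L s (gal L σ u) / p1 L s u ^ s)) := by
  rw [map_div₀, map_pow, EE0_ps, EE0_p1]
  exact near1_frob S.hq S.hA u hu σ hσ

theorem k0b (u : FN L) (hu : u ≠ 0) (σ : Kbar ≃ₐ[ℚ] Kbar) (hσ : A.IsFrobeniusAt σ s) :
    Near1 A (EE S 0 (pss L s (gal L σ (gal L σ u)) / p1 L s u ^ (s * s))) := by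
  rw [map_div₀, map_pow, EE0_pss, EE0_p1]
  exact near1_frob2 S.hq S.hA u hu σ hσ

theorem k1a (u : FN L) (hu : u ≠ 0) (σ : Kbar ≃ₐ[ℚ] Kbar) (hσ : A.IsFrobeniusAt σ s) :
    Near1 A (EE S 1 (ps L s (gal L σ u) / p1 L s u ^ s)) := by
  rw [map_div₀, map_pow, EE1_ps, EE1_p1]
  exact near1_frob S.hq S.hA u hu σ hσ

theorem k1b (u : FN L) (hu : u ≠ 0) : Near1 A (EE S 1 (pss L s u / p1 L s u)) := by
  rw [map_div₀, EE1_pss, EE1_p1]
  exact near1_twist_div S.hq S.hA (normable_FN S.hq S.hA u hu) S.hζ.pow_eq_one _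

theorem k2a (u : FN L) (hu : u ≠ 0) (σ : Kbar ≃ₐ[ℚ] Kbar) (hσ : A.IsFrobeniusAt σ s) :
    Near1 A (EE S 2 (ps L s (gal L σ u) / pss L s u ^ s)) := by
  rw [map_div₀, map_pow, EE2_ps, EE2_pss]
  exact near1_frob S.hq S.hA u hu σ hσ

theorem k2b (u : FN L) (hu : u ≠ 0) (σ : Kbar ≃ₐ[ℚ] Kbar) (hσ : A.IsFrobeniusAt σ s) :
    Near1 A (EE S 2 (p1 L s (gal L σ (gal L σ u)) / pss L s u ^ (s * s))) := by
  rw [map_div₀, map_pow, EE2_p1, EE2_pss]
  exact near1_frob2 S.hq S.hA u hu σ hσ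

end Fermat.Agent.S43.Ctrl
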