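import Fermat.Agent.S43.Ctrl.Defs
import Fermat.Agent.DR.Hecke.Galois
import Fermat.Agent.GAL.GeomFinal

/-!
# S43 / CTRL, file `KronA`: the fields `comm1, comms, commss, stab, unit` of `AbsY` and the lemma REP  (helper30)

* `comm1, comms, commss` : the degeneracy maps commute with the Galois action;
* `FrobW S φ Φ` : what is needed from CTRL-FROB: `Φ : S.F →+* S.F` is the descent of `φ` to `K0`, and preserves the `W i` and their
  maximal ideals;
* `stab` : `DD S n i` is stable under `φ`;  `stabU` : so is `UU S n`;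
* `unit` : `φ x - x ∈ UU S n` for every inertia invariant `x`;
* `exists_rep` (REP) : at a neat level `L` prime to `s`, every class of `KV Kbar (FN L) n` (`n` prime to `s`) is the class of `bc0 u`, with `u` a
  function over `K0` whose expansion is a Gauss unit.
-/

set_option autoImplicit false
set_option linter.unusedSectionVars false

noncomputable section

namespace Fermat.Agent.S43.Ctrl

open AlgebraicCurve ModularCurve Fermat.Agent.S24 Fermat.Agent.GAL Fermat.Agent.GAL.Hecke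
  Fermat.Agent.DR Fermat.Agent.S36R Fermat.Agent.S36R.NormC Fermat.Agent.GAL.Gauss
  Fermat.Agent.S36.StepA

section comm

variable (L s n : ℕ) [NeZero L] [NeZero s] (φ : GQ)

theorem frob_apply (N : ℕ) (x : KV Kbar (FN N) n) : frob n N φ x = φ • x := rfl

theorem comm1 (z : KV Kbar (FN L) n) :
    frob n (L * s * s) φ (d1 L s n z) = d1 L s n (frob n L φ z) := by
  simp only [frob_apply, d1, AddMonoidHom.comp_apply, DR.Hecke.aPull_smul]

theorem comms (z : KV Kbar (FN L) n) :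
    frob n (L * s * s) φ (ds L s n z) = ds L s n (frob n L φ z) := by
  simp only [frob_apply, ds, AddMonoidHom.comp_apply, DR.Hecke.aPull_smul, DR.Hecke.bPull_smul]

theorem commss (z : KV Kbar (FN L) n) :
    frob n (L * s * s) φ (dss L s n z) = dss L s n (frob n L φ z) := by
  simp only [frob_apply, dss, AddMonoidHom.comp_apply, DR.Hecke.bPull_smul]

end comm

section frobW

variable {A : ValuationSubring Kbar} {L s : ℕ} [NeZero L] [NeZero s]

/-- what is needed from CTRL-FROB: the descent `Φ` of `φ` to the function field over `K0`. -/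
structure FrobW (S : Setup A L s) (φ : GQ) (Φ : S.F →+* S.F) : Prop where
  bc : ∀ f : S.F, bc0 A (L * s * s) (Φ f) = gal (L * s * s) φ (bc0 A (L * s * s) f)
  mem : ∀ i, ∀ z ∈ S.W i, Φ z ∈ S.W i
  lt : ∀ i z, (S.W i).valuation z < 1 → (S.W i).valuation (Φ z) < 1

variable {S : Setup A L s} {φ : GQ} {Φ : S.F →+* S.F} {n : ℕ}

theorem FrobW.cg (h : FrobW S φ Φ) {i : Fin 3} {x y : S.F} (hxy : Cg (S.W i) x y) :
    Cg (S.W i) (Φ x) (Φ y) := by
  have := h.lt i _ hxy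
  rwa [map_sub] at this

theorem FrobW.isU (h : FrobW S φ Φ) {i : Fin 3} {x : S.F} (hx : IsU (S.W i) x) :
    IsU (S.W i) (Φ x) := by
  have h0 : x ≠ 0 := hx.ne_zero
  have h1 : Φ x ∈ S.W i := h.mem i _ hx.mem
  have h2 : Φ x⁻¹ ∈ S.W i := h.mem i _ hx.inv.mem
  rw [map_inv₀] at h2
  have h3 : (S.W i).valuation (Φ x) ≤ 1 := (ValuationSubring.valuation_le_one_iff _ _).2 h1
  have h4 : (S.W i).valuation (Φ x)⁻¹ ≤ 1 := (ValuationSubring.valuation_le_one_iff _ _).2 h2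
  have h5 : Φ x ≠ 0 := (map_ne_zero Φ).2 h0
  rw [map_inv₀] at h4
  have h6 : (S.W i).valuation (Φ x) ≠ 0 := (Valuation.ne_zero_iff _).2 h5
  have h7 : 1 ≤ (S.W i).valuation (Φ x) := (inv_le_one₀ (zero_lt_iff.2 h6)).1 h4
  exact le_antisymm h3 h7

/-- `Φ` preserves the valuations `W i` : `Φ f / f` is a unit. -/
theorem FrobW.isU_div (h : FrobW S φ Φ) (i : Fin 3) {x : S.F} (hx : x ≠ 0) :
    IsU (S.W i) (Φ x / x) := by
  have hG := S.good
  have hs1 : 0 < s - 1 := by have := S.hq.two_le; omega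
  have hs0 : (s : S.F) ≠ 0 := Nat.cast_ne_zero.2 S.hq.ne_zero
  have aux : ∀ k : ℤ, IsU (S.W i) (x / (s : S.F) ^ k) →
      ∃ k : ℤ, IsU (S.W i) (x ^ (s - 1) / (s : S.F) ^ k) := by
    intro k hk
    refine ⟨k * ((s - 1 : ℕ) : ℤ), ?_⟩
    have := hk.pow (s - 1)
    rwa [div_pow, ← zpow_natCast ((s : S.F) ^ k), ← zpow_mul] at this
  have key : ∃ k : ℤ, IsU (S.W i) (x ^ (s - 1) / (s : S.F) ^ k) := by
    fin_cases i
    · obtain ⟨k, hk⟩ := hG.eW0 x hx
      exact aux k hk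
    · exact hG.eW1 x hx
    · obtain ⟨k, hk⟩ := hG.eW2 x hx
      exact aux k hk
  obtain ⟨k, hk⟩ := key
  have h1 := h.isU hk
  rw [map_div₀, map_pow, map_zpow₀, map_natCast] at h1
  have h2 := h1.div hk
  have e : (Φ x ^ (s - 1) / (s : S.F) ^ k) / (x ^ (s - 1) / (s : S.F) ^ k)
      = (Φ x / x) ^ (s - 1) := by
    have h3 : (s : S.F) ^ k ≠ 0 := zpow_ne_zero _ hs0
    rw [div_pow]
    field_simp
  rw [e] at h2
  exact h2.of_pow hs1

/-- the class of `Φ f` is `φ • (class of f)`. -/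
theorem FrobW.isRep (h : FrobW S φ Φ) {x : KV Kbar (FN (L * s * s)) n} {f : S.Fˣ}
    (hx : IsRep S n x f) : IsRep S n (φ • x) (Units.map (Φ : S.F →* S.F) f) := by
  obtain ⟨hf, rfl⟩ := hx
  have e : Units.map (bc0 A (L * s * s) : S.F →* FN (L * s * s)) (Units.map (Φ : S.F →* S.F) f)
      = (esConj φ ⟨_, hf⟩ : (FN (L * s * s))ˣ) := by
    apply Units.ext
    rw [es_coe_conj']
    exact h.bc _
  refine ⟨by rw [e]; exact (esConj φ ⟨_, hf⟩).2, ?_⟩
  rw [es_smul_mk]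
  exact congrArg KV.mk (Subtype.ext e)

/-- **field `stab`.** -/
theorem stab (h : FrobW S φ Φ) (i : Fin 3) (x : KV Kbar (FN (L * s * s)) n) (hx : x ∈ DD S n i) :
    frob n (L * s * s) φ x ∈ DD S n i := by
  obtain ⟨f, hf, hfu, g, hg⟩ := hx
  refine ⟨Units.map (Φ : S.F →* S.F) f, h.isRep hf, fun j => h.isU (hfu j), Φ g, ?_⟩
  rw [← map_pow]
  exact h.cg hg

theorem stabU (h : FrobW S φ Φ) (x : KV Kbar (FN (L * s * s)) n) (hx : x ∈ UU S n) :
    frob n (L * s * s) φ x ∈ UU S n := by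
  obtain ⟨f, hf, hfu⟩ := hx
  exact ⟨Units.map (Φ : S.F →* S.F) f, h.isRep hf, fun j => h.isU (hfu j)⟩

/-- **field `unit`.** -/
theorem unit (h : FrobW S φ Φ) (hn : 0 < n) (x : KV Kbar (FN (L * s * s)) n)
    (hx : x ∈ VI A (L * s * s) n) : frob n (L * s * s) φ x - x ∈ UU S n := by
  obtain ⟨f, -, hf, hfx⟩ := exists_kummerUnit0_rep A (L * s * s) hn.ne' x hx
  have hr : IsRep S n x f := ⟨hf, hfx⟩
  refine ⟨Units.map (Φ : S.F →* S.F) f * f⁻¹, ?_, fun i => ?_⟩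
  · rw [sub_eq_add_neg]
    exact (h.isRep hr).add hr.neg
  · have := h.isU_div i f.ne_zero
    rwa [div_eq_mul_inv, ← Units.val_inv_eq_inv_val] at this

end frobW

section rep

variable {A : ValuationSubring Kbar} {L s : ℕ} [NeZero L]

/-- inertia at `s` acts trivially at a neat level prime to `s`. -/
theorem mem_VI_of_neat (hs : s.Prime) (hsL : ¬ s ∣ L) (hA : A.LiesOverPrime s)
    (hneat : 4 ∣ L ∨ 9 ∣ L) {n : ℕ} (hn : 0 < n) (hns : n.Coprime s) (z : KV Kbar (FN L) n) :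
    z ∈ VI A L n := by
  intro σ hσ
  have hsn : ¬ s ∣ n := fun h => hs.one_lt.ne' (Nat.eq_one_of_dvd_coprimes hns h dvd_rfl)
  exact Hecke.inertia_smul L n s hn hs hsL A hA
    (INJ.hecke_INJ_neat Igusa.cuspUpper Igusa.cuspLower A L
      (natCast_residueField_ne_zero A hs hA hsL) hneat n
      (natCast_residueField_ne_zero A hs hA hsn)) σ hσ z

/-- **REP.** -/
theorem exists_rep (hs : s.Prime) (hsL : ¬ s ∣ L) (hA : A.LiesOverPrime s)
    (hneat : 4 ∣ L ∨ 9 ∣ L) {n : ℕ} (hn : 0 < n) (hns : n.Coprime s) (z : KV Kbar (FN L) n) :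
    ∃ (u : (FF (K0 A) L)ˣ)
      (hu : Units.map (bc0 A L : FF (K0 A) L →* FN L) u ∈ kummerUnits Kbar (FN L) n),
      KV.mk ⟨_, hu⟩ = z ∧
        GU A ((bc0 A L (u : FF (K0 A) L) : FN L) : LaurentSeries Kbar) := by
  obtain ⟨u0, hu0, rfl⟩ :=
    exists_bc0_rep A L hn.ne' z (mem_VI_of_neat hs hsL hA hneat hn hns z)
  obtain ⟨k, hk, hr⟩ := gauss_K0 hs hA L (u0 : FF (K0 A) L) u0.ne_zero
  have hs0 : (s : K0 A) ≠ 0 := Nat.cast_ne_zero.2 hs.ne_zero
  have hsK : (s : Kbar) ≠ 0 := Nat.cast_ne_zero.2 hs.ne_zero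
  obtain ⟨b, hb⟩ := IsAlgClosed.exists_pow_nat_eq ((s : Kbar) ^ k) hn
  have hb0 : b ≠ 0 := by
    rintro rfl
    rw [zero_pow hn.ne'] at hb
    exact zpow_ne_zero k hsK hb.symm
  have hcast : (((s : K0 A) ^ k : K0 A) : Kbar) = (s : Kbar) ^ k := by
    have := map_zpow₀ (algebraMap (K0 A) Kbar) (s : K0 A) k
    rw [map_natCast] at this
    exact this
  obtain ⟨cu, hcu⟩ : ∃ cu : (FF (K0 A) L)ˣ,
      (cu : FF (K0 A) L) = algebraMap (K0 A) (FF (K0 A) L) ((s : K0 A) ^ k) :=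
    ⟨Units.mk0 _ ((map_ne_zero _).2 (zpow_ne_zero _ hs0)), rfl⟩
  obtain ⟨y, hy⟩ : ∃ y : (FN L)ˣ, (y : FN L) = algebraMap Kbar (FN L) b :=
    ⟨Units.mk0 _ ((map_ne_zero _).2 hb0), rfl⟩
  have e : Units.map (bc0 A L : FF (K0 A) L →* FN L) (cu * u0)
      = y ^ n * Units.map (bc0 A L : FF (K0 A) L →* FN L) u0 := by
    rw [map_mul]
    congr 1
    apply Units.ext
    rw [Units.val_pow_eq_pow_val, hy, ← map_pow, hb, ← hcast, ← bc0_algebraMap, ← hcu]
    rfl
  have hmem : Units.map (bc0 A L : FF (K0 A) L →* FN L) (cu * u0) ∈ kummerUnits Kbar (FN L) n := by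
    rw [e]
    exact mul_mem (pow_mem_kummerUnits n y) hu0
  have hco : ((bc0 A L ((cu * u0 : (FF (K0 A) L)ˣ) : FF (K0 A) L) : FN L) : LaurentSeries Kbar)
      = HahnSeries.C ((s : Kbar) ^ k) *
        ((bc0 A L (u0 : FF (K0 A) L) : FN L) : LaurentSeries Kbar) := by
    rw [Units.val_mul, map_mul, hcu, ← hcast, ← Setup.bc0_const L]
    rfl
  refine ⟨cu * u0, hmem, ?_, ?_⟩
  · rw [KV.mk_eq_mk_iff]
    exact ⟨y, e.symm⟩
  · rw [hco]
    exact ⟨_, hr, hk, rfl⟩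

end rep

end Fermat.Agent.S43.Ctrl
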