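import Fermat.Agent.S43.Ctrl.KronA
import Fermat.Agent.S43.Ctrl.Phi.Red

/-!
# S43 / CTRL, file `KronB`: the fields `comm1, comms, commss, stab, unit` of `AbsY`, final form  (helper30)

`FrobW S φ (Phi.phi D _)` for every `φ` in the decomposition group (`Phi.comap_W`, `Phi.bc0_phi` of helper37), hence the fields
`stab`, `unit` of `AbsY` for the concrete data of `NeatStatement`.
-/

set_option autoImplicit false
set_option linter.unusedSectionVars false

noncomputable section

namespace Fermat.Agent.S43.Ctrl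

open AlgebraicCurve ModularCurve Fermat.Agent.S24 Fermat.Agent.GAL Fermat.Agent.GAL.Hecke
  Fermat.Agent.DR Fermat.Agent.S36R Fermat.Agent.S36R.NormC Fermat.Agent.GAL.Gauss
  Fermat.Agent.S36.StepA

variable {A : ValuationSubring Kbar} {L s : ℕ} [NeZero L] [NeZero s]

/-- `FrobW` from the stability of the valuation rings. -/
theorem FrobW.of_comap {S : Setup A L s} {φ : GQ} {Φ : S.F →+* S.F}
    (hbc : ∀ f : S.F, bc0 A (L * s * s) (Φ f) = gal (L * s * s) φ (bc0 A (L * s * s) f))
    (hW : ∀ i, (S.W i).comap Φ = S.W i) : FrobW S φ Φ where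
  bc := hbc
  mem := fun i z hz => by
    rw [← hW i] at hz
    exact hz
  lt := fun i z hz => by
    by_contra hcon
    rw [not_lt] at hcon
    have h0 : Φ z ≠ 0 := by
      intro h
      rw [h, map_zero] at hcon
      exact absurd hcon (not_le.2 zero_lt_one)
    have hz0 : z ≠ 0 := fun h => h0 (by rw [h, map_zero])
    have h1 : (S.W i).valuation (Φ z⁻¹) ≤ 1 := by
      rw [map_inv₀, map_inv₀]
      exact inv_le_one_of_one_le₀ hcon
    have h2 : Φ z⁻¹ ∈ S.W i := (ValuationSubring.valuation_le_one_iff _ _).1 h1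
    have h3 : z⁻¹ ∈ S.W i := by
      rw [← hW i]
      exact h2
    have h4 : (S.W i).valuation z⁻¹ ≤ 1 := (ValuationSubring.valuation_le_one_iff _ _).2 h3
    rw [map_inv₀] at h4
    have h5 : (S.W i).valuation z ≠ 0 := (Valuation.ne_zero_iff _).2 hz0
    exact absurd ((inv_le_one₀ (zero_lt_iff.2 h5)).1 h4) (not_le.2 hz)

variable (S : Setup A L s) {φ : GQ}

/-- **`FrobW` holds for the decomposition group.** -/
theorem frobW_phi (D : Phi.Dec A s φ) : FrobW S φ (Phi.phi D (L * s * s)) :=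
  FrobW.of_comap (fun f => Phi.bc0_phi D _ f) (fun i => Phi.comap_W S D i)

variable {n : ℕ}

/-- **field `stab` of `AbsY`.** -/
theorem field_stab (hφ : A.IsFrobeniusAt φ s) :
    ∀ i, ∀ x ∈ DD S n i, frob n (L * s * s) φ x ∈ DD S n i :=
  fun i x hx => stab (frobW_phi S (Phi.dec_of_frob S hφ)) i x hx

/-- `UU` is stable. -/
theorem field_stabU (hφ : A.IsFrobeniusAt φ s) :
    ∀ x ∈ UU S n, frob n (L * s * s) φ x ∈ UU S n :=
  fun x hx => stabU (frobW_phi S (Phi.dec_of_frob S hφ)) x hx

/-- **field `unit` of `AbsY`.** -/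
theorem field_unit (hn : 0 < n) (hφ : A.IsFrobeniusAt φ s) :
    ∀ x ∈ VI A (L * s * s) n, frob n (L * s * s) φ x - x ∈ UU S n :=
  fun x hx => unit (frobW_phi S (Phi.dec_of_frob S hφ)) hn x hx

end Fermat.Agent.S43.Ctrl
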