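import Fermat.Agent.S43.Ctrl.KronK
import Fermat.Agent.S43.Ctrl.Defs

/-!
# S43 / CTRL, file `KronC`: the fields `k0a, k0b, k1a, k1b, k2a, k2b` of `AbsY`  (helper87)

Hypotheses (delivered by `KronA` / `Frob`):
* `RepL A L n` : every class of level `L` is the class of `bc0 u`, `u` over `K0`, a Gauss unit;
* `FrobL A L φ` : `φ` acts on the functions over `K0`.
-/

set_option autoImplicit false
set_option linter.unusedSectionVars false

noncomputable section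

namespace Fermat.Agent.S43.Ctrl

open AlgebraicCurve ModularCurve Fermat.Agent.S24 Fermat.Agent.GAL Fermat.Agent.GAL.Gauss
  Fermat.Agent.DR.Conc Fermat.Agent.S36.StepA Fermat.Agent.GAL.NormFormula Fermat.Agent.S36R.NormC
  Fermat.Agent.GAL.Hecke Fermat.Agent.S36R Fermat.Agent.DR.Hecke

variable {A : ValuationSubring Kbar} {L s : ℕ} [NeZero L] [NeZero s]

/-- every class of level `L` has a representative over `K0` which is a Gauss unit. -/
def RepL (A : ValuationSubring Kbar) (L n : ℕ) : Prop :=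
  ∀ z : KV Kbar (FN L) n, ∃ (u : FF (K0 A) L) (U : kummerUnits Kbar (FN L) n),
    KV.mk U = z ∧ ((U : (FN L)ˣ) : FN L) = bc0 A L u ∧
      GU A ((bc0 A L u : FN L) : LaurentSeries Kbar)

/-- `φ` acts on the functions over `K0`. -/
def FrobL (A : ValuationSubring Kbar) (L : ℕ) (φ : GQ) : Prop :=
  ∀ u : FF (K0 A) L, ∃ u' : FF (K0 A) L, bc0 A L u' = gal L φ (bc0 A L u)

variable (S : Setup A L s) {n : ℕ}

/-- a representative. -/
theorem isRep_of_eq {x : KV Kbar (FN (L * s * s)) n} (W : kummerUnits Kbar (FN (L * s * s)) n)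
    (hx : KV.mk W = x) (f : S.Fˣ)
    (e : bc0 A (L * s * s) (f : S.F) = ((W : (FN (L * s * s))ˣ) : FN (L * s * s))) :
    IsRep S n x f := by
  have key : Units.map (bc0 A (L * s * s) : S.F →* FN (L * s * s)) f = (W : (FN (L * s * s))ˣ) :=
    Units.ext e
  refine ⟨key ▸ W.2, ?_⟩
  rw [← hx]
  exact congrArg KV.mk (Subtype.ext key)

/-- membership in `DD S n i`. -/
theorem mem_DD_of {x : KV Kbar (FN (L * s * s)) n} {i : Fin 3}
    (W : kummerUnits Kbar (FN (L * s * s)) n) (hx : KV.mk W = x) (f : S.F)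
    (e : bc0 A (L * s * s) f = ((W : (FN (L * s * s))ˣ) : FN (L * s * s)))
    (hU : ∀ j, IsU (S.W j) f) (hC : Cg (S.W i) 1 f) : x ∈ DD S n i := by
  have hf0 : f ≠ 0 := (hU 0).ne_zero
  refine ⟨Units.mk0 f hf0, isRep_of_eq S W hx _ e, hU, 1, ?_⟩
  rw [one_pow]
  exact hC

/-! ### the classes of the old functions -/

theorem d1_mk (U : kummerUnits Kbar (FN L) n) :
    d1 L s n (KV.mk U) = KV.mk ⟨aUnits (L * s) s (aUnits L s U),
      aUnits_mem n (aUnits_mem n U.2)⟩ := by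
  rw [d1, AddMonoidHom.comp_apply, aPull_mk, aPull_mk]

theorem ds_mk (U : kummerUnits Kbar (FN L) n) :
    ds L s n (KV.mk U) = KV.mk ⟨aUnits (L * s) s (bUnits L s U),
      aUnits_mem n (bUnits_mem n U.2)⟩ := by
  rw [ds, AddMonoidHom.comp_apply, bPull_mk, aPull_mk]

theorem dss_mk (U : kummerUnits Kbar (FN L) n) :
    dss L s n (KV.mk U) = KV.mk ⟨bUnits (L * s) s (bUnits L s U),
      bUnits_mem n (bUnits_mem n U.2)⟩ := by
  rw [dss, AddMonoidHom.comp_apply, bPull_mk, bPull_mk]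

theorem frob_applyC (N : ℕ) (φ : GQ) (x : KV Kbar (FN N) n) : frob n N φ x = φ • x := rfl

/-- the class of a Galois conjugate. -/
theorem exists_frob_mk (N : ℕ) (φ : GQ) (U : kummerUnits Kbar (FN N) n) :
    ∃ U' : kummerUnits Kbar (FN N) n, frob n N φ (KV.mk U) = KV.mk U' ∧
      ((U' : (FN N)ˣ) : FN N) = gal N φ ((U : (FN N)ˣ) : FN N) := by
  rw [frob_applyC, KV.galois_smul_mk]
  exact ⟨_, rfl, rfl⟩

/-- the general shape: `D₁ (U₁) - m • D₂ (U₂)`. -/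
theorem sub_nsmul_mem_DD {i : Fin 3} (W₁ W₂ : kummerUnits Kbar (FN (L * s * s)) n) (m : ℕ)
    (x y : S.F) (ex : bc0 A (L * s * s) x = ((W₁ : (FN (L * s * s))ˣ) : FN (L * s * s)))
    (ey : bc0 A (L * s * s) y = ((W₂ : (FN (L * s * s))ˣ) : FN (L * s * s)))
    (hx : ∀ j, IsU (S.W j) x) (hy : ∀ j, IsU (S.W j) y) (hC : Cg (S.W i) 1 (x / y ^ m)) :
    KV.mk W₁ - (m : ℤ) • KV.mk W₂ ∈ DD S n i := by
  refine mem_DD_of S (W₁ * (W₂ ^ m)⁻¹) ?_ (x / y ^ m) ?_ (fun j => (hx j).div ((hy j).pow m)) hC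
  · rw [KV.mk_mul, KV.mk_inv, KV.mk_pow, natCast_zsmul, sub_eq_add_neg]
  · rw [map_div₀, map_pow, ex, ey]
    simp [div_eq_mul_inv]


/-! ### representatives of `d1 z`, `ds z`, `dss z` -/

/-- the three old classes of `z = [bc0 u]` and their representatives over `K0`. -/
theorem exists_old_rep {u : FF (K0 A) L} (U : kummerUnits Kbar (FN L) n)
    (e : ((U : (FN L)ˣ) : FN L) = bc0 A L u) :
    (∃ W : kummerUnits Kbar (FN (L * s * s)) n, d1 L s n (KV.mk U) = KV.mk W ∧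
      bc0 A (L * s * s) (S.p0 u) = ((W : (FN (L * s * s))ˣ) : FN (L * s * s))) ∧
    (∃ W : kummerUnits Kbar (FN (L * s * s)) n, ds L s n (KV.mk U) = KV.mk W ∧
      bc0 A (L * s * s) (pm S u) = ((W : (FN (L * s * s))ˣ) : FN (L * s * s))) ∧
    (∃ W : kummerUnits Kbar (FN (L * s * s)) n, dss L s n (KV.mk U) = KV.mk W ∧
      bc0 A (L * s * s) (S.p2 u) = ((W : (FN (L * s * s))ˣ) : FN (L * s * s))) := by
  refine ⟨⟨_, d1_mk U, ?_⟩, ⟨_, ds_mk U, ?_⟩, ⟨_, dss_mk U, ?_⟩⟩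
  · rw [bc0_p0, ← e]; rfl
  · rw [bc0_pm, ← e]; rfl
  · rw [bc0_p2, ← e]; rfl

variable {S}

section fields

variable (hR : RepL A L n) {φ : GQ} (hφ : A.IsFrobeniusAt φ s) (hF : FrobL A L φ)

include hR hφ hF

/-- common preparation: `z`, `φ z`, `φ φ z` with representatives `u, u', u''`. -/
theorem exists_three (z : KV Kbar (FN L) n) :
    ∃ (u u' u'' : FF (K0 A) L) (U U' U'' : kummerUnits Kbar (FN L) n),
      KV.mk U = z ∧ KV.mk U' = frob n L φ z ∧ KV.mk U'' = frob n L φ (frob n L φ z) ∧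
      ((U : (FN L)ˣ) : FN L) = bc0 A L u ∧ ((U' : (FN L)ˣ) : FN L) = bc0 A L u' ∧
      ((U'' : (FN L)ˣ) : FN L) = bc0 A L u'' ∧
      GU A ((bc0 A L u : FN L) : LaurentSeries Kbar) ∧
      GU A ((bc0 A L u' : FN L) : LaurentSeries Kbar) ∧
      GU A ((bc0 A L u'' : FN L) : LaurentSeries Kbar) ∧
      bc0 A L u' = gal L φ (bc0 A L u) ∧ bc0 A L u'' = gal L φ (bc0 A L u') := by
  obtain ⟨u, U, rfl, e, hu⟩ := hR z
  obtain ⟨u', hu'⟩ := hF u
  obtain ⟨u'', hu''⟩ := hF u'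
  obtain ⟨U', h1, e'⟩ := exists_frob_mk L φ U
  obtain ⟨U'', h2, e''⟩ := exists_frob_mk L φ U'
  have g1 : GU A ((bc0 A L u' : FN L) : LaurentSeries Kbar) := by
    rw [hu', coe_gal]
    exact gu_coeffMap hu ⟨φ, hφ.mem_decompositionSubgroup⟩
  have g2 : GU A ((bc0 A L u'' : FN L) : LaurentSeries Kbar) := by
    rw [hu'', coe_gal]
    exact gu_coeffMap g1 ⟨φ, hφ.mem_decompositionSubgroup⟩
  refine ⟨u, u', u'', U, U', U'', rfl, h1.symm, ?_, e, ?_, ?_, hu, g1, g2, hu', hu''⟩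
  · rw [h1, h2]
  · rw [e', e, hu']
  · rw [e'', e', e, hu'', hu']

theorem field_k0a (z : KV Kbar (FN L) n) :
    ds L s n (frob n L φ z) - (s : ℤ) • d1 L s n z ∈ DD S n 0 := by
  obtain ⟨u, u', u'', U, U', U'', rfl, h1, h2, e, e', e'', g, g', g'', f', f''⟩ :=
    exists_three hR hφ hF z
  obtain ⟨⟨W, hW, eW⟩, -, -⟩ := exists_old_rep S U e
  obtain ⟨-, ⟨W', hW', eW'⟩, -⟩ := exists_old_rep S U' e'
  rw [← h1, hW, hW']
  exact sub_nsmul_mem_DD S W' W s _ _ eW' eW (fun j => (isU_old S g' j).2.1)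
    (fun j => (isU_old S g j).1) (K0a S g φ hφ f').1

theorem field_k1a (z : KV Kbar (FN L) n) :
    ds L s n (frob n L φ z) - (s : ℤ) • d1 L s n z ∈ DD S n 1 := by
  obtain ⟨u, u', u'', U, U', U'', rfl, h1, h2, e, e', e'', g, g', g'', f', f''⟩ :=
    exists_three hR hφ hF z
  obtain ⟨⟨W, hW, eW⟩, -, -⟩ := exists_old_rep S U e
  obtain ⟨-, ⟨W', hW', eW'⟩, -⟩ := exists_old_rep S U' e'
  rw [← h1, hW, hW']
  exact sub_nsmul_mem_DD S W' W s _ _ eW' eW (fun j => (isU_old S g' j).2.1)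
    (fun j => (isU_old S g j).1) (K0a S g φ hφ f').2

theorem field_k2a (z : KV Kbar (FN L) n) :
    ds L s n (frob n L φ z) - (s : ℤ) • dss L s n z ∈ DD S n 2 := by
  obtain ⟨u, u', u'', U, U', U'', rfl, h1, h2, e, e', e'', g, g', g'', f', f''⟩ :=
    exists_three hR hφ hF z
  obtain ⟨-, -, ⟨W, hW, eW⟩⟩ := exists_old_rep S U e
  obtain ⟨-, ⟨W', hW', eW'⟩, -⟩ := exists_old_rep S U' e'
  rw [← h1, hW, hW']
  exact sub_nsmul_mem_DD S W' W s _ _ eW' eW (fun j => (isU_old S g' j).2.1)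
    (fun j => (isU_old S g j).2.2) (K2a S g φ hφ f')

theorem field_k0b (z : KV Kbar (FN L) n) :
    dss L s n (frob n L φ (frob n L φ z)) - ((s : ℤ) * s) • d1 L s n z ∈ DD S n 0 := by
  obtain ⟨u, u', u'', U, U', U'', rfl, h1, h2, e, e', e'', g, g', g'', f', f''⟩ :=
    exists_three hR hφ hF z
  obtain ⟨⟨W, hW, eW⟩, -, -⟩ := exists_old_rep S U e
  obtain ⟨-, -, ⟨W', hW', eW'⟩⟩ := exists_old_rep S U'' e''
  rw [← h2, hW, hW', ← Nat.cast_mul]
  exact sub_nsmul_mem_DD S W' W (s * s) _ _ eW' eW (fun j => (isU_old S g'' j).2.2)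
    (fun j => (isU_old S g j).1) (K0b S g φ hφ f' f'').1

theorem field_k2b (z : KV Kbar (FN L) n) :
    d1 L s n (frob n L φ (frob n L φ z)) - ((s : ℤ) * s) • dss L s n z ∈ DD S n 2 := by
  obtain ⟨u, u', u'', U, U', U'', rfl, h1, h2, e, e', e'', g, g', g'', f', f''⟩ :=
    exists_three hR hφ hF z
  obtain ⟨-, -, ⟨W, hW, eW⟩⟩ := exists_old_rep S U e
  obtain ⟨⟨W', hW', eW'⟩, -, -⟩ := exists_old_rep S U'' e''
  rw [← h2, hW, hW', ← Nat.cast_mul]
  exact sub_nsmul_mem_DD S W' W (s * s) _ _ eW' eW (fun j => (isU_old S g'' j).1)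
    (fun j => (isU_old S g j).2.2) (K0b S g φ hφ f' f'').2

end fields

theorem field_k1b (hR : RepL A L n) (z : KV Kbar (FN L) n) :
    dss L s n z - d1 L s n z ∈ DD S n 1 := by
  obtain ⟨u, U, rfl, e, g⟩ := hR z
  obtain ⟨⟨W, hW, eW⟩, -, ⟨W', hW', eW'⟩⟩ := exists_old_rep S U e
  rw [hW, hW']
  have := sub_nsmul_mem_DD S W' W 1 _ _ eW' eW (fun j => (isU_old S g j).2.2)
    (fun j => (isU_old S g j).1) (K1b S g)
  rwa [Nat.cast_one, one_zsmul] at this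

end Fermat.Agent.S43.Ctrl
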