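import Fermat.Agent.S43.Ctrl.KronC
import Fermat.Agent.S43.Ctrl.Phi.Red

/-!
# S43 / CTRL, file `KronF`: adapters for the hypotheses `RepL`, `FrobL` of `KronC`  (helper87)

* `frobL_of_dec`, `frobL_of_frob` : `FrobL A L φ` from `Phi.bc0_phi`;
* `repL_of_GU`  : `RepL A L n` from the shape of `KronA.exists_rep`;
* `repL_of_red` : `RepL A L n` from the shape of `RedInj.exists_rep_K0`.
-/

set_option autoImplicit false
set_option linter.unusedSectionVars false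

noncomputable section

namespace Fermat.Agent.S43.Ctrl

open AlgebraicCurve ModularCurve Fermat.Agent.S24 Fermat.Agent.GAL Fermat.Agent.GAL.Gauss
  Fermat.Agent.DR.Conc Fermat.Agent.S36.StepA Fermat.Agent.GAL.NormFormula Fermat.Agent.S36R.NormC
  Fermat.Agent.GAL.Hecke Fermat.Agent.S36R Fermat.Agent.DR.Hecke

variable {A : ValuationSubring Kbar} {L s : ℕ} [NeZero L] [NeZero s]

theorem frobL_of_dec {φ : GQ} (D : Phi.Dec A s φ) (N : ℕ) : FrobL A N φ :=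
  fun u => ⟨Phi.phi D N u, Phi.bc0_phi D N u⟩

theorem frobL_of_frob (S : Setup A L s) {φ : GQ} (hφ : A.IsFrobeniusAt φ s) (N : ℕ) :
    FrobL A N φ :=
  frobL_of_dec (Phi.dec_of_frob (S := S) hφ) N

theorem repL_of_GU {n : ℕ}
    (h : ∀ z : KV Kbar (FN L) n, ∃ (u : (FF (K0 A) L)ˣ)
      (hu : Units.map (bc0 A L : FF (K0 A) L →* FN L) u ∈ kummerUnits Kbar (FN L) n),
      KV.mk ⟨_, hu⟩ = z ∧ GU A ((bc0 A L (u : FF (K0 A) L) : FN L) : LaurentSeries Kbar)) :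
    RepL A L n := by
  intro z
  obtain ⟨u, hu, hz, hG⟩ := h z
  exact ⟨(u : FF (K0 A) L), ⟨_, hu⟩, hz, rfl, hG⟩

theorem GU_of_red_ne_zero (hM : (L : IsLocalRing.ResidueField ↥A) ≠ 0) {x : FN L}
    (h : (RM A L hM).red x ≠ 0) : GU A (x : LaurentSeries Kbar) := by
  have hx : x ∈ (RM A L hM).O := by
    by_contra hx
    exact h ((RM A L hM).red_of_not_mem hx)
  have hx' : (x : LaurentSeries Kbar) ∈ gRing A := (mem_RM_O_iff A L hM x).1 hx
  refine ⟨gRes A ⟨_, hx'⟩, ?_, hx', rfl⟩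
  intro h0
  apply h
  apply Subtype.ext
  rw [coe_RM_red A L hM x hx', h0]
  rfl

theorem repL_of_red {n : ℕ} (hM : (L : IsLocalRing.ResidueField ↥A) ≠ 0)
    (h : ∀ z : KV Kbar (FN L) n, ∃ (u : (FF (K0 A) L)ˣ)
      (hu : Units.map (bc0 A L : FF (K0 A) L →* FN L) u ∈ kummerUnits Kbar (FN L) n),
      KV.mk ⟨_, hu⟩ = z ∧ (RM A L hM).red (bc0 A L (u : FF (K0 A) L)) ≠ 0) :
    RepL A L n :=
  repL_of_GU fun z => by
    obtain ⟨u, hu, hz, hr⟩ := h z
    exact ⟨u, hu, hz, GU_of_red_ne_zero hM hr⟩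

end Fermat.Agent.S43.Ctrl
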