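import Fermat.Agent.S43.Ctrl.Kron
import Fermat.Agent.S36R.AA.Old
import Fermat.Agent.S36R.Contracts

/-!
# S43 / CTRL, file `KronK`: the Kronecker congruences over `K0`, in the form `IsU` / `Cg`  (helper87)

`S : Setup A L s`.  `S.p0, pm S, S.p2 : FF K0 L → S.F` (`u(t) ↦ u(t), u(t^s), u(t^{s²})`).
For `u : FF K0 L` a Gauss unit (`GU A (bc0 u)`), `u', u''` with `bc0 u' = σ (bc0 u)`, `bc0 u'' = σ (bc0 u')`, `σ` a Frobenius at `A`:
each of the six quotients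

  `pm u' / (p0 u)^s`, `p2 u'' / (p0 u)^(s s)`, `p2 u / p0 u`, `pm u' / (p2 u)^s`, `p0 u'' / (p2 u)^(s s)`

is a unit of `S.W 0, S.W 1, S.W 2` and is `≡ 1` along the relevant `S.W i`.
-/

set_option autoImplicit false
set_option linter.unusedSectionVars false

noncomputable section

namespace Fermat.Agent.S43.Ctrl

open AlgebraicCurve ModularCurve Fermat.Agent.S24 Fermat.Agent.GAL Fermat.Agent.GAL.Gauss
  Fermat.Agent.DR.Conc Fermat.Agent.S36.StepA Fermat.Agent.GAL.NormFormula Fermat.Agent.S36R.NormC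
  Fermat.Agent.GAL.Hecke Fermat.Agent.S36R

variable {A : ValuationSubring Kbar} {L s : ℕ} [NeZero L] [NeZero s]

/-! ### series -/

/-- `(σ x)(t^s)` reduces to `r^s`. -/
theorem red_frob (hs : s.Prime) (hA : A.LiesOverPrime s) {x : LaurentSeries Kbar}
    {r : LaurentSeries (IsLocalRing.ResidueField ↥A)} (h : Red A x r) (σ : Kbar ≃ₐ[ℚ] Kbar) (hσ : A.IsFrobeniusAt σ s) :
    Red A (qExpand Kbar s (coeffMap (σ : Kbar →+* Kbar) x)) (r ^ s) := by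
  have : Fact s.Prime := ⟨hs⟩
  have := Hecke.charP_residueField A hs hA
  have h3 := (h.coeffMap ⟨σ, hσ.mem_decompositionSubgroup⟩).qExpand s
  have h5 : coeffMap ((barAut A ⟨σ, hσ.mem_decompositionSubgroup⟩ : _ ≃+* _) : _ →+* _) r =
      coeffMap (frobenius (IsLocalRing.ResidueField ↥A) s) r := by
    ext n
    exact hσ.smul_residue_eq _
  rw [h5, ← Hecke.pow_char_eq_qExpand] at h3
  exact h3

/-- `σ x` is a Gauss unit. -/
theorem gu_coeffMap {x : LaurentSeries Kbar} (h : GU A x) (σ : A.decompositionSubgroup ℚ) :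
    GU A (coeffMap (((σ : Kbar ≃ₐ[ℚ] Kbar)) : Kbar →+* Kbar) x) := by
  obtain ⟨r, hr, h⟩ := h
  refine ⟨_, ?_, h.coeffMap σ⟩
  intro h0
  apply hr
  ext n
  have := congrArg (fun z => HahnSeries.coeff z n) h0
  simpa [coeffMap_coeff] using this

/-- `x(ζ t)` reduces to `r`. -/
theorem red_twist (hs : s.Prime) (hA : A.LiesOverPrime s) {x : LaurentSeries Kbar}
    {r : LaurentSeries (IsLocalRing.ResidueField ↥A)} (h : Red A x r) {ζ : Kbar} (hζ : ζ ^ s = 1) (hζ0 : ζ ≠ 0) :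
    Red A (Fermat.Agent.S24.twist ζ hζ0 x) r := by
  obtain ⟨h, rfl⟩ := h
  obtain ⟨h1, h2⟩ := Normalise_zeta_mem A hs.pos hζ
  exact ⟨twist_mem_gRing A hζ0 h1 h2 h,
    gRes_twist A hζ0 h1 h2 (Normalise_residue_zeta A s hs hA hζ h1) h⟩

theorem qExpand_ne_zero' {k : Type*} [Field k] {r : LaurentSeries k} (hr : r ≠ 0) :
    qExpand k s r ≠ 0 := (map_ne_zero _).2 hr

variable (S : Setup A L s)

/-- `u(t) ↦ u(t^s)` over `K0`. -/
def pm : FF (K0 A) L →ₐ[K0 A] S.F := S.al.comp S.be1'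

theorem pm_apply (u : FF (K0 A) L) : pm S u = S.al (S.be1' u) := rfl

theorem e0_pm (u : FF (K0 A) L) :
    S.e0 (pm S u) = qExpand Kbar s ((bc0 A L u : FN L) : LaurentSeries Kbar) := by
  rw [pm_apply, Setup.e0_al, Setup.d0_be1']

theorem e1_pm (u : FF (K0 A) L) :
    S.e1 (pm S u) = qExpand Kbar s ((bc0 A L u : FN L) : LaurentSeries Kbar) := by
  rw [pm_apply, Setup.e1_al, Setup.d0_be1']

theorem e2_pm (u : FF (K0 A) L) :
    S.e2 (pm S u) = qExpand Kbar s ((bc0 A L u : FN L) : LaurentSeries Kbar) := by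
  rw [pm_apply, Setup.e2_al, Setup.d1_be1']

theorem bc0_p0 (u : FF (K0 A) L) : bc0 A (L * s * s) (S.p0 u) = p1 L s (bc0 A L u) := by
  rw [Setup.p0_apply, Setup.bc0_al, Setup.bc0_al1']; rfl

theorem bc0_pm (u : FF (K0 A) L) : bc0 A (L * s * s) (pm S u) = ps L s (bc0 A L u) := by
  rw [pm_apply, Setup.bc0_al, Setup.bc0_be1']; rfl

theorem bc0_p2 (u : FF (K0 A) L) : bc0 A (L * s * s) (S.p2 u) = pss L s (bc0 A L u) := by
  rw [Setup.p2_apply, Setup.bc0_be, Setup.bc0_be1']; rfl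

/-- the expansion number `i`. -/
def ee : Fin 3 → (S.F →+* LaurentSeries Kbar) := ![S.e0, S.e1, S.e2]

theorem isU_W_iff (i : Fin 3) (z : S.F) : IsU (S.W i) z ↔ GU A (ee S i z) := by
  fin_cases i
  · exact isU_gVS_iff (h := S.normable_e0)
  · exact isU_gVS_iff (h := S.normable_e1)
  · exact isU_gVS_iff (h := S.normable_e2)

theorem cg_W_of_red (i : Fin 3) {x y : S.F} {r : LaurentSeries (IsLocalRing.ResidueField ↥A)}
    (hx : Red A (ee S i x) r) (hy : Red A (ee S i y) r) : Cg (S.W i) x y := by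
  fin_cases i
  · exact cg_of_red (h := S.normable_e0) hx hy
  · exact cg_of_red (h := S.normable_e1) hx hy
  · exact cg_of_red (h := S.normable_e2) hx hy

/-- the reductions of the nine expansions. -/
theorem red_table {u : FF (K0 A) L} {r : LaurentSeries (IsLocalRing.ResidueField ↥A)}
    (h : Red A ((bc0 A L u : FN L) : LaurentSeries Kbar) r) :
    (Red A (ee S 0 (S.p0 u)) r ∧ Red A (ee S 0 (pm S u)) (qExpand _ s r) ∧
      Red A (ee S 0 (S.p2 u)) (qExpand _ s (qExpand _ s r))) ∧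
    (Red A (ee S 1 (S.p0 u)) r ∧ Red A (ee S 1 (pm S u)) (qExpand _ s r) ∧
      Red A (ee S 1 (S.p2 u)) r) ∧
    (Red A (ee S 2 (S.p0 u)) (qExpand _ s (qExpand _ s r)) ∧ Red A (ee S 2 (pm S u)) (qExpand _ s r) ∧
      Red A (ee S 2 (S.p2 u)) r) := by
  refine ⟨⟨?_, ?_, ?_⟩, ⟨?_, ?_, ?_⟩, ⟨?_, ?_, ?_⟩⟩
  · show Red A (S.e0 _) _
    rw [Setup.e0_p0]; exact h
  · show Red A (S.e0 _) _
    rw [e0_pm]; exact h.qExpand s
  · show Red A (S.e0 _) _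
    rw [Setup.e0_p2]; exact (h.qExpand s).qExpand s
  · show Red A (S.e1 _) _
    rw [Setup.e1_p0]; exact h
  · show Red A (S.e1 _) _
    rw [e1_pm]; exact h.qExpand s
  · show Red A (S.e1 _) _
    rw [Setup.e1_p2]; exact red_twist S.hq S.hA h S.hζ.pow_eq_one _
  · show Red A (S.e2 _) _
    rw [Setup.e2_p0]; exact (h.qExpand s).qExpand s
  · show Red A (S.e2 _) _
    rw [e2_pm]; exact h.qExpand s
  · show Red A (S.e2 _) _
    rw [Setup.e2_p2]; exact h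


theorem red_quot (i : Fin 3) {x y : S.F} {a b : LaurentSeries (IsLocalRing.ResidueField ↥A)}
    (hx : Red A (ee S i x) a) (hy : Red A (ee S i y) b) (hb : b ≠ 0) (m : ℕ) :
    Red A (ee S i (x / y ^ m)) (a / b ^ m) := by
  rw [map_div₀, map_pow]
  exact hx.div (hy.pow m) (pow_ne_zero _ hb)

theorem isU_quot (i : Fin 3) {x y : S.F} {a b : LaurentSeries (IsLocalRing.ResidueField ↥A)}
    (hx : Red A (ee S i x) a) (hy : Red A (ee S i y) b) (ha : a ≠ 0) (hb : b ≠ 0) (m : ℕ) :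
    IsU (S.W i) (x / y ^ m) :=
  (isU_W_iff S i _).2 ⟨_, div_ne_zero ha (pow_ne_zero _ hb), red_quot S i hx hy hb m⟩

theorem cg_one_quot (i : Fin 3) {x y : S.F} {a b : LaurentSeries (IsLocalRing.ResidueField ↥A)}
    (hx : Red A (ee S i x) a) (hy : Red A (ee S i y) b) (hb : b ≠ 0) (m : ℕ) (e : a = b ^ m) :
    Cg (S.W i) 1 (x / y ^ m) := by
  refine cg_W_of_red S i (r := 1) ?_ ?_
  · rw [map_one]; exact Red.one
  · have := red_quot S i hx hy hb m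
    rwa [e, div_self (pow_ne_zero _ hb)] at this

include S in
/-- the reduction of a Frobenius conjugate. -/
theorem exists_red_frob {u u' : FF (K0 A) L} {r : LaurentSeries (IsLocalRing.ResidueField ↥A)}
    (h : Red A ((bc0 A L u : FN L) : LaurentSeries Kbar) r) (hr : r ≠ 0)
    (σ : Kbar ≃ₐ[ℚ] Kbar) (hσ : A.IsFrobeniusAt σ s) (hu' : bc0 A L u' = gal L σ (bc0 A L u)) :
    ∃ r', r' ≠ 0 ∧ Red A ((bc0 A L u' : FN L) : LaurentSeries Kbar) r' ∧ qExpand _ s r' = r ^ s := by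
  have h1 := h.coeffMap ⟨σ, hσ.mem_decompositionSubgroup⟩
  have h2 := red_frob S.hq S.hA h σ hσ
  have e := (h1.qExpand s).unique h2
  refine ⟨_, ?_, ?_, e⟩
  · intro h0
    rw [h0, map_zero] at e
    exact pow_ne_zero _ hr e.symm
  · rw [hu', coe_gal]
    exact h1

section Six

variable {u u' u'' : FF (K0 A) L} (hu : GU A ((bc0 A L u : FN L) : LaurentSeries Kbar))
  (σ : Kbar ≃ₐ[ℚ] Kbar) (hσ : A.IsFrobeniusAt σ s) (hu' : bc0 A L u' = gal L σ (bc0 A L u))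
  (hu'' : bc0 A L u'' = gal L σ (bc0 A L u'))

include hu in
/-- `p0 u`, `pm u`, `p2 u` are units of the `S.W i`. -/
theorem isU_old (i : Fin 3) : IsU (S.W i) (S.p0 u) ∧ IsU (S.W i) (pm S u) ∧ IsU (S.W i) (S.p2 u) := by
  obtain ⟨r, hr, h⟩ := hu
  have hq1 : qExpand _ s r ≠ 0 := qExpand_ne_zero' hr
  have hq2 : qExpand _ s (qExpand _ s r) ≠ 0 := qExpand_ne_zero' hq1
  obtain ⟨⟨a0, a1, a2⟩, ⟨b0, b1, b2⟩, ⟨c0, c1, c2⟩⟩ := red_table S h
  fin_cases i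
  · exact ⟨(isU_W_iff S 0 _).2 ⟨_, hr, a0⟩, (isU_W_iff S 0 _).2 ⟨_, hq1, a1⟩,
      (isU_W_iff S 0 _).2 ⟨_, hq2, a2⟩⟩
  · exact ⟨(isU_W_iff S 1 _).2 ⟨_, hr, b0⟩, (isU_W_iff S 1 _).2 ⟨_, hq1, b1⟩,
      (isU_W_iff S 1 _).2 ⟨_, hr, b2⟩⟩
  · exact ⟨(isU_W_iff S 2 _).2 ⟨_, hq2, c0⟩, (isU_W_iff S 2 _).2 ⟨_, hq1, c1⟩,
      (isU_W_iff S 2 _).2 ⟨_, hr, c2⟩⟩

include hu hσ hu' in
/-- `pm (σ u) ≡ (p0 u)^s` along `W 0` and `W 1`. -/
theorem K0a : Cg (S.W 0) 1 (pm S u' / S.p0 u ^ s) ∧ Cg (S.W 1) 1 (pm S u' / S.p0 u ^ s) := by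
  obtain ⟨r, hr, h⟩ := hu
  obtain ⟨r', hr', h', e⟩ := exists_red_frob S h hr σ hσ hu'
  obtain ⟨⟨a0, -, -⟩, ⟨b0, -, -⟩, -⟩ := red_table S h
  obtain ⟨⟨-, a1, -⟩, ⟨-, b1, -⟩, -⟩ := red_table S h'
  exact ⟨cg_one_quot S 0 a1 a0 hr s e, cg_one_quot S 1 b1 b0 hr s e⟩

include hu hσ hu' in
/-- `pm (σ u) ≡ (p2 u)^s` along `W 2`. -/
theorem K2a : Cg (S.W 2) 1 (pm S u' / S.p2 u ^ s) := by
  obtain ⟨r, hr, h⟩ := hu
  obtain ⟨r', hr', h', e⟩ := exists_red_frob S h hr σ hσ hu'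
  obtain ⟨-, -, ⟨-, -, c2⟩⟩ := red_table S h
  obtain ⟨-, -, ⟨-, c1, -⟩⟩ := red_table S h'
  exact cg_one_quot S 2 c1 c2 hr s e

include hu in
/-- `p2 u ≡ p0 u` along `W 1`. -/
theorem K1b : Cg (S.W 1) 1 (S.p2 u / S.p0 u ^ 1) := by
  obtain ⟨r, hr, h⟩ := hu
  obtain ⟨-, ⟨b0, -, b2⟩, -⟩ := red_table S h
  exact cg_one_quot S 1 b2 b0 hr 1 (pow_one r).symm

include hu hσ hu' hu'' in
/-- `p2 (σ σ u) ≡ (p0 u)^(s s)` along `W 0`, `p0 (σ σ u) ≡ (p2 u)^(s s)` along `W 2`. -/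
theorem K0b : Cg (S.W 0) 1 (S.p2 u'' / S.p0 u ^ (s * s)) ∧
    Cg (S.W 2) 1 (S.p0 u'' / S.p2 u ^ (s * s)) := by
  obtain ⟨r, hr, h⟩ := hu
  obtain ⟨r', hr', h', e⟩ := exists_red_frob S h hr σ hσ hu'
  obtain ⟨r'', hr'', h'', e'⟩ := exists_red_frob S h' hr' σ hσ hu''
  have e2 : qExpand _ s (qExpand _ s r'') = r ^ (s * s) := by
    rw [e', map_pow, e, ← pow_mul]
  obtain ⟨⟨a0, -, -⟩, -, ⟨-, -, c2⟩⟩ := red_table S h
  obtain ⟨⟨-, -, a2⟩, -, ⟨c0, -, -⟩⟩ := red_table S h''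
  exact ⟨cg_one_quot S 0 a2 a0 hr _ e2, cg_one_quot S 2 c0 c2 hr _ e2⟩

end Six

end Fermat.Agent.S43.Ctrl
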