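import Fermat.Agent.S36R.End.Final
import Fermat.Agent.GAL.Igusa.PoleSpace
import Fermat.Agent.GAL.RED.CurveBasic

/-!
# S43 / CTRL, file `KumAbs`: the reductions of a Kummer function are Kummer functions (abstract form)   (helper75)

On the contracts of S36 route R.  `ρ : W i → Fb` a residue map of the vertical valuation ring `W i` into the function field `Fb / k` of the
component.  `f` a unit of `W 0, W 1, W 2` with `n ∣ ord_P f` at all the (horizontal) places.  Then `n ∣ ord_P (ρ f)` at every place `P` of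
`Fb`: the local ring of the chart at the closed point defined by `P` is factorial (`Local.local_factor`), so `f = unit * G ^ n` there.
-/

set_option autoImplicit false
set_option linter.unusedSectionVars false

namespace Fermat.Agent.S43.Ctrl

open AlgebraicCurve Fermat.Agent.S36R Fermat.Agent.Lib.RR

variable {O K F FA : Type*} [CommRing O] [Field K] [Field F] [Field FA] [Algebra K F] [Algebra K FA]
  [Algebra O F] [Algebra O K] [IsScalarTower O K F] {D : Lvl K F FA} {q n : ℕ} {c : F}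
  {R : Subring F} {k Fb : Type*} [Field k] [Field Fb] [Algebra k Fb]

/-- **One chart.**  `cb ∈ O_P` a function over which `ρ R` is integral; `PointOK` at the closed point of `R` defined by `P`. -/
theorem kum_chart [IsFF k Fb] [IsAlgClosed k] (hD : D.Good O q) (hR : D.ChartOK O q c R)
    (hK : ∀ a : K, ∃ (k : ℕ) (u : O), (q : K) ^ k * a = algebraMap O K u)
    (i : Fin 3) (ρ : D.W i →+* Fb) (cb : Fb)
    (hker : ∀ y : D.W i, ρ y = 0 ↔ (D.W i).valuation (y : F) < 1)
    (hint : ∀ (x : F) (hx : x ∈ R),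
      IsIntegral (Algebra.adjoin k {cb}) (ρ ⟨x, hR.chart.le_W i x hx⟩))
    (hconst : ∀ b : k, ∃ (x : F) (hx : x ∈ R), ρ ⟨x, hR.chart.le_W i x hx⟩ = algebraMap k Fb b)
    (P : Place k Fb) (hP : cb ∈ P.toValuationSubring)
    (hPt : ∀ (𝔫 : Ideal R) [𝔫.IsMaximal], (q : R) ∈ 𝔫 →
      (∀ x : R, x ∈ 𝔫 ↔ ρ ⟨x, hR.chart.le_W i x x.2⟩ ∈ P.toValuationSubring.nonunits) →
      D.PointOK R 𝔫)
    (hn : 0 < n) {f : F} (hu : ∀ i, IsU (D.W i) f)
    (hord : ∀ P : Place K F, (n : ℤ) ∣ P.ord f) :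
    (n : ℤ) ∣ P.ord (ρ ⟨f, (hu i).mem⟩) := by
  -- the map `R → O_P`
  let ρR : R →+* Fb := ρ.comp (Subring.inclusion
    (show R ≤ (D.W i).toSubring from fun x hx => hR.chart.le_W i x hx))
  have hρR : ∀ x : R, ρR x = ρ ⟨x, hR.chart.le_W i x x.2⟩ := fun _ => rfl
  let φ : R →+* P.toValuationSubring := ρR.codRestrict P.toValuationSubring.toSubring fun x =>
    GAL.Igusa.mem_place_of_isIntegral P hP (hint x x.2)
  have hφ : ∀ x : R, ((φ x : P.toValuationSubring) : Fb) = ρ ⟨x, hR.chart.le_W i x x.2⟩ :=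
    fun _ => rfl
  let ψ : R →+* P.ResidueField := (IsLocalRing.residue P.toValuationSubring).comp φ
  have hψ : Function.Surjective ψ := by
    intro z
    obtain ⟨b, rfl⟩ := (GAL.RED.curveBasic_residue_bijective P).2 z
    obtain ⟨x, hx, hxb⟩ := hconst b
    refine ⟨⟨x, hx⟩, ?_⟩
    have h1 : φ ⟨x, hx⟩ = algebraMap k P.toValuationSubring b := Subtype.ext hxb
    show IsLocalRing.residue P.toValuationSubring (φ ⟨x, hx⟩) = _
    rw [h1]
    rfl
  have hmax : (RingHom.ker ψ).IsMaximal := RingHom.ker_isMaximal_of_surjective ψ hψ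
  have hmem : ∀ x : R, x ∈ RingHom.ker ψ ↔
      ρ ⟨x, hR.chart.le_W i x x.2⟩ ∈ P.toValuationSubring.nonunits := by
    intro x
    rw [RingHom.mem_ker, ValuationSubring.mem_nonunits_iff_exists_mem_maximalIdeal]
    show IsLocalRing.residue P.toValuationSubring (φ x) = 0 ↔ _
    rw [IsLocalRing.residue_eq_zero_iff]
    constructor
    · intro h
      exact ⟨(φ x).2, h⟩
    · rintro ⟨_, h⟩
      exact h
  have hthru : Inj.Thru D.W (RingHom.ker ψ) i := by
    intro x hx
    rw [hmem, (hker _).2 hx, ValuationSubring.mem_nonunits_iff, map_zero]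
    exact zero_lt_one
  have hq𝔫 : (q : R) ∈ RingHom.ker ψ := by
    apply hthru
    push_cast
    exact hD.q_lt i
  have hPO := hPt (RingHom.ker ψ) hq𝔫 hmem
  have hfac := Local.local_factor hD hR hK (RingHom.ker ψ) hPO hn hu hord
  obtain ⟨G, hG0, hfac⟩ := hfac
  have hGu : IsU (D.W i) G := isU_of_fac (br_of_thru hR hthru) hn (hu i) hfac
  obtain ⟨s, t, hs, ht, e⟩ := hfac
  -- units at `P`
  have hunit : ∀ x : R, x ∉ RingHom.ker ψ → ρ ⟨x, hR.chart.le_W i x x.2⟩ ≠ 0 ∧
      P.ord (ρ ⟨x, hR.chart.le_W i x x.2⟩) = 0 := by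
    intro x hx
    have h1 : IsUnit (φ x) := by
      by_contra hnu
      apply hx
      rw [RingHom.mem_ker]
      show IsLocalRing.residue P.toValuationSubring (φ x) = 0
      rw [IsLocalRing.residue_eq_zero_iff]
      exact (IsLocalRing.mem_maximalIdeal _).2 hnu
    have h2 := P.ord_coe_unit h1.unit
    rw [IsUnit.unit_spec, hφ] at h2
    refine ⟨fun h0 => ?_, h2⟩
    have h3 : φ x = 0 := Subtype.ext ((hφ x).trans h0)
    rw [h3] at h1
    exact not_isUnit_zero h1
  have e' : ρ ⟨f, (hu i).mem⟩ * ρ ⟨s, hR.chart.le_W i s s.2⟩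
      = ρ ⟨G, hGu.mem⟩ ^ n * ρ ⟨t, hR.chart.le_W i t t.2⟩ := by
    rw [← map_pow, ← map_mul, ← map_mul]
    congr 1
    exact Subtype.ext e
  have hne : ∀ {z : F} (hz : IsU (D.W i) z), ρ ⟨z, hz.mem⟩ ≠ 0 := by
    intro z hz h0
    have := (hker _).1 h0
    rw [show (D.W i).valuation ((⟨z, hz.mem⟩ : D.W i) : F) = 1 from hz] at this
    exact lt_irrefl _ this
  have h1 := congrArg P.ord e'
  rw [P.ord_mul (hne (hu i)) (hunit s hs).1, P.ord_mul (pow_ne_zero _ (hne hGu)) (hunit t ht).1,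
    (hunit s hs).2, (hunit t ht).2, add_zero, add_zero, GAL.RED.ord_pow] at h1
  rw [h1]
  exact dvd_mul_right _ _

end Fermat.Agent.S43.Ctrl
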