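import Fermat.Agent.Lib.PlaceEval

/-!
# S43 / CTRL-RED, file `KumMax`: the closed point of a chart below a place of a component is a MAXIMAL ideal

`k = 𝔽̄_q` (every element satisfies `a ^ (q ^ m) = a`), `P` a place of a function field `Fb / k`, `φ : R →+* O_P` ANY ring
homomorphism.  Then `φ⁻¹ (𝔪_P)` is a maximal ideal of `R`  (no surjectivity/fullness of the image is needed: a subring of `𝔽̄_q` is a field).
-/

set_option autoImplicit false

namespace Fermat.Agent.S43.Ctrl

open AlgebraicCurve Fermat.Agent.Lib.RR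

/-- the kernel of a ring homomorphism to a field all of whose elements satisfy `a ^ (q ^ m) = a` is maximal. -/
theorem isMaximal_ker_of_pow {R k : Type*} [CommRing R] [Field k] {q : ℕ} (hq : 1 < q)
    (hk : ∀ a : k, ∃ m : ℕ, 0 < m ∧ a ^ (q ^ m) = a) (ψ : R →+* k) : (RingHom.ker ψ).IsMaximal := by
  rw [Ideal.isMaximal_iff]
  refine ⟨by simp [RingHom.mem_ker], fun J x hJ hx hxJ => ?_⟩
  obtain ⟨m, hm, h⟩ := hk (ψ x)
  have hx0 : ψ x ≠ 0 := hx
  have h2 : 2 ≤ q ^ m := le_trans hq (Nat.le_self_pow hm.ne' q)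
  have h3 : ψ x * ψ x ^ (q ^ m - 2) = 1 := by
    have e : ψ x * (ψ x * ψ x ^ (q ^ m - 2)) = ψ x * 1 := by
      rw [mul_one, ← pow_succ', ← pow_succ']
      have : q ^ m - 2 + 1 + 1 = q ^ m := by omega
      rw [this, h]
    exact mul_left_cancel₀ hx0 e
  have h4 : 1 - x * x ^ (q ^ m - 2) ∈ RingHom.ker ψ := by
    rw [RingHom.mem_ker, map_sub, map_one, map_mul, map_pow, h3, sub_self]
  have h5 : (1 : R) = (1 - x * x ^ (q ^ m - 2)) + x * x ^ (q ^ m - 2) := by ring
  rw [h5]
  exact J.add_mem (hJ h4) (J.mul_mem_right _ hxJ)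

variable {k Fb : Type*} [Field k] [Field Fb] [Algebra k Fb] [IsFF k Fb] [IsAlgClosed k]

theorem evHom_eq_zero_iff (P : Place k Fb) (y : P.toValuationSubring) :
    Lib.PlaceEval.evHom P y = 0 ↔ y ∈ IsLocalRing.maximalIdeal P.toValuationSubring := by
  rw [← IsLocalRing.residue_eq_zero_iff]
  show (Lib.PlaceEval.resEquiv P).symm (IsLocalRing.residue _ y) = 0 ↔ _
  exact map_eq_zero_iff _ (Lib.PlaceEval.resEquiv P).symm.injective

/-- **KUMMAX.** -/
theorem isMaximal_comap_place {q : ℕ} (hq : 1 < q) (hk : ∀ a : k, ∃ m : ℕ, 0 < m ∧ a ^ (q ^ m) = a)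
    (P : Place k Fb) {R : Type*} [CommRing R] (φ : R →+* P.toValuationSubring) :
    (Ideal.comap φ (IsLocalRing.maximalIdeal P.toValuationSubring)).IsMaximal := by
  have e : Ideal.comap φ (IsLocalRing.maximalIdeal P.toValuationSubring)
      = RingHom.ker ((Lib.PlaceEval.evHom P).comp φ) := by
    ext x
    rw [Ideal.mem_comap, RingHom.mem_ker, RingHom.comp_apply, evHom_eq_zero_iff]
  rw [e]
  exact isMaximal_ker_of_pow hq hk _

end Fermat.Agent.S43.Ctrl
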