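import Fermat.Agent.S36.Lvl.Main
import Fermat.Agent.DR.Hecke.Defs

/-!
# S43 / CTRL, file `NeatLvl`: the pull-back and the norm along `L ∣ L·2`, and the degeneracy maps

`CtrlStatement` follows from `NeatStatement`:  `L ∣ L·2 ∣ L·2·2`; the level `L·2·2` is neat.  One step `L ∣ L' = L·2`
(degree `k = 2` or `3`, the same at the levels `L`, `L s`, `L s²` as `s` is odd):

* `lvlKV` (pull-back) commutes with Galois and with `π_i^*`, its kernel is killed by `k`;
* `nrmKV` (norm) satisfies `nrmKV ∘ lvlKV = k` and `nrmKV ∘ π_i'^* = π_i^* ∘ nrmKV` (base change of norms in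
  prime degree; `j(t^{L'})`, `j(t^{L' s})` do not belong to the field of level `L s`, as one sees after the Fricke
  involution).
-/

set_option autoImplicit false
set_option linter.unusedSectionVars false
set_option linter.style.haveILetI false

noncomputable section

namespace Fermat.Agent.S43.Ctrl.Neat

open AlgebraicCurve ModularCurve Fermat.Agent.S24 Fermat.Agent.GAL Fermat.Agent.GAL.Hecke
  Fermat.Agent.DR Fermat.Agent.DR.Gal Fermat.Agent.S36.Hecke Fermat.Agent.S36.Lvl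
  Fermat.Agent.GAL.NormFormula

section push

variable {N N' : ℕ} [NeZero N] [NeZero N'] (h : N ∣ N')

/-- the norm `V_m(F(N')) → V_m(F(N))`. -/
def nrmKV (m : ℕ) : KV Kbar (FN N') m →+ KV Kbar (FN N) m :=
  KV.map (Units.map (normAlong (lvl h)))
    (fun _ hu => normAlong_mem_kummerUnits (lvl h) (finiteAlong_lvl h) hu)

theorem nrmKV_mk (m : ℕ) (u : kummerUnits Kbar (FN N') m) :
    nrmKV h m (KV.mk u) = KV.mk ⟨Units.map (normAlong (lvl h)) u,
      normAlong_mem_kummerUnits (lvl h) (finiteAlong_lvl h) u.2⟩ := rfl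

theorem nrmKV_lvlKV (m : ℕ) (x : KV Kbar (FN N) m) :
    nrmKV h m (lvlKV h m x) = finrankAlong Kbar (lvl h) • x := by
  obtain ⟨u, rfl⟩ := KV.mk_surjective x
  rw [lvlKV_mk, nrmKV_mk, ← KV.mk_pow]
  refine congrArg KV.mk (Subtype.ext (Units.ext ?_))
  exact normAlong_apply_self (lvl h) _

end push

section degree

theorem lvl_eq_alpha (N q : ℕ) [NeZero N] [NeZero q] (h : N ∣ N * q) :
    lvl h = heckeAlphaBar Kbar N q :=
  AlgHom.ext fun x => Subtype.ext (by rw [coe_lvl, coe_heckeAlphaBar])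

theorem finrank_lvl {N N' q : ℕ} [NeZero N] [NeZero N'] [NeZero q] (h : N ∣ N') (e : N' = N * q) :
    finrankAlong Kbar (lvl h) = finrankAlong Kbar (heckeAlphaBar Kbar N q) := by
  subst e
  rw [lvl_eq_alpha]

/-- the degree of `X_0(2 N) → X_0(N)`. -/
def deg2 (N : ℕ) : ℕ := if 2 ∣ N then 2 else 3

theorem deg2_prime (N : ℕ) : (deg2 N).Prime := by
  unfold deg2
  split_ifs
  · exact Nat.prime_two
  · exact Nat.prime_three

theorem deg2_mul (N s : ℕ) (hs : ¬ 2 ∣ s) : deg2 (N * s) = deg2 N := by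
  unfold deg2
  have : 2 ∣ N * s ↔ 2 ∣ N := by
    rw [Nat.prime_two.dvd_mul]
    tauto
  simp only [this]

theorem finrank_lvl_two {N N' : ℕ} [NeZero N] [NeZero N'] (h : N ∣ N') (e : N' = N * 2) :
    finrankAlong Kbar (lvl h) = deg2 N := by
  rw [finrank_lvl h e]
  unfold deg2
  split_ifs with h2
  · exact finrankAlong_alpha_of_dvd Nat.prime_two h2
  · exact finrankAlong_alpha N 2 Nat.prime_two h2

/-- `j(t^d)` does not belong to `F(N)` if `N q = d c` and `q ∤ c`. -/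
theorem jd_not_mem_range_lvl {N N' q : ℕ} [NeZero N] [NeZero N'] [NeZero q] (h : N ∣ N')
    (e : N' = N * q) (d c : ℕ) [NeZero d] [NeZero c] (hd : N' = d * c) (hq : ¬ q ∣ c) :
    FNAdjoin.jd N' d (Dvd.intro c hd.symm) ∉ Set.range (lvl h) := by
  subst e
  rintro ⟨x, hx⟩
  rw [lvl_eq_alpha] at hx
  have h1 := congrArg (fricke (N * q)) hx
  rw [fricke_alpha, fricke_jd (N * q) d c hd] at h1
  have h2 := congrArg (fun y : FN (N * q) => (y : LaurentSeries Kbar).coeff ((c : ℤ) * (-1))) h1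
  rw [coe_heckeBetaBar, FNAdjoin.coe_jd', qExpand_coeff_mul, coeff_jK_neg_one,
    qExpand_coeff_of_not_dvd] at h2
  · exact zero_ne_one h2
  · rw [mul_neg_one, Int.dvd_neg, Int.natCast_dvd_natCast]
    exact hq

end degree

section baseChange

variable {M M' s : ℕ} [NeZero M] [NeZero M'] [NeZero s] (h : M ∣ M')

/-- base change of the norm along `α_s`. -/
theorem normAlong_lvl_alpha (e : M' = M * 2) (hs : ¬ 2 ∣ s) (f : FN M') :
    heckeAlphaBar Kbar M s (normAlong (lvl h) f) =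
      normAlong (lvl (Nat.mul_dvd_mul_right h s)) (heckeAlphaBar Kbar M' s f) := by
  have e' : M' * s = M * s * 2 := by rw [e]; ring
  have hd : finrankAlong Kbar (lvl h) = deg2 M := finrank_lvl_two h e
  have hd' : finrankAlong Kbar (lvl (Nat.mul_dvd_mul_right h s)) = deg2 M := by
    rw [finrank_lvl_two _ e', deg2_mul M s hs]
  refine normAlong_baseChange_of_prime (lvl h) (lvl (Nat.mul_dvd_mul_right h s))
    (finiteAlong_lvl h) (finiteAlong_lvl _)
    (heckeAlphaBar Kbar M s : FN M →+* FN (M * s))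
    (heckeAlphaBar Kbar M' s : FN M' →+* FN (M' * s))
    (fun x => (lvl_alpha h x).symm) (by rw [hd, hd']) (by rw [hd']; exact deg2_prime M)
    (FNAdjoin.jd M' M' dvd_rfl) ?_ f
  have h3 : (heckeAlphaBar Kbar M' s : FN M' →+* FN (M' * s)) (FNAdjoin.jd M' M' dvd_rfl) =
      FNAdjoin.jd (M' * s) M' (Dvd.intro s rfl) := AtkinLehner.alpha_jd M' dvd_rfl
  rw [h3]
  exact jd_not_mem_range_lvl _ e' M' s rfl hs

/-- base change of the norm along `β_s`. -/
theorem normAlong_lvl_beta (e : M' = M * 2) (hs : ¬ 2 ∣ s) (f : FN M') :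
    heckeBetaBar Kbar M s (normAlong (lvl h) f) =
      normAlong (lvl (Nat.mul_dvd_mul_right h s)) (heckeBetaBar Kbar M' s f) := by
  have e' : M' * s = M * s * 2 := by rw [e]; ring
  have hd : finrankAlong Kbar (lvl h) = deg2 M := finrank_lvl_two h e
  have hd' : finrankAlong Kbar (lvl (Nat.mul_dvd_mul_right h s)) = deg2 M := by
    rw [finrank_lvl_two _ e', deg2_mul M s hs]
  refine normAlong_baseChange_of_prime (lvl h) (lvl (Nat.mul_dvd_mul_right h s))
    (finiteAlong_lvl h) (finiteAlong_lvl _)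
    (heckeBetaBar Kbar M s : FN M →+* FN (M * s))
    (heckeBetaBar Kbar M' s : FN M' →+* FN (M' * s))
    (fun x => (lvl_beta h x).symm) (by rw [hd, hd']) (by rw [hd']; exact deg2_prime M)
    (FNAdjoin.jd M' M' dvd_rfl) ?_ f
  have h3 : (heckeBetaBar Kbar M' s : FN M' →+* FN (M' * s)) (FNAdjoin.jd M' M' dvd_rfl) =
      FNAdjoin.jd (M' * s) (M' * s) (Dvd.intro 1 (mul_one _)) := AtkinLehner.beta_jd M' dvd_rfl
  rw [h3]
  exact jd_not_mem_range_lvl _ e' (M' * s) 1 (mul_one _).symm (by norm_num)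

theorem nrmKV_aPull (e : M' = M * 2) (hs : ¬ 2 ∣ s) (m : ℕ) (x : KV Kbar (FN M') m) :
    nrmKV (Nat.mul_dvd_mul_right h s) m (DR.Hecke.aPull M' s m x) =
      DR.Hecke.aPull M s m (nrmKV h m x) := by
  obtain ⟨u, rfl⟩ := KV.mk_surjective x
  rw [DR.Hecke.aPull_mk, nrmKV_mk, nrmKV_mk, DR.Hecke.aPull_mk]
  refine congrArg KV.mk (Subtype.ext (Units.ext ?_))
  exact (normAlong_lvl_alpha h e hs _).symm

theorem nrmKV_bPull (e : M' = M * 2) (hs : ¬ 2 ∣ s) (m : ℕ) (x : KV Kbar (FN M') m) :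
    nrmKV (Nat.mul_dvd_mul_right h s) m (DR.Hecke.bPull M' s m x) =
      DR.Hecke.bPull M s m (nrmKV h m x) := by
  obtain ⟨u, rfl⟩ := KV.mk_surjective x
  rw [DR.Hecke.bPull_mk, nrmKV_mk, nrmKV_mk, DR.Hecke.bPull_mk]
  refine congrArg KV.mk (Subtype.ext (Units.ext ?_))
  exact (normAlong_lvl_beta h e hs _).symm

theorem lvlKV_aPull (m : ℕ) (x : KV Kbar (FN M) m) :
    lvlKV (Nat.mul_dvd_mul_right h s) m (DR.Hecke.aPull M s m x) =
      DR.Hecke.aPull M' s m (lvlKV h m x) := by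
  obtain ⟨u, rfl⟩ := KV.mk_surjective x
  rw [DR.Hecke.aPull_mk, lvlKV_mk, lvlKV_mk, DR.Hecke.aPull_mk]
  refine congrArg KV.mk (Subtype.ext (Units.ext ?_))
  exact lvl_alpha h _

theorem lvlKV_bPull (m : ℕ) (x : KV Kbar (FN M) m) :
    lvlKV (Nat.mul_dvd_mul_right h s) m (DR.Hecke.bPull M s m x) =
      DR.Hecke.bPull M' s m (lvlKV h m x) := by
  obtain ⟨u, rfl⟩ := KV.mk_surjective x
  rw [DR.Hecke.bPull_mk, lvlKV_mk, lvlKV_mk, DR.Hecke.bPull_mk]
  refine congrArg KV.mk (Subtype.ext (Units.ext ?_))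
  exact lvl_beta h _

end baseChange

end Fermat.Agent.S43.Ctrl.Neat
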