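import Fermat.Agent.S43.Ctrl.DeepRep
import Fermat.Agent.S43.GoodRed.Conc
import Fermat.Agent.S36R.Val.Deliver
import Fermat.Agent.GAL.INJ.Neat
import Fermat.Agent.GAL.Hecke.ES

/-!
# S43 / CTRL, file `RedInj`: representatives over `K0`, descent of roots, and the fields `inj0, inj1, inj2` of `AbsY`

`S : Setup A L s`, `L` neat, `n` prime to `s`.

* `exists_rep_K0`  : every class of `V_n(L)` is the class of `bc0 u`, `u` over `K0`, a Gauss unit;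
* `isRep_d1`, `isRep_dss` : `d1 [u] = [p0 u]`, `dss [u] = [p2 u]`;
* `isU_p0`, `isU_p2` : `p0 u`, `p2 u` are units at the three `W j`;
* `exists_root_of_isRep` : two representatives over `K0` of the same class, units at `W 0`, differ by an `n`-th power of `S.F`;
* `inj0, inj1, inj2`.
-/

set_option autoImplicit false
set_option linter.unusedSectionVars false

noncomputable section

namespace Fermat.Agent.S43.Ctrl.RedInj

open AlgebraicCurve ModularCurve Fermat.Agent.S24 Fermat.Agent.GAL Fermat.Agent.GAL.Hecke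
  Fermat.Agent.GAL.Gauss Fermat.Agent.DR Fermat.Agent.DR.Conc Fermat.Agent.S36R
  Fermat.Agent.S36R.NormC Fermat.Agent.S36.StepA

variable {A : ValuationSubring Kbar} {L s : ℕ} [NeZero L] [NeZero s] (S : Setup A L s)

include S in
/-- `L` is invertible in the residue field. -/
theorem Setup_hM : ((L : ℕ) : IsLocalRing.ResidueField ↥A) ≠ 0 :=
  natCast_M_ne_zero A L s S.hq S.hqM S.hA

include S in
theorem Setup_not_dvd {n : ℕ} (hns : n.Coprime s) : ¬ s ∣ n := fun h' =>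
  S.hq.one_lt.ne' (Nat.eq_one_of_dvd_coprimes hns h' dvd_rfl)

include S in
/-- `n` is invertible in the residue field. -/
theorem Setup_hn {n : ℕ} (hns : n.Coprime s) : ((n : ℕ) : IsLocalRing.ResidueField ↥A) ≠ 0 := by
  have := Hecke.charP_residueField A S.hq S.hA
  rw [Ne, CharP.cast_eq_zero_iff (IsLocalRing.ResidueField ↥A) s]
  exact Setup_not_dvd S hns

/-- **REP**: every class of level `L` is represented by a Gauss unit over `K0`. -/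
theorem exists_rep_K0 (hneat : 4 ∣ L ∨ 9 ∣ L) {n : ℕ} (hn : 0 < n) (hns : n.Coprime s)
    (z : KV Kbar (FN L) n) :
    ∃ (u : (FF (K0 A) L)ˣ)
      (hu : Units.map (bc0 A L : FF (K0 A) L →* FN L) u ∈ kummerUnits Kbar (FN L) n),
      KV.mk ⟨_, hu⟩ = z ∧ (RM A L (Setup_hM S)).red (bc0 A L (u : FF (K0 A) L)) ≠ 0 := by
  have hinv : ∀ τ ∈ A.inertiaSubgroupIn ℚ, τ • z = z := fun τ hτ =>
    Hecke.inertia_smul L n s hn S.hq S.hqM A S.hA
      (INJ.hecke_INJ_neat Igusa.cuspUpper Igusa.cuspLower A L (Setup_hM S) hneat n (Setup_hn S hns))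
      τ hτ z
  obtain ⟨u0, -, hu0, rfl⟩ := exists_kummerUnit0_rep A L hn.ne' z hinv
  obtain ⟨x, hx⟩ := red_zpow_smul_bc0_ne_zero L (Setup_hM S) S.hq S.hA (u0 : FF (K0 A) L) u0.ne_zero
  have hs0 : (s : K0 A) ≠ 0 := by exact_mod_cast S.hq.ne_zero
  have hs0' : (s : Kbar) ≠ 0 := by exact_mod_cast S.hq.ne_zero
  obtain ⟨d, hd⟩ := IsAlgClosed.exists_pow_nat_eq ((s : Kbar) ^ x) hn
  have hd0 : d ≠ 0 := by
    rintro rfl
    rw [zero_pow hn.ne'] at hd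
    exact zpow_ne_zero x hs0' hd.symm
  have hc0 : algebraMap (K0 A) (FF (K0 A) L) ((s : K0 A) ^ x) ≠ 0 :=
    (map_ne_zero _).2 (zpow_ne_zero x hs0)
  have hD0 : algebraMap Kbar (FN L) d ≠ 0 := (map_ne_zero _).2 hd0
  have hbc : bc0 A L (algebraMap (K0 A) (FF (K0 A) L) ((s : K0 A) ^ x))
      = algebraMap Kbar (FN L) d ^ n := by
    rw [bc0_algebraMap, ← map_pow, hd]
    congr 1
  have key : Units.map (bc0 A L : FF (K0 A) L →* FN L) (Units.mk0 _ hc0 * u0)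
      = Units.mk0 _ hD0 ^ n * Units.map (bc0 A L : FF (K0 A) L →* FN L) u0 := by
    rw [map_mul]
    congr 1
    apply Units.ext
    rw [Units.val_pow_eq_pow_val, Units.val_mk0, ← hbc]
    rfl
  refine ⟨Units.mk0 _ hc0 * u0, ?_, ?_, ?_⟩
  · rw [key]
    exact mul_mem (pow_mem_kummerUnits n _) hu0
  · rw [KV.mk_eq_mk_iff]
    exact ⟨Units.mk0 _ hD0, key.symm⟩
  · have e : bc0 A L ((Units.mk0 _ hc0 * u0 : (FF (K0 A) L)ˣ) : FF (K0 A) L)
        = ((s : Kbar) ^ x) • (bc0 A L (u0 : FF (K0 A) L) : FN L) := by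
      rw [Units.val_mul, Units.val_mk0, map_mul, bc0_algebraMap, Algebra.smul_def]
      congr 2
    rw [e]
    exact hx

section rep

variable {n : ℕ}

theorem bc0_p0 (u : FF (K0 A) L) : bc0 A (L * s * s) (S.p0 u)
    = heckeAlphaBar Kbar (L * s) s (heckeAlphaBar Kbar L s (bc0 A L u)) := by
  rw [S.p0_apply, S.bc0_al, S.bc0_al1']

theorem bc0_p2 (u : FF (K0 A) L) : bc0 A (L * s * s) (S.p2 u)
    = heckeBetaBar Kbar (L * s) s (heckeBetaBar Kbar L s (bc0 A L u)) := by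
  rw [S.p2_apply, S.bc0_be, S.bc0_be1']

/-- `u(t) ↦ u(t^s)`. -/
def p1 : FF (K0 A) L →ₐ[K0 A] S.F := S.al.comp S.be1'

theorem p1_apply (u : FF (K0 A) L) : p1 S u = S.al (S.be1' u) := rfl

theorem bc0_p1 (u : FF (K0 A) L) : bc0 A (L * s * s) (p1 S u)
    = heckeAlphaBar Kbar (L * s) s (heckeBetaBar Kbar L s (bc0 A L u)) := by
  rw [p1_apply, S.bc0_al, S.bc0_be1']

theorem isRep_ds (u : (FF (K0 A) L)ˣ)
    (hu : Units.map (bc0 A L : FF (K0 A) L →* FN L) u ∈ kummerUnits Kbar (FN L) n) :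
    IsRep S n (ds L s n (KV.mk ⟨_, hu⟩)) (Units.map (p1 S : FF (K0 A) L →* S.F) u) := by
  have key : Units.map (bc0 A (L * s * s) : S.F →* FN (L * s * s))
      (Units.map (p1 S : FF (K0 A) L →* S.F) u)
      = DR.Hecke.aUnits (L * s) s (DR.Hecke.bUnits L s
          (Units.map (bc0 A L : FF (K0 A) L →* FN L) u)) :=
    Units.ext (bc0_p1 S (u : FF (K0 A) L))
  refine ⟨by rw [key]; exact DR.Hecke.aUnits_mem n (DR.Hecke.bUnits_mem n hu), ?_⟩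
  rw [ds, AddMonoidHom.comp_apply, DR.Hecke.bPull_mk, DR.Hecke.aPull_mk]
  exact congrArg KV.mk (Subtype.ext key)

theorem isRep_d1 (u : (FF (K0 A) L)ˣ)
    (hu : Units.map (bc0 A L : FF (K0 A) L →* FN L) u ∈ kummerUnits Kbar (FN L) n) :
    IsRep S n (d1 L s n (KV.mk ⟨_, hu⟩)) (Units.map (S.p0 : FF (K0 A) L →* S.F) u) := by
  have key : Units.map (bc0 A (L * s * s) : S.F →* FN (L * s * s))
      (Units.map (S.p0 : FF (K0 A) L →* S.F) u)
      = DR.Hecke.aUnits (L * s) s (DR.Hecke.aUnits L s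
          (Units.map (bc0 A L : FF (K0 A) L →* FN L) u)) :=
    Units.ext (bc0_p0 S (u : FF (K0 A) L))
  refine ⟨by rw [key]; exact DR.Hecke.aUnits_mem n (DR.Hecke.aUnits_mem n hu), ?_⟩
  rw [d1, AddMonoidHom.comp_apply, DR.Hecke.aPull_mk, DR.Hecke.aPull_mk]
  exact congrArg KV.mk (Subtype.ext key)

theorem isRep_dss (u : (FF (K0 A) L)ˣ)
    (hu : Units.map (bc0 A L : FF (K0 A) L →* FN L) u ∈ kummerUnits Kbar (FN L) n) :
    IsRep S n (dss L s n (KV.mk ⟨_, hu⟩)) (Units.map (S.p2 : FF (K0 A) L →* S.F) u) := by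
  have key : Units.map (bc0 A (L * s * s) : S.F →* FN (L * s * s))
      (Units.map (S.p2 : FF (K0 A) L →* S.F) u)
      = DR.Hecke.bUnits (L * s) s (DR.Hecke.bUnits L s
          (Units.map (bc0 A L : FF (K0 A) L →* FN L) u)) :=
    Units.ext (bc0_p2 S (u : FF (K0 A) L))
  refine ⟨by rw [key]; exact DR.Hecke.bUnits_mem n (DR.Hecke.bUnits_mem n hu), ?_⟩
  rw [dss, AddMonoidHom.comp_apply, DR.Hecke.bPull_mk, DR.Hecke.bPull_mk]
  exact congrArg KV.mk (Subtype.ext key)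

end rep

/-- a Gauss unit of level `L`. -/
theorem gu_of_red_ne_zero {x : FN L} (hx : (RM A L (Setup_hM S)).red x ≠ 0) :
    ∃ r : LaurentSeries (IsLocalRing.ResidueField ↥A), r ≠ 0 ∧
      Red A (x : LaurentSeries Kbar) r :=
  ⟨_, fun h0 => hx (Subtype.ext h0),
    AA.red_of_mem_RM (Setup_hM S) ((RM A L (Setup_hM S)).mem_of_red_ne_zero hx)⟩

theorem isU_W0 {y : S.F} : IsU (S.W 0) y ↔ GU A (S.e0 y) :=
  isU_gVS_iff (h := S.normable_e0)

theorem isU_W1 {y : S.F} : IsU (S.W 1) y ↔ GU A (S.e1 y) :=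
  isU_gVS_iff (h := S.normable_e1)

theorem isU_W2 {y : S.F} : IsU (S.W 2) y ↔ GU A (S.e2 y) :=
  isU_gVS_iff (h := S.normable_e2)

theorem isU_p0 (u : FF (K0 A) L) (hu : (RM A L (Setup_hM S)).red (bc0 A L u) ≠ 0) (j : Fin 3) :
    IsU (S.W j) (S.p0 u) := by
  obtain ⟨r, hr0, hr⟩ := gu_of_red_ne_zero S hu
  have h0 : IsU (S.W 0) (S.p0 u) := (isU_W0 S).2 ⟨r, hr0, by rw [S.e0_p0]; exact hr⟩
  have h1 : IsU (S.W 1) (S.p0 u) := (isU_W1 S).2 ⟨r, hr0, by rw [S.e1_p0]; exact hr⟩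
  have h2 : IsU (S.W 2) (S.p0 u) := (isU_W2 S).2 ⟨_, (map_ne_zero _).2 ((map_ne_zero _).2 hr0),
      by rw [S.e2_p0]; exact (hr.qExpand s).qExpand s⟩
  fin_cases j
  exacts [h0, h1, h2]

theorem e0_p1 (u : FF (K0 A) L) :
    S.e0 (p1 S u) = qExpand Kbar s ((bc0 A L u : FN L) : LaurentSeries Kbar) := by
  rw [p1_apply, S.e0_al, S.d0_be1']

theorem e1_p1 (u : FF (K0 A) L) :
    S.e1 (p1 S u) = qExpand Kbar s ((bc0 A L u : FN L) : LaurentSeries Kbar) := by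
  rw [p1_apply, S.e1_al, S.d0_be1']

theorem e2_p1 (u : FF (K0 A) L) :
    S.e2 (p1 S u) = qExpand Kbar s ((bc0 A L u : FN L) : LaurentSeries Kbar) := by
  rw [p1_apply, S.e2_al, S.d1_be1']

theorem isU_p1 (u : FF (K0 A) L) (hu : (RM A L (Setup_hM S)).red (bc0 A L u) ≠ 0) (j : Fin 3) :
    IsU (S.W j) (p1 S u) := by
  obtain ⟨r, hr0, hr⟩ := gu_of_red_ne_zero S hu
  have h0 : IsU (S.W 0) (p1 S u) :=
    (isU_W0 S).2 ⟨_, (map_ne_zero _).2 hr0, by rw [e0_p1]; exact hr.qExpand s⟩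
  have h1 : IsU (S.W 1) (p1 S u) :=
    (isU_W1 S).2 ⟨_, (map_ne_zero _).2 hr0, by rw [e1_p1]; exact hr.qExpand s⟩
  have h2 : IsU (S.W 2) (p1 S u) :=
    (isU_W2 S).2 ⟨_, (map_ne_zero _).2 hr0, by rw [e2_p1]; exact hr.qExpand s⟩
  fin_cases j
  exacts [h0, h1, h2]

theorem isU_p2 (u : FF (K0 A) L) (hu : (RM A L (Setup_hM S)).red (bc0 A L u) ≠ 0) (j : Fin 3) :
    IsU (S.W j) (S.p2 u) := by
  obtain ⟨r, hr0, hr⟩ := gu_of_red_ne_zero S hu
  have h0 : IsU (S.W 0) (S.p2 u) := (isU_W0 S).2 ⟨_, (map_ne_zero _).2 ((map_ne_zero _).2 hr0),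
      by rw [S.e0_p2]; exact (hr.qExpand s).qExpand s⟩
  have h1 : IsU (S.W 1) (S.p2 u) := (isU_W1 S).2 ⟨r, hr0, by
      rw [S.e1_p2]; exact NormC.red_twist S.hq S.hA hr S.hζ.pow_eq_one _⟩
  have h2 : IsU (S.W 2) (S.p2 u) := (isU_W2 S).2 ⟨r, hr0, by rw [S.e2_p2]; exact hr⟩
  fin_cases j
  exacts [h0, h1, h2]

/-- **ROOT** (= `IsRep.exists_pow` of `DeepRep`). -/
theorem exists_root_of_isRep {n : ℕ} (hn : 0 < n) (hns : n.Coprime s)
    {x : KV Kbar (FN (L * s * s)) n} {f f' : S.Fˣ} (hf : IsRep S n x f) (hf' : IsRep S n x f')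
    (hu : IsU (S.W 0) (f : S.F)) (hu' : IsU (S.W 0) (f' : S.F)) :
    ∃ y : S.F, (f : S.F) = f' * y ^ n := by
  obtain ⟨y, hy⟩ := IsRep.exists_pow S hn hns hf hf' hu hu'
  exact ⟨y, by rw [hy, mul_comm]⟩

/-- the residue computation. -/
theorem red_eq_pow_of_cg {n : ℕ} (hn : 0 < n) {φ : S.F →+* LaurentSeries Kbar}
    {W : ValuationSubring S.F} (h : AA.IsGaussOf A L φ W) {π : FF (K0 A) L →+* S.F}
    (hO : AA.OldData (Setup_hM S) h π) (u : FF (K0 A) L)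
    (hu : (RM A L (Setup_hM S)).red (bc0 A L u) ≠ 0) (y g : S.F) (hy : IsU W y)
    (hc : Cg W (g ^ n) (π u * y ^ n)) :
    ∃ w : Igusa.E (IsLocalRing.ResidueField ↥A) L, w ≠ 0 ∧
      (RM A L (Setup_hM S)).red (bc0 A L u) = w ^ n := by
  obtain ⟨hu', hρ⟩ := hO.red u ((RM A L (Setup_hM S)).mem_of_red_ne_zero hu)
  have hπU : IsU W (π u) := by
    refine isU_of_mem_of_not_lt hu' fun hlt => hu ?_
    rw [← hρ]
    exact (AA.rho_eq_zero_iff h ⟨π u, hu'⟩).2 hlt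
  have hgU : IsU W g := IsU.of_pow hn (hc.isU_left (hπU.mul (hy.pow n)))
  have h0 : AA.rho h (⟨g, hgU.mem⟩ ^ n - ⟨π u, hu'⟩ * ⟨y, hy.mem⟩ ^ n) = 0 :=
    (AA.rho_eq_zero_iff h _).2 hc
  rw [map_sub, map_mul, map_pow, map_pow, hρ, sub_eq_zero] at h0
  have hy0 : AA.rho h ⟨y, hy.mem⟩ ≠ 0 := by
    intro h1
    have := (AA.rho_eq_zero_iff h ⟨y, hy.mem⟩).1 h1
    rw [show (W.valuation ((⟨y, hy.mem⟩ : W) : S.F)) = 1 from hy] at this
    exact lt_irrefl _ this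
  have hg0 : AA.rho h ⟨g, hgU.mem⟩ ≠ 0 := by
    intro h1
    have := (AA.rho_eq_zero_iff h ⟨g, hgU.mem⟩).1 h1
    rw [show (W.valuation ((⟨g, hgU.mem⟩ : W) : S.F)) = 1 from hgU] at this
    exact lt_irrefl _ this
  refine ⟨AA.rho h ⟨g, hgU.mem⟩ / AA.rho h ⟨y, hy.mem⟩, div_ne_zero hg0 hy0, ?_⟩
  rw [div_pow, h0, mul_div_assoc, div_self (pow_ne_zero _ hy0), mul_one]

/-- a class of level `L` whose Gauss-unit representative reduces to an `n`-th power is trivial. -/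
theorem mk_eq_zero_of_red_pow (hneat : 4 ∣ L ∨ 9 ∣ L) {n : ℕ} (hn : 0 < n) (hns : n.Coprime s)
    (U : kummerUnits Kbar (FN L) n) (w : Igusa.E (IsLocalRing.ResidueField ↥A) L) (hw : w ≠ 0)
    (h : (RM A L (Setup_hM S)).red ((U : (FN L)ˣ) : FN L) = w ^ n) : KV.mk U = 0 := by
  have : NeZero n := ⟨hn.ne'⟩
  have hne : (RMq A L s S.hq S.hqM S.hA).red ((U : (FN L)ˣ) : FN L) ≠ 0 := by
    rw [show (RMq A L s S.hq S.hqM S.hA).red ((U : (FN L)ˣ) : FN L) = w ^ n from h]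
    exact pow_ne_zero _ hw
  apply GoodRed.redM_injective A L s S.hq S.hqM S.hA hneat (Setup_not_dvd S hns)
  rw [map_zero, GoodRed.redM_mk A L s S.hq S.hqM S.hA hneat U hne, KV.mk_eq_zero_iff]
  exact ⟨Units.mk0 w hw, Units.ext h.symm⟩

/-- the common core of `inj0, inj1, inj2`. -/
theorem inj_core (hneat : 4 ∣ L ∨ 9 ∣ L) {n : ℕ} (hn : 0 < n) (hns : n.Coprime s) (i : Fin 3)
    {φ : S.F →+* LaurentSeries Kbar} (h : AA.IsGaussOf A L φ (S.W i))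
    {π : FF (K0 A) L →ₐ[K0 A] S.F}
    (hO : AA.OldData (Setup_hM S) h (π : FF (K0 A) L →+* S.F))
    (hπU : ∀ u : FF (K0 A) L, (RM A L (Setup_hM S)).red (bc0 A L u) ≠ 0 →
      ∀ j, IsU (S.W j) (π u))
    (d : KV Kbar (FN L) n →+ KV Kbar (FN (L * s * s)) n)
    (hd : ∀ (u : (FF (K0 A) L)ˣ)
      (hu : Units.map (bc0 A L : FF (K0 A) L →* FN L) u ∈ kummerUnits Kbar (FN L) n),
      IsRep S n (d (KV.mk ⟨_, hu⟩)) (Units.map (π : FF (K0 A) L →* S.F) u))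
    (z : KV Kbar (FN L) n) (hz : d z ∈ DD S n i) : z = 0 := by
  obtain ⟨u, hu, rfl, hred⟩ := exists_rep_K0 S hneat hn hns z
  obtain ⟨f, hf, hfU, g, hg⟩ := hz
  obtain ⟨y, hfy⟩ := exists_root_of_isRep S hn hns hf (hd u hu) (hfU 0) (hπU _ hred 0)
  have hfy' : (f : S.F) = π (u : FF (K0 A) L) * y ^ n := hfy
  have hyU : IsU (S.W i) y := by
    refine IsU.of_pow hn (IsU.of_mul_left (x := π (u : FF (K0 A) L)) ?_ (hπU _ hred i))
    rw [← hfy']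
    exact hfU i
  rw [hfy'] at hg
  obtain ⟨w, hw0, hw⟩ := red_eq_pow_of_cg S hn h hO (u : FF (K0 A) L) hred y g hyU hg
  exact mk_eq_zero_of_red_pow S hneat hn hns _ w hw0 hw

theorem inj0 (hneat : 4 ∣ L ∨ 9 ∣ L) {n : ℕ} (hn : 0 < n) (hns : n.Coprime s)
    (z : KV Kbar (FN L) n) (hz : d1 L s n z ∈ DD S n 0) : z = 0 :=
  inj_core S hneat hn hns 0 (AA.g0 (AA.resOK S)) (AA.old00 (Setup_hM S) (AA.resOK S))
    (isU_p0 S) (d1 L s n) (isRep_d1 S) z hz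

theorem inj1 (hneat : 4 ∣ L ∨ 9 ∣ L) {n : ℕ} (hn : 0 < n) (hns : n.Coprime s)
    (z : KV Kbar (FN L) n) (hz : d1 L s n z ∈ DD S n 1) : z = 0 :=
  inj_core S hneat hn hns 1 (AA.g1 (AA.resOK S)) (AA.old10 (Setup_hM S) (AA.resOK S))
    (isU_p0 S) (d1 L s n) (isRep_d1 S) z hz

theorem inj2 (hneat : 4 ∣ L ∨ 9 ∣ L) {n : ℕ} (hn : 0 < n) (hns : n.Coprime s)
    (z : KV Kbar (FN L) n) (hz : dss L s n z ∈ DD S n 2) : z = 0 :=
  inj_core S hneat hn hns 2 (AA.g2 (AA.resOK S)) (AA.old22 (Setup_hM S) (AA.resOK S))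
    (isU_p2 S) (dss L s n) (isRep_dss S) z hz

end Fermat.Agent.S43.Ctrl.RedInj
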