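import Fermat.Agent.S43.Ctrl.Frob.Deep
import Fermat.Agent.S43.Ctrl.KronF
import Fermat.Agent.DR.Hecke.Galois
import Fermat.Agent.S43.Ctrl.RedInj

/-!
# S43 / CTRL, file `NeatOf`: assembly of `NeatStatement` from the last remaining contract

* `LiftStatement` (R3)   : the fields `lift0, lift1, lift2`.
-/

set_option autoImplicit false
set_option linter.unusedSectionVars false

noncomputable section

namespace Fermat.Agent.S43.Ctrl

open AlgebraicCurve ModularCurve Fermat.Agent.S24 Fermat.Agent.GAL Fermat.Agent.GAL.Hecke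
  Fermat.Agent.DR Fermat.Agent.S36R Fermat.Agent.S36R.NormC

section comm

variable (L s n : ℕ) [NeZero L] [NeZero s] (φ : GQ) (z : KV Kbar (FN L) n)

theorem field_comm1 : frob n (L * s * s) φ (d1 L s n z) = d1 L s n (frob n L φ z) := by
  change φ • (DR.Hecke.aPull (L * s) s n (DR.Hecke.aPull L s n z)) =
    DR.Hecke.aPull (L * s) s n (DR.Hecke.aPull L s n (φ • z))
  rw [DR.Hecke.aPull_smul, DR.Hecke.aPull_smul]

theorem field_comms : frob n (L * s * s) φ (ds L s n z) = ds L s n (frob n L φ z) := by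
  change φ • (DR.Hecke.aPull (L * s) s n (DR.Hecke.bPull L s n z)) =
    DR.Hecke.aPull (L * s) s n (DR.Hecke.bPull L s n (φ • z))
  rw [DR.Hecke.bPull_smul, DR.Hecke.aPull_smul]

theorem field_commss : frob n (L * s * s) φ (dss L s n z) = dss L s n (frob n L φ z) := by
  change φ • (DR.Hecke.bPull (L * s) s n (DR.Hecke.bPull L s n z)) =
    DR.Hecke.bPull (L * s) s n (DR.Hecke.bPull L s n (φ • z))
  rw [DR.Hecke.bPull_smul, DR.Hecke.bPull_smul]

end comm

/-- R3: the liftings. -/
def LiftStatement : Prop :=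
  ∀ (L s : ℕ) [NeZero L] [NeZero s] (A : ValuationSubring Kbar) (S : Setup A L s),
    (4 ∣ L ∨ 9 ∣ L) → ∀ p e : ℕ, p.Prime → p ≠ s → ∀ x ∈ UU S (p ^ e),
      (∃ y, x - d1 L s (p ^ e) y ∈ DD S (p ^ e) 0) ∧ (∃ y, x - d1 L s (p ^ e) y ∈ DD S (p ^ e) 1) ∧
        (∃ y, x - dss L s (p ^ e) y ∈ DD S (p ^ e) 2)

/-- the assembly. -/
theorem neat_of (hLift : LiftStatement) : NeatStatement := by
  intro L s _ _ A S hneat p e hp hps φ hφ
  have hn : 0 < p ^ e := pow_pos hp.pos e
  have hcop : (p ^ e).Coprime s :=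
    Nat.Coprime.pow_left e ((Nat.coprime_primes hp S.hq).2 hps)
  have hR : RepL A L (p ^ e) :=
    repL_of_red (RedInj.Setup_hM S) (RedInj.exists_rep_K0 S hneat hn hcop)
  have hF : FrobL A L φ := frobL_of_frob S hφ L
  have hD := hφ.mem_decompositionSubgroup
  exact
    { comm1 := field_comm1 L s (p ^ e) φ
      comms := field_comms L s (p ^ e) φ
      commss := field_commss L s (p ^ e) φ
      stab := fun i x hx => Frob.stab φ hD S (p ^ e) i x hx
      unit := fun x hx => Frob.unit φ hD S hn.ne' x hx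
      lift0 := fun x hx => (hLift L s A S hneat p e hp hps x hx).1
      lift1 := fun x hx => (hLift L s A S hneat p e hp hps x hx).2.1
      lift2 := fun x hx => (hLift L s A S hneat p e hp hps x hx).2.2
      k0a := field_k0a (S := S) hR hφ hF
      k0b := field_k0b (S := S) hR hφ hF
      k1a := field_k1a (S := S) hR hφ hF
      k1b := field_k1b (S := S) hR
      k2a := field_k2a (S := S) hR hφ hF
      k2b := field_k2b (S := S) hR hφ hF
      inj0 := RedInj.inj0 S hneat hn hcop
      inj1 := RedInj.inj1 S hneat hn hcop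
      inj2 := RedInj.inj2 S hneat hn hcop
      deep := fun x hx => Frob.deep S hneat hφ hn hcop x hx }

/-- **Theorem Y** from the last contract. -/
theorem ctrl_of (hLift : LiftStatement) : CtrlStatement := ctrl_of_neat (neat_of hLift)

end Fermat.Agent.S43.Ctrl
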