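import Fermat.Agent.S36R.Local.Factor
import Fermat.Agent.Lib.PlaceEval

/-!
# S43 / CTRL-RED (R1), abstract form: the reduction of a Kummer function is a Kummer function

`D : S36R.Lvl K F FA` with the contracts of route R of S36 (`Good`, `ChartOK` for the two charts `R₀ ∋ c`, `R₁ ∋ c⁻¹`,
`PointOK` at the closed points of the special fibre of `R₀` and at the cuspidal closed points of `R₁`).
`ρ : D.W i →+* κ` a residue map of the vertical valuation ring `W i`, `κ / k` a function field, `k` algebraically closed,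
`ρ` maps `O` onto the constants `k`.

`ord_dvd` : if `f` is a unit of the three `W j` and `n ∣ ord_P f` for all (horizontal) places `P` of `F / K`, then
`n ∣ ord_Q (ρ f)` for ALL places `Q` of `κ / k`.

PROOF.  `Q` a place of `κ`.  If `ρ c ∈ O_Q` take `R = R₀`, otherwise `R = R₁` (then `ρ c⁻¹ ∈ m_Q`).  `R` is integral over
`O[c^{±1}]`, so `ρ R ⊆ O_Q`; `𝔫 := {r ∈ R | ρ r ∈ m_Q}` is a maximal ideal (`R / 𝔫 = k`), `q ∈ 𝔫`.  `local_factor`:
`f s = G ^ n t`, `s t ∉ 𝔫`, so `ρ s`, `ρ t` are units at `Q`.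
-/

set_option autoImplicit false
set_option linter.unusedSectionVars false

namespace Fermat.Agent.S43.Ctrl.RedOrd

open AlgebraicCurve Fermat.Agent.S36R Fermat.Agent.S36R.Inj Fermat.Agent.Lib.RR
  Fermat.Agent.Lib.PlaceEval

variable {O K F FA k κ : Type*} [CommRing O] [Field K] [Field F] [Field FA] [Algebra K F]
  [Algebra K FA] [Algebra O F] [Algebra O K] [IsScalarTower O K F]
  [Field k] [Field κ] [Algebra k κ] [IsFF k κ] [IsAlgClosed k]
  {D : Lvl K F FA} {q : ℕ}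

/-- a residue map of `W`, mapping `O` onto the constants. -/
structure ResMap (O : Type*) [CommRing O] [Algebra O F] (k : Type*) [Field k] [Algebra k κ]
    (W : ValuationSubring F) (ρ : W →+* κ) : Prop where
  ker : ∀ y : W, ρ y = 0 ↔ W.valuation (y : F) < 1
  const : ∀ (a : O) (h : algebraMap O F a ∈ W), ∃ b : k, ρ ⟨_, h⟩ = algebraMap k κ b
  surj : ∀ b : k, ∃ (a : O) (h : algebraMap O F a ∈ W), ρ ⟨_, h⟩ = algebraMap k κ b

section one

variable {W : ValuationSubring F} {ρ : W →+* κ} (hρ : ResMap O k W ρ)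

include hρ

/-- the image of an element integral over `O[c]` is integral at `Q` if `ρ c` is. -/
theorem mem_of_isIntegral (Q : Place k κ) {c : F} (hc : c ∈ W)
    (hcQ : ρ ⟨c, hc⟩ ∈ Q.toValuationSubring) (hO : ∀ a : O, algebraMap O F a ∈ W)
    {z : F} (hz : z ∈ W) (hint : IsIntegral (Algebra.adjoin O {c}) z) :
    ρ ⟨z, hz⟩ ∈ Q.toValuationSubring := by
  -- `O[c] ⊆ W` and `ρ (O[c]) ⊆ O_Q`
  have hadj : ∀ y ∈ Algebra.adjoin O {c}, ∃ h : y ∈ W, ρ ⟨y, h⟩ ∈ Q.toValuationSubring := by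
    intro y hy
    induction hy using Algebra.adjoin_induction with
    | mem x hx =>
      rw [Set.mem_singleton_iff] at hx
      subst hx
      exact ⟨hc, hcQ⟩
    | algebraMap a =>
      obtain ⟨b, hb⟩ := hρ.const a (hO a)
      exact ⟨hO a, by rw [hb]; exact Q.algebraMap_mem' b⟩
    | add x y _ _ hx hy =>
      obtain ⟨h1, h2⟩ := hx
      obtain ⟨h3, h4⟩ := hy
      refine ⟨W.add_mem _ _ h1 h3, ?_⟩
      have : (⟨x + y, W.add_mem _ _ h1 h3⟩ : W) = ⟨x, h1⟩ + ⟨y, h3⟩ := rfl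
      rw [this, map_add]
      exact Q.toValuationSubring.add_mem _ _ h2 h4
    | mul x y _ _ hx hy =>
      obtain ⟨h1, h2⟩ := hx
      obtain ⟨h3, h4⟩ := hy
      refine ⟨W.mul_mem _ _ h1 h3, ?_⟩
      have : (⟨x * y, W.mul_mem _ _ h1 h3⟩ : W) = ⟨x, h1⟩ * ⟨y, h3⟩ := rfl
      rw [this, map_mul]
      exact Q.toValuationSubring.mul_mem _ _ h2 h4
  -- the ring hom `O[c] → O_Q`
  let g : Algebra.adjoin O {c} →+* W :=
    { toFun := fun y => ⟨y, (hadj y y.2).1⟩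
      map_one' := rfl
      map_mul' := fun _ _ => rfl
      map_zero' := rfl
      map_add' := fun _ _ => rfl }
  obtain ⟨p, hp, hpz⟩ := hint
  -- `ρ z` is a root of the monic polynomial `p.map (ρ ∘ g)` with coefficients in `O_Q`
  have hroot : Polynomial.eval₂ (ρ.comp g) (ρ ⟨z, hz⟩) p = 0 := by
    have h1 : Polynomial.eval₂ g (⟨z, hz⟩ : W) p = 0 := by
      apply Subtype.ext
      have h2 := Polynomial.hom_eval₂ p g W.subtype (⟨z, hz⟩ : W)
      rw [show ((Polynomial.eval₂ g (⟨z, hz⟩ : W) p : W) : F)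
        = W.subtype (Polynomial.eval₂ g (⟨z, hz⟩ : W) p) from rfl, h2]
      exact hpz
    have h3 := Polynomial.hom_eval₂ p g ρ (⟨z, hz⟩ : W)
    rw [h1, map_zero] at h3
    exact h3.symm
  have hI : IsIntegral Q.toValuationSubring (ρ ⟨z, hz⟩) := by
    let g' : Algebra.adjoin O {c} →+* Q.toValuationSubring :=
      (ρ.comp g).codRestrict Q.toValuationSubring.toSubring fun y => (hadj y y.2).2
    refine ⟨p.map g', hp.map g', ?_⟩
    rw [Polynomial.eval₂_map]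
    exact hroot
  obtain ⟨w, hw⟩ := (IsIntegrallyClosed.isIntegral_iff (R := Q.toValuationSubring) (K := κ)).1 hI
  rw [← hw]
  exact w.2

end one

/-- **One chart.**  `Q` a place of `κ` at which `ρ c` is integral. -/
theorem ord_dvd_chart (hD : D.Good O q) {c : F} {R : Subring F} (hR : D.ChartOK O q c R)
    (hK : ∀ a : K, ∃ (k : ℕ) (u : O), (q : K) ^ k * a = algebraMap O K u)
    (hint : ∀ z ∈ R, IsIntegral (Algebra.adjoin O {c}) z)
    (i : Fin 3) {ρ : D.W i →+* κ} (hρ : ResMap O k (D.W i) ρ) (Q : Place k κ)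
    (hcQ : ρ ⟨c, hR.chart.le_W i c hR.chart.c_mem⟩ ∈ Q.toValuationSubring)
    (hP : ∀ (𝔫 : Ideal R) [𝔫.IsMaximal], (q : R) ∈ 𝔫 →
      (∀ x : R, ev Q (ρ ⟨x, hR.chart.le_W i x x.2⟩) = 0 → x ∈ 𝔫) → D.PointOK R 𝔫)
    {n : ℕ} (hn : 0 < n) {f : F} (hf : ∀ j, IsU (D.W j) f)
    (hord : ∀ P : Place K F, (n : ℤ) ∣ P.ord f) (hfW : f ∈ D.W i) :
    (n : ℤ) ∣ Q.ord (ρ ⟨f, hfW⟩) := by
  have hO : ∀ a : O, algebraMap O F a ∈ D.W i := fun a => hR.chart.algebraMap_mem_W a i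
  have hRW : ∀ x : R, (x : F) ∈ D.W i := fun x => hR.chart.le_W i x x.2
  have hRQ : ∀ x : R, ρ ⟨x, hRW x⟩ ∈ Q.toValuationSubring := fun x =>
    mem_of_isIntegral hρ Q _ hcQ hO (hRW x) (hint x x.2)
  -- the evaluation `R → k`
  let ι : R →+* D.W i := Subring.inclusion (fun x hx => hR.chart.le_W i x hx)
  let ψ : R →+* k := (evHom Q).comp ((ρ.comp ι).codRestrict Q.toValuationSubring.toSubring hRQ)
  have hψ : ∀ x : R, ψ x = ev Q (ρ ⟨x, hRW x⟩) := fun x => (ev_of_mem Q (hRQ x)).symm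
  have hsurj : Function.Surjective ψ := by
    intro b
    obtain ⟨a, h, hab⟩ := hρ.surj b
    refine ⟨⟨algebraMap O F a, hR.chart.algebraMap_mem a⟩, ?_⟩
    rw [hψ]
    have : (⟨((⟨algebraMap O F a, hR.chart.algebraMap_mem a⟩ : R) : F), hRW _⟩ : D.W i)
        = ⟨algebraMap O F a, h⟩ := rfl
    rw [this, hab, ev_algebraMap]
  have hmax : (RingHom.ker ψ).IsMaximal := RingHom.ker_isMaximal_of_surjective ψ hsurj
  have hq : (q : R) ∈ RingHom.ker ψ := by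
    rw [RingHom.mem_ker, hψ]
    have h0 : ρ ⟨((q : R) : F), hRW _⟩ = 0 := by
      rw [hρ.ker]
      have := hD.vert.pi_lt i
      rw [map_natCast] at this
      simpa using this
    rw [h0, ev_zero]
  have hPt := hP (RingHom.ker ψ) hq (fun x hx => by rw [RingHom.mem_ker, hψ]; exact hx)
  obtain ⟨G, hG, s, t, hs, ht, e⟩ := Local.local_factor hD hR hK (RingHom.ker ψ) hPt hn hf hord
  -- units at `Q`
  have hunit : ∀ x : R, x ∉ RingHom.ker ψ → ρ ⟨x, hRW x⟩ ≠ 0 ∧ Q.ord (ρ ⟨x, hRW x⟩) = 0 := by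
    intro x hx
    rw [RingHom.mem_ker, hψ] at hx
    have h0 : 0 ≤ Q.ord (ρ ⟨x, hRW x⟩) := (mem_iff Q).1 (hRQ x)
    rw [ev_eq_zero_iff Q h0, not_or] at hx
    exact ⟨hx.1, by omega⟩
  obtain ⟨hs0, hs1⟩ := hunit s hs
  obtain ⟨ht0, ht1⟩ := hunit t ht
  -- `G` is a unit of `W i`
  have hsU : (D.W i).valuation (s : F) = 1 := by
    refine le_antisymm ((ValuationSubring.valuation_le_one_iff _ _).2 (hRW s)) (not_lt.1 fun h => ?_)
    exact hs0 ((hρ.ker _).2 h)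
  have htU : (D.W i).valuation (t : F) = 1 := by
    refine le_antisymm ((ValuationSubring.valuation_le_one_iff _ _).2 (hRW t)) (not_lt.1 fun h => ?_)
    exact ht0 ((hρ.ker _).2 h)
  have hGU : (D.W i).valuation G = 1 := by
    have h1 := congrArg (D.W i).valuation e
    rw [map_mul, map_mul, map_pow, hsU, htU, mul_one, mul_one, show (D.W i).valuation f = 1 from hf i]
      at h1
    exact (pow_eq_one_iff_of_nonneg zero_le hn.ne').1 h1.symm
  have hGW : G ∈ D.W i := (ValuationSubring.valuation_le_one_iff _ _).1 hGU.le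
  have hG0 : ρ ⟨G, hGW⟩ ≠ 0 := by
    rw [Ne, hρ.ker, hGU]
    exact lt_irrefl _
  have hf0 : ρ ⟨f, hfW⟩ ≠ 0 := by
    rw [Ne, hρ.ker, show (D.W i).valuation f = 1 from hf i]
    exact lt_irrefl _
  have e' : ρ ⟨f, hfW⟩ * ρ ⟨s, hRW s⟩ = ρ ⟨G, hGW⟩ ^ n * ρ ⟨t, hRW t⟩ := by
    rw [← map_mul, ← map_pow, ← map_mul]
    congr 1
    exact Subtype.ext e
  have h2 := congrArg Q.ord e'
  rw [Q.ord_mul hf0 hs0, Q.ord_mul (pow_ne_zero _ hG0) ht0, hs1, ht1, add_zero, add_zero,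
    Fermat.Agent.GAL.RED.ord_pow] at h2
  rw [h2]
  exact Dvd.intro _ rfl

/-- **(R1)**: the reduction of a Kummer function which is a unit along the three components is a Kummer function. -/
theorem ord_dvd (hD : D.Good O q) {c : F} {R₀ R₁ : Subring F} (h₀ : D.ChartOK O q c R₀)
    (h₁ : D.ChartOK O q c⁻¹ R₁)
    (hK : ∀ a : K, ∃ (k : ℕ) (u : O), (q : K) ^ k * a = algebraMap O K u)
    (hint₀ : ∀ z ∈ R₀, IsIntegral (Algebra.adjoin O {c}) z)
    (hint₁ : ∀ z ∈ R₁, IsIntegral (Algebra.adjoin O {c⁻¹}) z)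
    (p₀ : ∀ (𝔫 : Ideal R₀) [𝔫.IsMaximal], (q : R₀) ∈ 𝔫 → D.PointOK R₀ 𝔫)
    (p₁ : ∀ (𝔫 : Ideal R₁) [𝔫.IsMaximal], (q : R₁) ∈ 𝔫 →
      (∀ x : R₁, (x : F) = c⁻¹ → x ∈ 𝔫) → D.PointOK R₁ 𝔫)
    (i : Fin 3) {ρ : D.W i →+* κ} (hρ : ResMap O k (D.W i) ρ)
    {n : ℕ} (hn : 0 < n) {f : F} (hf : ∀ j, IsU (D.W j) f)
    (hord : ∀ P : Place K F, (n : ℤ) ∣ P.ord f) (hfW : f ∈ D.W i) (Q : Place k κ) :
    (n : ℤ) ∣ Q.ord (ρ ⟨f, hfW⟩) := by
  by_cases hcQ : ρ ⟨c, h₀.chart.le_W i c h₀.chart.c_mem⟩ ∈ Q.toValuationSubring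
  · exact ord_dvd_chart hD h₀ hK hint₀ i hρ Q hcQ (fun 𝔫 _ hq _ => p₀ 𝔫 hq) hn hf hord hfW
  · -- `ρ c⁻¹` lies in the maximal ideal of `Q`
    have hcW := h₀.chart.le_W i c h₀.chart.c_mem
    have hcW' := h₁.chart.le_W i c⁻¹ h₁.chart.c_mem
    have hc0 : c ≠ 0 := by
      rintro rfl
      apply hcQ
      have : (⟨(0 : F), hcW⟩ : D.W i) = 0 := rfl
      rw [this, map_zero]
      exact Q.toValuationSubring.zero_mem
    have hmul : ρ ⟨c, hcW⟩ * ρ ⟨c⁻¹, hcW'⟩ = 1 := by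
      rw [← map_mul, ← map_one ρ]
      congr 1
      exact Subtype.ext (mul_inv_cancel₀ hc0)
    have hinv : ρ ⟨c⁻¹, hcW'⟩ = (ρ ⟨c, hcW⟩)⁻¹ := eq_inv_of_mul_eq_one_right hmul
    have hordc : Q.ord (ρ ⟨c, hcW⟩) < 0 := by
      rw [mem_iff] at hcQ
      omega
    have hpos : 0 < Q.ord (ρ ⟨c⁻¹, hcW'⟩) := by
      rw [hinv, Q.ord_inv]
      omega
    refine ord_dvd_chart hD h₁ hK hint₁ i hρ Q ((mem_iff Q).2 hpos.le) (fun 𝔫 _ hq h𝔫 => ?_) hn hf
      hord hfW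
    refine p₁ 𝔫 hq fun x hx => h𝔫 x ?_
    have : (⟨(x : F), h₁.chart.le_W i x x.2⟩ : D.W i) = ⟨c⁻¹, hcW'⟩ := Subtype.ext hx
    rw [this]
    exact ev_eq_zero_of_pos Q hpos

end Fermat.Agent.S43.Ctrl.RedOrd
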