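import Fermat.Agent.S43.Ctrl.Defs

/-!
# S43 / CTRL / REP2 : two representatives over `K0` of the same class, units at `W 0`, differ by an `n`-th power in `S.F`

* `isRep_unique` : `IsRep S n x f`, `IsRep S n x f'`, `f, f'` units at `W 0`  ⟹  `f = f' * g ^ n`, `g : S.F` (over `K0`!);
* `isRep_unique'` : moreover `g` is a unit at all `W i` if `f`, `f'` are;
* `isRep_zero` : the case `x = 0`.
-/

set_option autoImplicit false
set_option linter.unusedSectionVars false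

namespace Fermat.Agent.S43.Ctrl

open AlgebraicCurve ModularCurve Fermat.Agent.S24 Fermat.Agent.GAL Fermat.Agent.GAL.Hecke
  Fermat.Agent.DR Fermat.Agent.S36R Fermat.Agent.S36R.NormC

variable {A : ValuationSubring Kbar} {L s : ℕ} [NeZero L] [NeZero s] (S : Setup A L s) {n : ℕ}

/-- an element of `S.F`, unit at `W 0`, which is an `n`-th power over `Kbar` is an `n`-th power in `S.F`. -/
theorem exists_pow_of_bc0_eq_pow (hn0 : 0 < n) (hn : ¬ s ∣ n) (u : S.F) (hu : IsU (S.W 0) u)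
    (y : FN (L * s * s)) (h : bc0 A (L * s * s) u = y ^ n) : ∃ g : S.F, u = g ^ n := by
  have hG : S.lvl.Good (O0 A) s := S.good
  have hu0 : u ≠ 0 := hu.ne_zero
  obtain ⟨a, y₀, ha, hy₀, e⟩ := exists_const_mul_pow A (L * s * s) hn0 u hu0 y h
  obtain ⟨x, b, hb, hab⟩ := exists_q_zpow_mul_pow A S.hq S.hA hn a ha
  set w : S.F := algebraMap (K0 A) S.F b * y₀ with hw
  have hw0 : w ≠ 0 := mul_ne_zero ((map_ne_zero _).2 hb) hy₀
  have hq0 : (s : S.F) ≠ 0 := hG.q_ne_zero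
  have e2 : u = (s : S.F) ^ x * w ^ n := by
    rw [e, hab, hw, mul_pow, map_mul, map_zpow₀, map_pow, map_natCast, mul_assoc]
  obtain ⟨k, hk⟩ := hG.eW0 w hw0
  have hk' : IsU (S.W 0) (w / (s : S.F) ^ k) := hk
  -- `u = s ^ (x + n k) * (w / s ^ k) ^ n`
  have e3 : u = (s : S.F) ^ (x + n * k) * (w / (s : S.F) ^ k) ^ n := by
    rw [e2, zpow_add₀ hq0, div_pow, mul_comm (n : ℤ) k, zpow_mul, zpow_natCast]
    have : ((s : S.F) ^ k) ^ n ≠ 0 := pow_ne_zero _ (zpow_ne_zero _ hq0)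
    field_simp
  have h1 : IsU (S.W 0) ((s : S.F) ^ (x + n * k)) := by
    rw [e3] at hu
    exact hu.of_mul_right (hk'.pow n)
  have hlt : (S.W 0).valuation (s : S.F) < 1 := hG.q_lt 0
  have hne : (S.W 0).valuation (s : S.F) ≠ 0 := (Valuation.ne_zero_iff _).2 hq0
  have hz : x + n * k = 0 := by
    unfold IsU at h1
    rw [map_zpow₀] at h1
    by_contra hcon
    rcases lt_or_gt_of_ne hcon with hneg | hpos
    · have h2 : ((S.W 0).valuation (s : S.F)) ^ (-(x + n * k)) = 1 := by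
        rw [zpow_neg, h1, inv_one]
      obtain ⟨t, ht⟩ := Int.eq_ofNat_of_zero_le (by omega : 0 ≤ -(x + n * k))
      rw [ht, zpow_natCast] at h2
      have ht0 : t ≠ 0 := by omega
      exact (pow_lt_one₀ zero_le hlt ht0).ne h2
    · obtain ⟨t, ht⟩ := Int.eq_ofNat_of_zero_le (by omega : 0 ≤ (x + n * k))
      rw [ht, zpow_natCast] at h1
      have ht0 : t ≠ 0 := by omega
      exact (pow_lt_one₀ zero_le hlt ht0).ne h1
  refine ⟨w / (s : S.F) ^ k, ?_⟩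
  rw [e3, hz, zpow_zero, one_mul]

variable {S}

/-- **REP2.** -/
theorem isRep_unique (hn0 : 0 < n) (hn : ¬ s ∣ n) {x : KV Kbar (FN (L * s * s)) n} {f f' : S.Fˣ}
    (hf : IsRep S n x f) (hf' : IsRep S n x f') (hu : IsU (S.W 0) (f : S.F))
    (hu' : IsU (S.W 0) (f' : S.F)) : ∃ g : S.F, (f : S.F) = f' * g ^ n := by
  obtain ⟨h1, e1⟩ := hf
  obtain ⟨h2, e2⟩ := hf'
  have e := e1.trans e2.symm
  rw [KV.mk_eq_mk_iff] at e
  obtain ⟨y, hy⟩ := e
  have hy' := congrArg (Units.val) hy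
  simp only [Units.val_mul, Units.val_pow_eq_pow_val, Units.coe_map, MonoidHom.coe_coe] at hy'
  have hf0 : (f' : S.F) ≠ 0 := f'.ne_zero
  obtain ⟨g, hg⟩ := exists_pow_of_bc0_eq_pow S hn0 hn ((f : S.F) / f') (hu.div hu') (y : FN (L * s * s)) (by
    rw [map_div₀, ← hy', mul_div_assoc, div_self ((map_ne_zero _).2 hf0), mul_one])
  refine ⟨g, ?_⟩
  rw [← hg, mul_div_cancel₀ _ hf0]

theorem isRep_unique' (hn0 : 0 < n) (hn : ¬ s ∣ n) {x : KV Kbar (FN (L * s * s)) n} {f f' : S.Fˣ}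
    (hf : IsRep S n x f) (hf' : IsRep S n x f') (hu : ∀ i, IsU (S.W i) (f : S.F))
    (hu' : ∀ i, IsU (S.W i) (f' : S.F)) :
    ∃ g : S.F, (f : S.F) = f' * g ^ n ∧ ∀ i, IsU (S.W i) g := by
  obtain ⟨g, hg⟩ := isRep_unique hn0 hn hf hf' (hu 0) (hu' 0)
  refine ⟨g, hg, fun i => ?_⟩
  have h1 := hu i
  rw [hg] at h1
  exact (h1.of_mul_left (hu' i)).of_pow hn0

theorem isRep_zero (hn0 : 0 < n) (hn : ¬ s ∣ n) {f : S.Fˣ} (hf : IsRep S n 0 f)
    (hu : IsU (S.W 0) (f : S.F)) : ∃ g : S.F, (f : S.F) = g ^ n := by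
  obtain ⟨g, hg⟩ := isRep_unique hn0 hn hf IsRep.zero hu (by rw [Units.val_one]; exact isU_one)
  exact ⟨g, by rw [hg, Units.val_one, one_mul]⟩

end Fermat.Agent.S43.Ctrl
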