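import Mathlib

/-!
# S43 / CTRL-W1 (abstract): the middle vertical valuation ring is determined by the two others

`R` a subring of a field `F`, `ϖ ∈ F`; `W, W' : Fin 3 → ValuationSubring F` two families of "vertical" valuation rings
of the same chart `R`:
* `R ≤ W i`, `ϖ` is a non unit of `W i`, `e(W i) ≤ E` (`disc`),
* `R = R[1/ϖ] ∩ ⋂ W i` (`sat`),
* `W i` is the local ring of `R` at its centre (`loc`),
* the `W i` are pairwise incomparable.
If `W 0 = W' 0` and `W 2 = W' 2` then `W 1 = W' 1`.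

Pure Mathlib; the hypotheses are the fields `vert`, `sat₀`, `loc`, `incomp` of `S36R.Deliver`.
-/

set_option autoImplicit false

namespace Fermat.Agent.S43.Ctrl.W1Abs

variable {F : Type*} [Field F] {ι : Type*}

/-- One family of vertical valuation rings of the chart `R`. -/
structure Fam (ϖ : F) (E : ℕ) (R : Subring F) (W : ι → ValuationSubring F) : Prop where
  pi_ne : ϖ ≠ 0
  pi_lt : ∀ i, (W i).valuation ϖ < 1
  disc : ∀ i (z : F), (W i).valuation z < 1 → (W i).valuation z ^ E ≤ (W i).valuation ϖ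
  le_W : ∀ i, ∀ z ∈ R, z ∈ W i
  sat : ∀ z : F, ϖ * z ∈ R → (∀ i, z ∈ W i) → z ∈ R
  loc : ∀ i, ∀ z ∈ W i, ∃ r s : R, (W i).valuation (s : F) = 1 ∧ z * s = r

variable {ϖ : F} {E : ℕ} {R : Subring F}

/-- A valuation ring `V ≥ R` in which `ϖ` is not a unit: its centre contains the centre of one of the `W i`. -/
theorem exists_centre_le [Fintype ι] {W : ι → ValuationSubring F} (h : Fam ϖ E R W)
    (V : ValuationSubring F) (hRV : ∀ z ∈ R, z ∈ V) (hπV : V.valuation ϖ < 1) :
    ∃ i, ∀ r ∈ R, (W i).valuation r < 1 → V.valuation r < 1 := by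
  classical
  by_contra hcon
  push Not at hcon
  choose r hrR hrW hrV using hcon
  have hrV1 : ∀ i, V.valuation (r i) = 1 := fun i =>
    le_antisymm ((V.valuation_le_one_iff _).2 (hRV _ (hrR i))) (hrV i)
  set ρ : F := ∏ i, r i with hρ
  have hρR : ρ ∈ R := Subring.prod_mem R fun i _ => hrR i
  have hρV : V.valuation ρ = 1 := by
    rw [hρ, map_prod]
    exact Finset.prod_eq_one fun i _ => hrV1 i
  have hρW : ∀ i, (W i).valuation ρ < 1 := by
    intro i
    have h1 : ρ = r i * ∏ j ∈ Finset.univ.erase i, r j := by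
      rw [hρ, Finset.mul_prod_erase _ _ (Finset.mem_univ i)]
    have h2 : (W i).valuation (∏ j ∈ Finset.univ.erase i, r j) ≤ 1 :=
      ((W i).valuation_le_one_iff _).2 (h.le_W i _ (Subring.prod_mem R fun j _ => hrR j))
    rw [h1, map_mul]
    calc (W i).valuation (r i) * (W i).valuation (∏ j ∈ Finset.univ.erase i, r j)
        ≤ (W i).valuation (r i) * 1 := by gcongr
      _ = (W i).valuation (r i) := mul_one _
      _ < 1 := hrW i
  have hz : ρ ^ E / ϖ ∈ R := by
    apply h.sat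
    · rw [mul_div_cancel₀ _ h.pi_ne]
      exact pow_mem hρR E
    · intro i
      rw [← (W i).valuation_le_one_iff, map_div₀, map_pow]
      have hne : (W i).valuation ϖ ≠ 0 := ((W i).valuation.ne_zero_iff).2 h.pi_ne
      rw [div_le_one₀ (zero_lt_iff.2 hne)]
      exact h.disc i ρ (hρW i)
  have h3 : V.valuation (ρ ^ E) < 1 := by
    have h4 : ρ ^ E = ϖ * (ρ ^ E / ϖ) := by rw [mul_div_cancel₀ _ h.pi_ne]
    rw [h4, map_mul]
    calc V.valuation ϖ * V.valuation (ρ ^ E / ϖ) ≤ V.valuation ϖ * 1 := by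
          gcongr
          exact (V.valuation_le_one_iff _).2 (hRV _ hz)
      _ = V.valuation ϖ := mul_one _
      _ < 1 := hπV
  rw [map_pow, hρV, one_pow] at h3
  exact lt_irrefl _ h3

/-- If the centre of `V'` (a local ring of `R`) contains the centre of `V ≥ R` then `V' ≤ V`. -/
theorem le_of_centre_le {V V' : ValuationSubring F} (hRV : ∀ z ∈ R, z ∈ V)
    (loc' : ∀ z ∈ V', ∃ r s : R, V'.valuation (s : F) = 1 ∧ z * s = r)
    (hc : ∀ r ∈ R, V.valuation r < 1 → V'.valuation r < 1) : V' ≤ V := by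
  intro z hz
  obtain ⟨r, s, hs, hzs⟩ := loc' z hz
  have hsV : V.valuation (s : F) = 1 := by
    refine le_antisymm ((V.valuation_le_one_iff _).2 (hRV _ s.2)) ?_
    by_contra hlt
    exact absurd (hc _ s.2 (not_le.1 hlt)) (by rw [hs]; exact lt_irrefl _)
  have hs0 : (s : F) ≠ 0 := by
    intro h0
    rw [h0, map_zero] at hsV
    exact zero_ne_one hsV
  have hz' : z = r / s := by rw [eq_div_iff hs0, hzs]
  rw [← V.valuation_le_one_iff, hz', map_div₀, hsV, div_one]
  exact (V.valuation_le_one_iff _).2 (hRV _ r.2)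

/-- one inclusion. -/
theorem W1_le {W W' : Fin 3 → ValuationSubring F} (h : Fam ϖ E R W) (h' : Fam ϖ E R W')
    (h0 : W 0 = W' 0) (h2 : W 2 = W' 2) (incomp' : ∀ i j, i ≠ j → ¬ W' i ≤ W' j) :
    W' 1 ≤ W 1 := by
  obtain ⟨i, hi⟩ := exists_centre_le h (W' 1) (h'.le_W 1) (h'.pi_lt 1)
  have hle : W' 1 ≤ W i := le_of_centre_le (h.le_W i) (h'.loc 1) hi
  fin_cases i
  · exact absurd (h0 ▸ hle) (incomp' 1 0 (by decide))
  · exact hle
  · exact absurd (h2 ▸ hle) (incomp' 1 2 (by decide))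

/-- **CTRL-W1**: the middle valuation ring is determined by `W 0`, `W 2` and the chart. -/
theorem W1_eq {W W' : Fin 3 → ValuationSubring F} (h : Fam ϖ E R W) (h' : Fam ϖ E R W')
    (h0 : W 0 = W' 0) (h2 : W 2 = W' 2) (incomp : ∀ i j, i ≠ j → ¬ W i ≤ W j)
    (incomp' : ∀ i j, i ≠ j → ¬ W' i ≤ W' j) : W 1 = W' 1 :=
  le_antisymm (W1_le h' h h0.symm h2.symm incomp) (W1_le h h' h0 h2 incomp')

end Fermat.Agent.S43.Ctrl.W1Abs
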